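import Mathlib
import Fermat.Prelude.Def_FLTPrelim_GaloisRep
import Fermat.Agent.S05.Formulas

/-! # HW / NE-1 : transport of the Galois module `E[n]` along a change of variables over the base field.

`C • E = E'`.  Point map `(x,y) ↦ (u⁻²(x - r), u⁻³(y - s(x - r) - t))` (`Mathlib`: `variableChange_a₁` ...), on `E(K) → E'(K)` with
`u,r,s,t` mapped to `K`.  It is bijective, additive (slopes: `λ' = u⁻¹(λ - s)`; three cases) and commutes with `σ • ·`
(`u,r,s,t` are in the base field).  Submodules are transported by `Submodule.map/comap` of the induced `ZMod n`-linear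
equivalence of the torsion (or directly: `N ↦ {x | f x ∈ N}`). -/

set_option autoImplicit false

namespace Fermat.Agent.HW

open WeierstrassCurve WeierstrassCurve.Affine.Point Fermat.Agent.S05
open scoped WeierstrassCurve.Affine

section VC

variable {K : Type*} [Field K] (C : VariableChange K) (W : WeierstrassCurve K)

/-- new `x`-coordinate -/
def vcX (x : K) : K := (C.u⁻¹ : Kˣ) ^ 2 * (x - C.r)

/-- new `y`-coordinate -/
def vcY (x y : K) : K := (C.u⁻¹ : Kˣ) ^ 3 * (y - C.s * (x - C.r) - C.t)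

theorem vc_winv_ne_zero : ((C.u⁻¹ : Kˣ) : K) ≠ 0 := (C.u⁻¹).ne_zero

theorem vcX_injective : Function.Injective (vcX C) := by
  intro x x' h
  have := mul_left_cancel₀ (pow_ne_zero 2 (vc_winv_ne_zero C)) h
  exact sub_left_injective this

theorem vcY_injective (x : K) : Function.Injective (vcY C x) := by
  intro y y' h
  have := mul_left_cancel₀ (pow_ne_zero 3 (vc_winv_ne_zero C)) h
  exact sub_left_injective (sub_left_injective this)

theorem vc_equation (x y : K) :
    (C • W).toAffine.Equation (vcX C x) (vcY C x y) ↔ W.toAffine.Equation x y := by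
  rw [Affine.equation_iff', Affine.equation_iff']
  have hw := vc_winv_ne_zero C
  have key : vcY C x y ^ 2 + (C • W).a₁ * vcX C x * vcY C x y + (C • W).a₃ * vcY C x y
      - (vcX C x ^ 3 + (C • W).a₂ * vcX C x ^ 2 + (C • W).a₄ * vcX C x + (C • W).a₆)
      = (C.u⁻¹ : Kˣ) ^ 6 * (y ^ 2 + W.a₁ * x * y + W.a₃ * y
        - (x ^ 3 + W.a₂ * x ^ 2 + W.a₄ * x + W.a₆)) := by
    simp only [variableChange_a₁, variableChange_a₂, variableChange_a₃, variableChange_a₄,
      variableChange_a₆, vcX, vcY]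
    ring
  rw [key, mul_eq_zero, or_iff_right (pow_ne_zero 6 hw)]

theorem vc_nonsingular (x y : K) :
    (C • W).toAffine.Nonsingular (vcX C x) (vcY C x y) ↔ W.toAffine.Nonsingular x y := by
  rw [Affine.nonsingular_iff', Affine.nonsingular_iff', vc_equation]
  have hw := vc_winv_ne_zero C
  have keyY : 2 * vcY C x y + (C • W).a₁ * vcX C x + (C • W).a₃
      = (C.u⁻¹ : Kˣ) ^ 3 * (2 * y + W.a₁ * x + W.a₃) := by
    simp only [variableChange_a₁, variableChange_a₃, vcX, vcY]
    ring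
  have keyX : (C • W).a₁ * vcY C x y - (3 * vcX C x ^ 2 + 2 * (C • W).a₂ * vcX C x + (C • W).a₄)
      = (C.u⁻¹ : Kˣ) ^ 4 * ((W.a₁ * y - (3 * x ^ 2 + 2 * W.a₂ * x + W.a₄))
        + C.s * (2 * y + W.a₁ * x + W.a₃)) := by
    simp only [variableChange_a₁, variableChange_a₂, variableChange_a₄, vcX, vcY]
    ring
  rw [keyX, keyY]
  refine and_congr_right fun _ => ?_
  rw [← not_iff_not]
  simp only [not_or, not_not, mul_eq_zero, pow_ne_zero 3 hw, pow_ne_zero 4 hw, false_or]
  constructor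
  · rintro ⟨h1, h2⟩
    rw [h2, mul_zero, add_zero] at h1
    exact ⟨h1, h2⟩
  · rintro ⟨h1, h2⟩
    rw [h1, h2, mul_zero, add_zero]
    exact ⟨rfl, rfl⟩

theorem vc_negY (x y : K) :
    (C • W).toAffine.negY (vcX C x) (vcY C x y) = vcY C x (W.toAffine.negY x y) := by
  simp only [Affine.negY, variableChange_a₁, variableChange_a₃, vcX, vcY]
  ring

theorem vc_addX (x₁ x₂ l : K) :
    (C • W).toAffine.addX (vcX C x₁) (vcX C x₂) ((C.u⁻¹ : Kˣ) * (l - C.s))
      = vcX C (W.toAffine.addX x₁ x₂ l) := by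
  simp only [Affine.addX, variableChange_a₁, variableChange_a₂, vcX]
  ring

theorem vc_addY (x₁ x₂ y₁ l : K) :
    (C • W).toAffine.addY (vcX C x₁) (vcX C x₂) (vcY C x₁ y₁) ((C.u⁻¹ : Kˣ) * (l - C.s))
      = vcY C (W.toAffine.addX x₁ x₂ l) (W.toAffine.addY x₁ x₂ y₁ l) := by
  simp only [Affine.addY, Affine.negAddY, Affine.negY, Affine.addX, variableChange_a₁,
    variableChange_a₂, variableChange_a₃, vcX, vcY]
  ring

variable [DecidableEq K]

theorem vc_slope {x₁ x₂ y₁ y₂ : K} (h₁ : W.toAffine.Equation x₁ y₁)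
    (h₂ : W.toAffine.Equation x₂ y₂) (hxy : ¬(x₁ = x₂ ∧ y₁ = W.toAffine.negY x₂ y₂)) :
    (C • W).toAffine.slope (vcX C x₁) (vcX C x₂) (vcY C x₁ y₁) (vcY C x₂ y₂)
      = (C.u⁻¹ : Kˣ) * (W.toAffine.slope x₁ x₂ y₁ y₂ - C.s) := by
  have hw := vc_winv_ne_zero C
  by_cases hx : x₁ = x₂
  · subst hx
    have hy : y₁ ≠ W.toAffine.negY x₁ y₂ := fun h => hxy ⟨rfl, h⟩
    have hy' : vcY C x₁ y₁ ≠ (C • W).toAffine.negY (vcX C x₁) (vcY C x₁ y₂) := by
      rw [vc_negY]
      exact fun h => hy (vcY_injective C x₁ h)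
    have hyy : y₁ = y₂ := Affine.Y_eq_of_Y_ne h₁ h₂ rfl hy
    subst hyy
    rw [Affine.slope_of_Y_ne rfl hy, Affine.slope_of_Y_ne rfl hy', vc_negY]
    have h1 : y₁ - W.toAffine.negY x₁ y₁ ≠ 0 := sub_ne_zero.2 hy
    have h2 : vcY C x₁ y₁ - vcY C x₁ (W.toAffine.negY x₁ y₁) ≠ 0 :=
      sub_ne_zero.2 fun h => hy (vcY_injective C x₁ h)
    rw [div_eq_iff h2]
    have hq := div_mul_cancel₀ (3 * x₁ ^ 2 + 2 * W.a₂ * x₁ + W.a₄ - W.a₁ * y₁) h1
    simp only [Affine.negY] at hq ⊢
    simp only [vcX, vcY, variableChange_a₁, variableChange_a₂, variableChange_a₄]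
    linear_combination (-(C.u⁻¹ : Kˣ) ^ 4 : K) * hq
  · have hx' : vcX C x₁ ≠ vcX C x₂ := fun h => hx (vcX_injective C h)
    rw [Affine.slope_of_X_ne hx, Affine.slope_of_X_ne hx']
    have h1 : x₁ - x₂ ≠ 0 := sub_ne_zero.2 hx
    have h2 : vcX C x₁ - vcX C x₂ ≠ 0 := sub_ne_zero.2 hx'
    rw [div_eq_iff h2]
    have hq : (y₁ - y₂) / (x₁ - x₂) * (x₁ - x₂) = y₁ - y₂ := div_mul_cancel₀ _ h1
    simp only [vcX, vcY]
    linear_combination (-(C.u⁻¹ : Kˣ) ^ 3 : K) * hq

/-- the point map attached to a change of variables -/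
def vcFun : W.toAffine.Point → (C • W).toAffine.Point
  | .zero => 0
  | .some x y h => .some (vcX C x) (vcY C x y) ((vc_nonsingular C W x y).2 h)

theorem vcFun_add (P Q : W.toAffine.Point) :
    vcFun C W (P + Q) = vcFun C W P + vcFun C W Q := by
  rcases P with _ | ⟨x₁, y₁, h₁⟩
  · exact (zero_add _).symm
  rcases Q with _ | ⟨x₂, y₂, h₂⟩
  · exact (add_zero _).symm
  by_cases hxy : x₁ = x₂ ∧ y₁ = W.toAffine.negY x₂ y₂
  · rw [add_of_Y_eq hxy.1 hxy.2]
    simp only [vcFun]
    rw [add_of_Y_eq (by rw [hxy.1]) (by rw [vc_negY, ← hxy.2, hxy.1])]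
  · have hxy' : ¬(vcX C x₁ = vcX C x₂ ∧
        vcY C x₁ y₁ = (C • W).toAffine.negY (vcX C x₂) (vcY C x₂ y₂)) := by
      rintro ⟨hx, hy⟩
      have hx := vcX_injective C hx
      subst hx
      rw [vc_negY] at hy
      exact hxy ⟨rfl, vcY_injective C x₁ hy⟩
    rw [add_some hxy]
    simp only [vcFun]
    rw [add_some hxy']
    simp only [some.injEq]
    rw [vc_slope C W h₁.1 h₂.1 hxy, vc_addX, vc_addY]
    exact ⟨rfl, rfl⟩

omit [DecidableEq K] in
theorem vcFun_injective : Function.Injective (vcFun C W) := by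
  rintro (_ | ⟨x₁, y₁, h₁⟩) (_ | ⟨x₂, y₂, h₂⟩) h
  · rfl
  · exact absurd h (by simp [vcFun])
  · exact absurd h (by simp [vcFun])
  · simp only [vcFun, some.injEq] at h
    have hx := vcX_injective C h.1
    subst hx
    have hy := vcY_injective C x₁ h.2
    subst hy
    rfl

omit [DecidableEq K] in
theorem vcFun_surjective : Function.Surjective (vcFun C W) := by
  rintro (_ | ⟨x, y, h⟩)
  · exact ⟨0, rfl⟩
  · have hu : (C.u : K) * (C.u⁻¹ : Kˣ) = 1 := C.u.mul_inv
    have hx : vcX C ((C.u : K) ^ 2 * x + C.r) = x := by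
      simp only [vcX]
      linear_combination (x * ((C.u : K) * (C.u⁻¹ : Kˣ) + 1)) * hu
    have hy : vcY C ((C.u : K) ^ 2 * x + C.r) ((C.u : K) ^ 3 * y + (C.u : K) ^ 2 * C.s * x + C.t)
        = y := by
      simp only [vcY]
      linear_combination (y * (((C.u : K) * (C.u⁻¹ : Kˣ)) ^ 2 + (C.u : K) * (C.u⁻¹ : Kˣ) + 1)) * hu
    refine ⟨.some ((C.u : K) ^ 2 * x + C.r)
      ((C.u : K) ^ 3 * y + (C.u : K) ^ 2 * C.s * x + C.t)
      ((vc_nonsingular C W _ _).1 (by rw [hx, hy]; exact h)), ?_⟩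
    simp only [vcFun, some.injEq]
    exact ⟨hx, hy⟩

/-- the group isomorphism attached to a change of variables -/
noncomputable def vcEquiv : W.toAffine.Point ≃+ (C • W).toAffine.Point :=
  AddEquiv.ofBijective (AddMonoidHom.mk' (vcFun C W) (vcFun_add C W))
    ⟨vcFun_injective C W, vcFun_surjective C W⟩

theorem vcEquiv_zero' : vcEquiv C W .zero = .zero := rfl

theorem vcEquiv_some {x y : K} (h : W.toAffine.Nonsingular x y) :
    vcEquiv C W (.some x y h) = .some (vcX C x) (vcY C x y) ((vc_nonsingular C W x y).2 h) := rfl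

theorem exists_vcEquiv {W W' : Affine K} (C : VariableChange K) (h : C • W = W') :
    ∃ f : W.Point ≃+ W'.Point,
      ∀ (x y : K) (hxy : W.Nonsingular x y), ∃ h' : W'.Nonsingular _ _,
        f (.some x y hxy) = .some (vcX C x) (vcY C x y) h' := by
  subst h
  exact ⟨vcEquiv C W, fun x y hxy => ⟨_, rfl⟩⟩

end VC

theorem exists_addEquiv_of_variableChange {F K : Type*} [Field F] [Field K] [Algebra F K]
    [DecidableEq K] {E E' : WeierstrassCurve F} (C : VariableChange F) (h : C • E = E') :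
    ∃ f : (E.toAffine⁄K).Point ≃+ (E'.toAffine⁄K).Point,
      ∀ (σ : K ≃ₐ[F] K) (P : (E.toAffine⁄K).Point), f (σ • P) = σ • f P := by
  have hK : (C.map (algebraMap F K)) • (E.toAffine⁄K) = (E'.toAffine⁄K) := by
    rw [← h]
    exact map_variableChange E C (algebraMap F K)
  obtain ⟨f, hf⟩ := exists_vcEquiv (C.map (algebraMap F K)) hK
  refine ⟨f, fun σ P => ?_⟩
  rcases P with _ | ⟨x, y, hxy⟩
  · have h0 : (Affine.Point.zero : (E.toAffine⁄K).Point) = 0 := rfl
    rw [h0, smul_zero, _root_.map_zero, smul_zero]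
  · obtain ⟨h1, e1⟩ := hf x y hxy
    rw [e1, algEquiv_smul_def, algEquiv_smul_def, map_some, map_some]
    obtain ⟨h2, e2⟩ := hf _ _ ((E.toAffine.baseChange_nonsingular σ.toAlgHom.injective ..).mpr hxy)
    refine e2.trans ?_
    simp only [some.injEq]
    have hu : σ.toAlgHom (((C.map (algebraMap F K)).u⁻¹ : Kˣ) : K)
        = (((C.map (algebraMap F K)).u⁻¹ : Kˣ) : K) := by
      simp only [VariableChange.map_u, Units.coe_map_inv, MonoidHom.coe_coe, AlgHom.commutes]
    constructor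
    · simp only [vcX, map_mul, map_pow, map_sub, hu, VariableChange.map_r, AlgHom.commutes]
    · simp only [vcY, map_mul, map_pow, map_sub, hu, VariableChange.map_r, VariableChange.map_s,
        VariableChange.map_t, AlgHom.commutes]

theorem irreducible_of_variableChange {F K : Type*} [Field F] [Field K] [Algebra F K]
    [DecidableEq K] {E E' : WeierstrassCurve F} (C : VariableChange F) (h : C • E = E') (n : ℕ)
    (hirr : GaloisRepIsIrreducible (K := K) F E.toAffine n) :
    GaloisRepIsIrreducible (K := K) F E'.toAffine n := by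
  obtain ⟨f, hf⟩ := exists_addEquiv_of_variableChange (K := K) C h
  -- the induced map on torsion
  have hmem : ∀ P : (E.toAffine⁄K).Point, P ∈ Submodule.torsionBy ℤ (E.toAffine⁄K).Point n ↔
      f P ∈ Submodule.torsionBy ℤ (E'.toAffine⁄K).Point n := by
    intro P
    rw [Submodule.mem_torsionBy_iff, Submodule.mem_torsionBy_iff, ← map_zsmul,
      EmbeddingLike.map_eq_zero_iff]
  let g : Submodule.torsionBy ℤ (E.toAffine⁄K).Point n →+
      Submodule.torsionBy ℤ (E'.toAffine⁄K).Point n :=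
    { toFun := fun P => ⟨f P.1, (hmem P.1).1 P.2⟩
      map_zero' := Subtype.ext (_root_.map_zero f)
      map_add' := fun P Q => Subtype.ext (map_add f P.1 Q.1) }
  have hginj : Function.Injective g := fun P Q hPQ =>
    Subtype.ext (f.injective (congrArg Subtype.val hPQ))
  have hgsurj : Function.Surjective g := by
    intro Q
    obtain ⟨P, hP⟩ := f.surjective Q.1
    exact ⟨⟨P, (hmem P).2 (hP ▸ Q.2)⟩, Subtype.ext hP⟩
  have hgσ : ∀ (σ : K ≃ₐ[F] K) P, g (σ • P) = σ • g P := fun σ P => Subtype.ext (hf σ P.1)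
  obtain ⟨hnt, hN⟩ := hirr
  refine ⟨?_, fun N' hN' => ?_⟩
  · obtain ⟨a, b, hab⟩ := hnt
    exact ⟨g a, g b, fun h => hab (hginj h)⟩
  · rcases hN (Submodule.comap (g.toZModLinearMap n) N') (fun σ x hx => by
      rw [Submodule.mem_comap] at hx ⊢
      change g (σ • x) ∈ N'
      rw [hgσ]
      exact hN' σ _ hx) with h0 | h1
    · left
      rw [eq_bot_iff]
      intro y hy
      obtain ⟨x, rfl⟩ := hgsurj y
      have hx : x ∈ Submodule.comap (g.toZModLinearMap n) N' := hy
      rw [h0, Submodule.mem_bot] at hx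
      rw [hx, _root_.map_zero]
      exact Submodule.zero_mem _
    · right
      rw [eq_top_iff]
      intro y _
      obtain ⟨x, rfl⟩ := hgsurj y
      have hx : x ∈ Submodule.comap (g.toZModLinearMap n) N' := by rw [h1]; trivial
      exact hx

end Fermat.Agent.HW
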