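import Fermat.Agent.HW.Glue
import Fermat.Prelude.Def_FLTPrelim_GaloisRep
import Fermat.Prelude.Def_EllipticCurve_FrobeniusTrace

/-!
# HW: the Frobenius relation for Galois actions (Prelude language)
-/

set_option autoImplicit false
set_option linter.unusedSectionVars false
noncomputable section

namespace Fermat.Agent.HW

open WeierstrassCurve WeierstrassCurve.Affine WeierstrassCurve.Affine.Point
open Fermat.Agent.S05

variable {R S K : Type*} [CommRing R] [Field S] [Field K] [DecidableEq K]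
  [Algebra R S] [Algebra R K] [Algebra S K] [IsScalarTower R S K]

/-- General form: `W'` a curve over `R`, `A` a valuation subring of `K`, `WA` a model over `A` with
good reduction, `τ` a Frobenius element at `A`.  If the `l`-power Frobenius `φ` of the reduction
satisfies `2 • (φ² - aφ + l) = 0`, then `τ² - aτ + l = 0` on `p`-torsion (`p` odd, `p ≠ l`). -/
theorem frob_relation_galois (W' : WeierstrassCurve.Affine R) (A : ValuationSubring K)
    [DecidableEq (IsLocalRing.ResidueField A)]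
    (WA : WeierstrassCurve A) (hW : (W'⁄K) = WA.map A.subtype) (hΔ : IsUnit WA.Δ)
    {p l : ℕ} (hp : p.Prime) (hp2 : p ≠ 2) (hl : l.Prime) (hpl : p ≠ l)
    (hA : A.valuation (l : K) < 1) (τ : K ≃ₐ[S] K) (hτ : A.IsFrobeniusAt τ l)
    (Wk : WeierstrassCurve.Affine (IsLocalRing.ResidueField A))
    (hWk : Wk = WA.map (IsLocalRing.residue A))
    (φ : Wk.Point →+ Wk.Point)
    (hφ : ∀ P : Wk.Point, P ≠ 0 → φ P ≠ 0 ∧ xc (φ P) = xc P ^ l ∧ yc (φ P) = yc P ^ l)
    (a : ℤ) (hC : ∀ P : Wk.Point, 2 • (φ (φ P) - a • φ P + (l : ℤ) • P) = 0)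
    (P : (W'⁄K).Point) (hP : p • P = 0) :
    τ • τ • P - a • (τ • P) + (l : ℤ) • P = 0 := by
  have H : TorsHyp (IsLocalRing.residue A) WA p l :=
    ⟨isResidueMap_residue, hΔ, hp, hp2, hl, hpl, hA⟩
  obtain ⟨hd, hq⟩ := hτ
  refine H.frob_relation (W'⁄K) Wk hW hWk (Point.map (W' := W') τ.toAlgHom)
    (τ : K →+* K) ?_ ?_ φ hφ a hC P hP
  · intro Q hQ
    cases Q with
    | zero => exact absurd rfl hQ
    | some x y h =>
      rw [Point.map_some]
      exact ⟨some_ne_zero _, rfl, rfl⟩
  · intro X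
    refine ⟨(⟨τ, hd⟩ : A.decompositionSubgroup S) • X, rfl, ?_⟩
    exact hq (IsLocalRing.residue A X)

end Fermat.Agent.HW
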