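import Fermat.Agent.HW.Red

/-!
# HW: glue (B) + (C): the Frobenius relation on `p`-torsion in characteristic zero

If a "Frobenius lift" `s` acts on the points of `W` over `K`, and the Frobenius endomorphism `φ` of
the reduced curve satisfies `2 • (φ² - aφ + q) = 0`, then `s² - a s + q = 0` on `p`-torsion.
-/

set_option autoImplicit false
set_option linter.unusedSectionVars false
noncomputable section

namespace Fermat.Agent.HW

open WeierstrassCurve WeierstrassCurve.Affine WeierstrassCurve.Affine.Point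
open Fermat.Agent.S05

theorem eq_zero_of_two_nsmul_of_odd_nsmul {M : Type*} [AddCommGroup M] {R : M} {p : ℕ}
    (hp : Odd p) (h2 : 2 • R = 0) (hpR : p • R = 0) : R = 0 := by
  obtain ⟨m, hm⟩ := hp
  rw [hm, add_smul, mul_comm, mul_smul, h2, smul_zero, zero_add, one_smul] at hpR
  exact hpR

variable {K : Type*} [Field K] [DecidableEq K] {A : ValuationSubring K}
variable {k : Type*} [Field k] [DecidableEq k] {π : A →+* k}
variable {WA : WeierstrassCurve A} {p q : ℕ}

/-- flexible form of the reduction map: for curves `W`, `W'` that are *propositionally* the base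
changes of a model `WA` over `A`. -/
theorem TorsHyp.exists_red (H : TorsHyp π WA p q) (W : WeierstrassCurve.Affine K)
    (W' : WeierstrassCurve.Affine k) (hW : W = WA.map A.subtype) (hW' : W' = WA.map π) :
    ∃ red : Submodule.torsionBy ℤ W.Point (p : ℤ) →+ W'.Point, Function.Injective red ∧
      ∀ P : Submodule.torsionBy ℤ W.Point (p : ℤ), P ≠ 0 → red P ≠ 0 ∧
        ∃ X Y : A, xc (P : W.Point) = X ∧ yc (P : W.Point) = Y ∧
          xc (red P) = π X ∧ yc (red P) = π Y := by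
  subst hW hW'
  exact ⟨H.red, H.red_injective, H.red_coords⟩

/-- **glue**: the quadratic relation for Frobenius lifts on `p`-torsion. -/
theorem TorsHyp.frob_relation (H : TorsHyp π WA p q) (W : WeierstrassCurve.Affine K)
    (W' : WeierstrassCurve.Affine k) (hW : W = WA.map A.subtype) (hW' : W' = WA.map π)
    (s : W.Point →+ W.Point) (σ : K →+* K)
    (hs : ∀ P : W.Point, P ≠ 0 → s P ≠ 0 ∧ xc (s P) = σ (xc P) ∧ yc (s P) = σ (yc P))
    (hσ : ∀ X : A, ∃ X' : A, σ (X : K) = X' ∧ π X' = π X ^ q)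
    (φ : W'.Point →+ W'.Point)
    (hφ : ∀ P : W'.Point, P ≠ 0 → φ P ≠ 0 ∧ xc (φ P) = xc P ^ q ∧ yc (φ P) = yc P ^ q)
    (a : ℤ) (hC : ∀ P : W'.Point, 2 • (φ (φ P) - a • φ P + (q : ℤ) • P) = 0)
    (P : W.Point) (hP : p • P = 0) : s (s P) - a • s P + (q : ℤ) • P = 0 := by
  obtain ⟨red, hinj, hcoord⟩ := H.exists_red W W' hW hW'
  have hmem : ∀ Q : W.Point, p • Q = 0 → Q ∈ Submodule.torsionBy ℤ W.Point (p : ℤ) := by
    intro Q hQ
    rw [Submodule.mem_torsionBy_iff, natCast_zsmul]; exact hQ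
  have hsT : ∀ Q : W.Point, p • Q = 0 → p • s Q = 0 := by
    intro Q hQ
    rw [← map_nsmul, hQ, _root_.map_zero]
  -- compatibility of `red` with `s` and `φ`
  have hcomp : ∀ (Q : W.Point) (hQ : p • Q = 0),
      red ⟨s Q, hmem _ (hsT Q hQ)⟩ = φ (red ⟨Q, hmem _ hQ⟩) := by
    intro Q hQ
    by_cases hQ0 : Q = 0
    · subst hQ0
      have e1 : (⟨s 0, hmem _ (hsT 0 hQ)⟩ : Submodule.torsionBy ℤ W.Point (p : ℤ)) = 0 :=
        Subtype.ext (_root_.map_zero s)
      have e2 : (⟨0, hmem _ hQ⟩ : Submodule.torsionBy ℤ W.Point (p : ℤ)) = 0 := rfl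
      rw [e1, e2, _root_.map_zero, _root_.map_zero]
    · obtain ⟨hs0, hsx, hsy⟩ := hs Q hQ0
      obtain ⟨h1, X, Y, hX, hY, hXk, hYk⟩ := hcoord ⟨Q, hmem _ hQ⟩
        (fun h => hQ0 (congrArg Subtype.val h))
      obtain ⟨h2, X', Y', hX', hY', hXk', hYk'⟩ := hcoord ⟨s Q, hmem _ (hsT Q hQ)⟩
        (fun h => hs0 (congrArg Subtype.val h))
      obtain ⟨h3, hφx, hφy⟩ := hφ _ h1
      obtain ⟨X'', hX'', hπX⟩ := hσ X
      obtain ⟨Y'', hY'', hπY⟩ := hσ Y
      have eX : X' = X'' := Subtype.ext (by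
        rw [← hX', ← hX'']; show xc (s Q) = _; rw [hsx]; exact congrArg σ hX)
      have eY : Y' = Y'' := Subtype.ext (by
        rw [← hY', ← hY'']; show yc (s Q) = _; rw [hsy]; exact congrArg σ hY)
      refine point_ext h2 h3 ?_ ?_
      · rw [hXk', hφx, hXk, eX, hπX]
      · rw [hYk', hφy, hYk, eY, hπY]
  set P₀ : Submodule.torsionBy ℤ W.Point (p : ℤ) := ⟨P, hmem _ hP⟩ with hP₀
  set P₁ : Submodule.torsionBy ℤ W.Point (p : ℤ) := ⟨s P, hmem _ (hsT P hP)⟩ with hP₁
  set P₂ : Submodule.torsionBy ℤ W.Point (p : ℤ) :=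
    ⟨s (s P), hmem _ (hsT _ (hsT P hP))⟩ with hP₂
  have e1 : red P₁ = φ (red P₀) := hcomp P hP
  have e2 : red P₂ = φ (φ (red P₀)) := by rw [← e1]; exact hcomp (s P) (hsT P hP)
  have hR : red (P₂ - a • P₁ + (q : ℤ) • P₀) = 0 := by
    have h2 : 2 • red (P₂ - a • P₁ + (q : ℤ) • P₀) = 0 := by
      rw [map_add, map_sub, map_zsmul, map_zsmul, e1, e2]
      exact hC _
    have hp' : p • red (P₂ - a • P₁ + (q : ℤ) • P₀) = 0 := by
      rw [← map_nsmul]
      have : p • (P₂ - a • P₁ + (q : ℤ) • P₀) = 0 :=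
        Subtype.ext (TorsHyp.nsmul_eq_zero_of_mem (P₂ - a • P₁ + (q : ℤ) • P₀).2)
      rw [this, _root_.map_zero]
    exact eq_zero_of_two_nsmul_of_odd_nsmul (H.hp.eq_two_or_odd'.resolve_left H.hp2) h2 hp'
  have h0 : P₂ - a • P₁ + (q : ℤ) • P₀ = 0 := hinj (by rw [hR, _root_.map_zero])
  exact congrArg Subtype.val h0

end Fermat.Agent.HW
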