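import Fermat.Agent.HW.FrobQuadratic
import Fermat.Agent.HW.Glue
import Fermat.Agent.HW.Galois
import Fermat.Prelude.Def_FLTPrelim_Modularity
import Fermat.Prelude.Def_EllipticCurve_FrobeniusTrace

/-! # HW / FINAL : `Frob_ℓ² - a_ℓ Frob_ℓ + ℓ = 0` on `E[p]`, in the language of the Prelude.

Proof: `k = ResidueField A` has characteristic `ℓ` (`letI := ZMod.algebra k ℓ`), `Eb = (W.reductionMod ℓ)⁄k`,
`RedData` from `map_intCast`; `red (τ • P) = frob (red P)` by comparing coordinates (`IsFrobeniusAt`);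
`Z = τ•τ•P - a•τ•P + ℓ•P` is `p`-torsion, `red (2•Z) = 2•(φφP̄ - aφP̄ + ℓP̄) = 0` by `frob_quadratic`, so `2•Z = 0`, and `p` is odd. -/

set_option autoImplicit false

namespace Fermat.Agent.HW

open WeierstrassCurve Fermat.Agent.S05
open scoped WeierstrassCurve.Affine

theorem map_int_eq {R₁ R₂ : Type*} [CommRing R₁] [CommRing R₂] {T : Type*} [CommRing T]
    (W : WeierstrassCurve ℤ) (f₁ : ℤ →+* R₁) (g₁ : R₁ →+* T) (f₂ : ℤ →+* R₂) (g₂ : R₂ →+* T) :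
    (W.map f₁).map g₁ = (W.map f₂).map g₂ := by
  rw [WeierstrassCurve.map_map, WeierstrassCurve.map_map,
    Subsingleton.elim (g₁.comp f₁) (g₂.comp f₂)]

theorem frobenius_relation (W : WeierstrassCurve ℤ) {ℓ p : ℕ} (hℓ : ℓ.Prime) (hℓ2 : ℓ ≠ 2)
    (hgood : W.IsGoodPrimeFor ℓ) (hp : p.Prime) (hp2 : p ≠ 2) (hpℓ : p ≠ ℓ)
    (A : ValuationSubring (AlgebraicClosure ℚ)) (hA : A.LiesOverPrime ℓ)
    (τ : AlgebraicClosure ℚ ≃ₐ[ℚ] AlgebraicClosure ℚ) (hτ : A.IsFrobeniusAt τ ℓ)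
    (P : ((W.map (Int.castRingHom ℚ)).toAffine⁄(AlgebraicClosure ℚ)).Point) (hP : p • P = 0) :
    τ • τ • P - W.apOfModel ℓ • τ • P + (ℓ : ℤ) • P = 0 := by
  classical
  have : Fact ℓ.Prime := ⟨hℓ⟩
  have hqA : A.valuation ((ℓ : ℕ) : AlgebraicClosure ℚ) < 1 := hA
  have : CharP (IsLocalRing.ResidueField A) ℓ :=
    (CharP.charP_iff_prime_eq_zero hℓ).mpr (residue_natCast_eq_zero A hqA)
  let _ : Algebra (ZMod ℓ) (IsLocalRing.ResidueField A) := ZMod.algebra _ ℓ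
  have hΔ : IsUnit (W.map (Int.castRingHom A)).Δ := by
    rw [WeierstrassCurve.map_Δ, A.valuation_eq_one_iff]
    have := valuation_intCast_eq_one A hℓ hqA (n := W.Δ) hgood
    simpa using this
  have hΔ' : (W.reductionMod ℓ).Δ ≠ 0 := by
    rw [WeierstrassCurve.reductionMod, WeierstrassCurve.map_Δ]
    intro h0
    exact hgood ((ZMod.intCast_zmod_eq_zero_iff_dvd W.Δ ℓ).mp h0)
  have hF := frobData (W.reductionMod ℓ) (IsLocalRing.ResidueField A)
  refine frob_relation_galois (S := ℚ) (W.map (Int.castRingHom ℚ)).toAffine A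
    (W.map (Int.castRingHom A)) (map_int_eq W _ _ _ _) hΔ hp hp2 hℓ hpℓ hqA τ hτ
    ((W.reductionMod ℓ).toAffine⁄(IsLocalRing.ResidueField A)) (map_int_eq W _ _ _ _)
    (frob (W.reductionMod ℓ) (IsLocalRing.ResidueField A))
    (fun Q hQ => ⟨hF.ne Q hQ, hF.hx Q, hF.hy Q⟩) (W.apOfModel ℓ) ?_ P hP
  intro Q
  have h := frob_quadratic (W.reductionMod ℓ) hℓ2 hΔ' Q
  have ha : W.apOfModel ℓ = (ℓ : ℤ) + 1 - (Nat.card (W.reductionMod ℓ).toAffine.Point : ℤ) := by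
    rw [WeierstrassCurve.apOfModel, WeierstrassCurve.traceOfFrobenius, WeierstrassCurve.card,
      Nat.card_zmod]
  rw [ha, ← natCast_zsmul]
  exact h

end Fermat.Agent.HW
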