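import Mathlib

/-! # HW / TOR-2 : `a(X) - s b(X)` has `d = max (deg a) (deg b)` distinct roots (Mathlib only).

`Fs := a.map - C s * b.map ∈ Ω[X]` has degree `d` (top coefficient `a_d - s b_d ≠ 0`: `s` transcendental, `(a_d,b_d) ≠ 0`).
Every root `x` is transcendental over `F` and `b(x) ≠ 0` (else `a(x) = 0 = b(x)` contradicts coprimality, resp.
`s = a(x)/b(x)` would be algebraic).  A double root `x` gives `(a' b - a b')(x) = 0`, hence `a' b = a b'` in `F[X]`;
coprimality ⟹ `b ∣ b'`, `a ∣ a'` ⟹ `a' = b' = 0` ⟹ `(deg a : F) = 0 = (deg b : F)` (coefficient of the derivative)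
⟹ `(d : F) = 0`.  So `Fs` is separable and splits: `d` distinct roots. -/

set_option autoImplicit false

namespace Fermat.Agent.HW

open Polynomial

namespace TorsSep

theorem natDegree_cast_eq_zero_of_derivative {F : Type*} [Field F] {a : F[X]}
    (h : derivative a = 0) : (a.natDegree : F) = 0 := by
  rcases Nat.eq_zero_or_pos a.natDegree with h0 | h0
  · rw [h0, Nat.cast_zero]
  · obtain ⟨n, hn⟩ : ∃ n, a.natDegree = n + 1 := ⟨a.natDegree - 1, by omega⟩
    have h1 := coeff_derivative a n
    rw [h, coeff_zero, ← hn] at h1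
    have ha : a ≠ 0 := by rintro rfl; simp at h0
    have h2 : a.coeff a.natDegree ≠ 0 := by
      rw [coeff_natDegree]; exact leadingCoeff_ne_zero.2 ha
    have h3 := (mul_eq_zero.1 h1.symm).resolve_left h2
    rw [hn]
    push_cast
    exact h3

theorem derivative_eq_zero_of_dvd {F : Type*} [Field F] {a : F[X]} (h : a ∣ derivative a) :
    derivative a = 0 := by
  by_cases ha : a = 0
  · rw [ha, derivative_zero]
  · exact eq_zero_of_dvd_of_degree_lt h (degree_derivative_lt ha)

variable {F Ω : Type*} [Field F] [Field Ω] [Algebra F Ω]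

theorem isAlgebraic_div_aeval {x : Ω} (hx : IsAlgebraic F x) (a b : F[X]) :
    IsAlgebraic F (aeval x a / aeval x b) := by
  rw [← mem_algebraicClosure_iff] at hx ⊢
  have h : ∀ P : F[X], aeval x P ∈ algebraicClosure F Ω := by
    intro P
    have := IntermediateField.aeval_coe (algebraicClosure F Ω) (⟨x, hx⟩ : algebraicClosure F Ω) P
    rw [show ((⟨x, hx⟩ : algebraicClosure F Ω) : Ω) = x from rfl] at this
    rw [this]
    exact SetLike.coe_mem _
  exact div_mem (h a) (h b)

end TorsSep

open TorsSep

theorem exists_roots_finset {F Ω : Type*} [Field F] [Field Ω] [Algebra F Ω] [IsAlgClosed Ω]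
    {a b : F[X]} (hab : IsCoprime a b) {d : ℕ} (hd : max a.natDegree b.natDegree = d)
    (hdF : (d : F) ≠ 0) {s : Ω} (hs : Transcendental F s) :
    ∃ S : Finset Ω, S.card = d ∧
      ∀ x ∈ S, Transcendental F x ∧ aeval x b ≠ 0 ∧ aeval x a = s * aeval x b := by
  classical
  set φ := algebraMap F Ω with hφ
  set Fs : Polynomial Ω := a.map φ - C s * b.map φ with hFs
  have hd0 : d ≠ 0 := by rintro rfl; simp at hdF
  -- evaluation
  have heval : ∀ x : Ω, Fs.eval x = aeval x a - s * aeval x b := by
    intro x
    rw [hFs, eval_sub, eval_mul, eval_C, eval_map_algebraMap, eval_map_algebraMap]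
  have hderiv : ∀ x : Ω, (derivative Fs).eval x =
      aeval x (derivative a) - s * aeval x (derivative b) := by
    intro x
    rw [hFs, derivative_sub, derivative_C_mul, derivative_map, derivative_map, eval_sub, eval_mul,
      eval_C, eval_map_algebraMap, eval_map_algebraMap]
  -- properties of the roots
  have hroot : ∀ x : Ω, Fs.eval x = 0 →
      Transcendental F x ∧ aeval x b ≠ 0 ∧ aeval x a = s * aeval x b := by
    intro x hx
    rw [heval, sub_eq_zero] at hx
    have hb : aeval x b ≠ 0 := by
      intro hb
      rw [hb, mul_zero] at hx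
      obtain ⟨u, v, huv⟩ := hab
      have := congrArg (aeval x) huv
      rw [map_add, map_mul, map_mul, hx, hb, mul_zero, mul_zero, add_zero, map_one] at this
      exact zero_ne_one this
    refine ⟨fun hxa => hs ?_, hb, hx⟩
    have := isAlgebraic_div_aeval hxa a b
    rwa [hx, mul_div_cancel_right₀ _ hb] at this
  -- the degree
  have hcoeff : Fs.coeff d = φ (a.coeff d) - s * φ (b.coeff d) := by
    rw [hFs, coeff_sub, coeff_C_mul, coeff_map, coeff_map]
  have hcoeff0 : Fs.coeff d ≠ 0 := by
    rw [hcoeff, sub_ne_zero]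
    intro h
    by_cases hb : b.coeff d = 0
    · rw [hb, map_zero, mul_zero, map_eq_zero] at h
      rcases max_choice a.natDegree b.natDegree with h1 | h1
      · rw [h1] at hd
        rw [← hd, coeff_natDegree, leadingCoeff_eq_zero] at h
        rw [h, natDegree_zero] at hd
        exact hd0 hd.symm
      · rw [h1] at hd
        rw [← hd, coeff_natDegree, leadingCoeff_eq_zero] at hb
        rw [hb, natDegree_zero] at hd
        exact hd0 hd.symm
    · apply hs
      have hb' : φ (b.coeff d) ≠ 0 := (map_ne_zero φ).2 hb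
      have e : s = φ (a.coeff d / b.coeff d) := by
        rw [map_div₀, h, mul_div_cancel_right₀ _ hb']
      rw [e]
      exact isAlgebraic_algebraMap _
  have hle : Fs.natDegree ≤ d := by
    rw [hFs]
    refine (natDegree_sub_le _ _).trans (max_le ?_ ?_)
    · exact natDegree_map_le.trans (by rw [← hd]; exact le_max_left _ _)
    · exact (natDegree_C_mul_le _ _).trans (natDegree_map_le.trans (by rw [← hd]; exact le_max_right _ _))
  have hdeg : Fs.natDegree = d := le_antisymm hle (le_natDegree_of_ne_zero hcoeff0)
  have hFs0 : Fs ≠ 0 := by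
    intro h; rw [h, coeff_zero] at hcoeff0; exact hcoeff0 rfl
  -- separability
  have hsep : Fs.Separable := by
    rw [separable_def, Polynomial.isCoprime_iff_aeval_ne_zero_of_isAlgClosed (k := Ω) (K := Ω)]
    intro x
    by_contra hcon
    push Not at hcon
    obtain ⟨h1, h2⟩ := hcon
    rw [coe_aeval_eq_eval] at h1 h2
    obtain ⟨hxt, hxb, hxa⟩ := hroot x h1
    rw [hderiv, sub_eq_zero] at h2
    have h3 : aeval x (derivative a * b - a * derivative b) = 0 := by
      rw [map_sub, map_mul, map_mul, h2, hxa]; ring
    have h4 : derivative a * b - a * derivative b = 0 := by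
      by_contra hne
      exact hxt ⟨_, hne, h3⟩
    rw [sub_eq_zero] at h4
    have ha' : derivative a = 0 :=
      derivative_eq_zero_of_dvd (hab.dvd_of_dvd_mul_right (h4 ▸ dvd_mul_right a _))
    have hb' : derivative b = 0 :=
      derivative_eq_zero_of_dvd (hab.symm.dvd_of_dvd_mul_left (h4 ▸ dvd_mul_left b _))
    apply hdF
    rcases max_choice a.natDegree b.natDegree with h5 | h5
    · rw [← hd, h5]; exact natDegree_cast_eq_zero_of_derivative ha'
    · rw [← hd, h5]; exact natDegree_cast_eq_zero_of_derivative hb'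
  refine ⟨Fs.roots.toFinset, ?_, fun x hx => ?_⟩
  · rw [Multiset.toFinset_card_of_nodup (nodup_roots hsep), IsAlgClosed.card_roots_eq_natDegree, hdeg]
  · rw [Multiset.mem_toFinset, mem_roots hFs0] at hx
    exact hroot x hx

end Fermat.Agent.HW
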