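import Fermat.Agent.HW.TorsMul
import Fermat.Agent.HW.TorsSep
import Fermat.Agent.S13.LadderTors
import Fermat.Agent.S13.WPA

/-! # HW / TOR-3,4,5 : `#E[p] = p²` over an algebraically closed field of characteristic `∤ 2p`.

TOR-3 `exists_torsion_finset`: `Ω = AlgebraicClosure (RatFunc k)`, `s = T`, `R = a/b` from `exists_mul_ratFunc` (with `F := k`,
  curve `W⁄k`), `S` from `exists_roots_finset`.  For `x ∈ S` pick `P_x ∈ E(Ω)` with `xc = x` (`S13.exists_point_of_x`), it is generic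
  (`exists_ev`, `Gen` by `IsScalarTower`), so `xc (n P_x) = ev_x R = a(x)/b(x) = s`.  All `n P_x` have the same `x`-coordinate, so
  `n P_x = ± n P_{x₀}`; replace `P_x` by `-P_x` if necessary; `x ↦ P_x - P_{x₀}` is injective into `E[n](Ω)`.
TOR-4 `torsion_descends`: `S13.odd_nsmul_eq_zero_iff`: `xc P` is a root of `torsPoly` (coefficients in `k`, nonzero), `k` algebraically
  closed ⟹ `xc P ∈ k`; `yc P` is a root of a monic quadratic over `k`.
TOR-5 `card_torsionBy`: `≥` from TOR-3,4 and injectivity of `Point.map`; `≤`, `Finite` from `S13.torsSet_finite` / `natDegree_torsPoly`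
  (`#E[p] ≤ 1 + 2 * #roots ≤ 1 + 2 (2j²+2j) = (2j+1)²`). -/

set_option autoImplicit false

namespace Fermat.Agent.HW

open Polynomial WeierstrassCurve Fermat.Agent.S05
open scoped WeierstrassCurve.Affine

/-- `ev` on polynomials is `aeval`. -/
lemma ev_algebraMap_eq_aeval {F L : Type*} [Field F] [Field L] [Algebra F L]
    {ev : RatFunc F →+* L} (hC : ∀ c, ev (RatFunc.C c) = algebraMap F L c) (a : F[X]) :
    ev (algebraMap F[X] (RatFunc F) a) = aeval (ev RatFunc.X) a := by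
  have h : (ev.comp (algebraMap F[X] (RatFunc F))) = ((aeval (ev RatFunc.X) : F[X] →ₐ[F] L) : F[X] →+* L) := by
    apply Polynomial.ringHom_ext
    · intro c
      simp only [RingHom.comp_apply, RingHom.coe_coe, aeval_C]
      rw [← hC]
      congr 1
    · simp only [RingHom.comp_apply, RingHom.coe_coe, aeval_X]
      congr 1
  exact congrArg (fun f => f a) h

lemma transcendental_X_algClosure (k : Type*) [Field k] :
    Transcendental k (algebraMap (RatFunc k) (AlgebraicClosure (RatFunc k)) RatFunc.X) := by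
  intro h
  have h1 : IsAlgebraic k (RatFunc.X : RatFunc k) :=
    (isAlgebraic_algebraMap_iff (algebraMap (RatFunc k) (AlgebraicClosure (RatFunc k))).injective).1 h
  obtain ⟨q, hq0, hq⟩ := h1
  apply hq0
  have : algebraMap k[X] (RatFunc k) q = 0 := by
    rw [← hq]
    have := ev_algebraMap_eq_aeval (F := k) (L := RatFunc k) (ev := RingHom.id _) (fun c => rfl) q
    simp
  exact (map_eq_zero_iff _ (IsFractionRing.injective k[X] (RatFunc k))).1 this

universe u

theorem exists_torsion_finset_aux {F₀ : Type*} {k Ω : Type u} [Field F₀] [Field k] [Algebra F₀ k]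
    [Field Ω] [Algebra k Ω] [Algebra F₀ Ω] [IsScalarTower F₀ k Ω] [IsAlgClosed Ω] [DecidableEq Ω]
    (W : WeierstrassCurve F₀) (h2 : (2 : k) ≠ 0) (hΔ : W.Δ ≠ 0) (n : ℕ) (hn : 1 ≤ n)
    (hnk : (n : k) ≠ 0) {s : Ω} (hs : Transcendental k s) :
    ∃ S : Finset (W.toAffine⁄Ω).Point, S.card = n ^ 2 ∧ ∀ P ∈ S, n • P = 0 := by
  set E : WeierstrassCurve.Affine Ω := (W.toAffine⁄Ω) with hE
  set Wk : WeierstrassCurve k := W.map (algebraMap F₀ k) with hWk
  have hΔk : Wk.Δ ≠ 0 := by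
    rw [hWk, map_Δ]
    exact (_root_.map_ne_zero _).2 hΔ
  have hΔΩ : E.Δ ≠ 0 := by
    have : E.Δ = algebraMap F₀ Ω W.Δ := by
      rw [hE]; exact map_Δ _ _
    rw [this]
    exact (_root_.map_ne_zero _).2 hΔ
  obtain ⟨R, hR, huniv⟩ := exists_mul_ratFunc Wk h2 hΔk n hn
  obtain ⟨a, b, hb, hab, hRab, hdeg⟩ := exists_rep R
  rw [hR] at hdeg
  have hdF : ((n ^ 2 : ℕ) : k) ≠ 0 := by
    push_cast
    exact pow_ne_zero 2 hnk
  obtain ⟨S, hScard, hS⟩ := exists_roots_finset (F := k) (Ω := Ω) hab hdeg.symm hdF hs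
  -- for each root a point with `n • P` of `x`-coordinate `s`
  have key : ∀ x ∈ S, ∃ P : E.Point, xc P = x ∧ n • P ≠ 0 ∧ xc (n • P) = s := by
    intro x hx
    obtain ⟨htr, hbx, hax⟩ := hS x hx
    obtain ⟨P, hP0, hPx⟩ := S13.exists_point_of_x (W := E) hΔΩ x
    obtain ⟨ev, hC, hX⟩ := exists_ev htr
    have hcoef : ∀ c : F₀, algebraMap F₀ Ω c = ev (RatFunc.C (algebraMap F₀ k c)) := by
      intro c
      rw [hC, ← IsScalarTower.algebraMap_apply]
    have hG : Gen Wk E ev P :=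
      { a₁ := hcoef _
        a₂ := hcoef _
        a₃ := hcoef _
        a₄ := hcoef _
        a₆ := hcoef _
        ne := hP0
        hx := by rw [hPx, hX] }
    obtain ⟨h1, h3⟩ := huniv Ω E ev P hG
    refine ⟨P, hPx, h1, ?_⟩
    rw [h3, hRab, map_div₀, ev_algebraMap_eq_aeval hC, ev_algebraMap_eq_aeval hC, hX, hax]
    exact mul_div_cancel_right₀ _ hbx
  have hne : S.Nonempty := by
    rw [← Finset.card_pos, hScard]; positivity
  obtain ⟨x₀, hx₀⟩ := hne
  obtain ⟨P₀, -, hP₀, hP₀s⟩ := key x₀ hx₀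
  have key2 : ∀ x ∈ S, ∃ P : E.Point, xc P = x ∧ n • P = n • P₀ := by
    intro x hx
    obtain ⟨P, hPx, hP, hPs⟩ := key x hx
    rcases (xc_eq_iff hP hP₀).1 (hPs.trans hP₀s.symm) with h | h
    · exact ⟨P, hPx, h⟩
    · exact ⟨-P, by rw [xc_neg, hPx], by rw [neg_nsmul, h, neg_neg]⟩
  choose! g hgx hgn using key2
  classical
  refine ⟨S.image (fun x => g x - g x₀), ?_, ?_⟩
  · rw [Finset.card_image_of_injOn, hScard]
    intro x hx x' hx' hxx
    have h1 : g x = g x' := sub_left_injective hxx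
    rw [← hgx x hx, ← hgx x' hx', h1]
  · intro P hP
    obtain ⟨x, hx, rfl⟩ := Finset.mem_image.1 hP
    rw [nsmul_sub, hgn x hx, hgn x₀ hx₀, sub_self]

theorem exists_torsion_finset {F₀ k : Type*} [Field F₀] [Field k] [Algebra F₀ k]
    (W : WeierstrassCurve F₀) (h2 : (2 : k) ≠ 0) (hΔ : W.Δ ≠ 0) (n : ℕ) (hn : 1 ≤ n)
    (hnk : (n : k) ≠ 0) [DecidableEq (AlgebraicClosure (RatFunc k))] :
    ∃ S : Finset (W.toAffine⁄(AlgebraicClosure (RatFunc k))).Point,
      S.card = n ^ 2 ∧ ∀ P ∈ S, n • P = 0 :=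
  exists_torsion_finset_aux W h2 hΔ n hn hnk (transcendental_X_algClosure k)

/-- an element algebraic over an algebraically closed field lies in it. -/
lemma mem_range_of_isAlgebraic {k Ω : Type*} [Field k] [Field Ω] [Algebra k Ω] [IsAlgClosed k]
    {x : Ω} (hx : IsAlgebraic k x) : ∃ x₀ : k, algebraMap k Ω x₀ = x := by
  have hint : IsIntegral k x := hx.isIntegral
  have h1 : (minpoly k x).degree = 1 :=
    IsAlgClosed.degree_eq_one_of_irreducible k (minpoly.irreducible hint)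
  exact minpoly.mem_range_of_degree_eq_one k x h1

theorem torsion_descends {F₀ k Ω : Type*} [Field F₀] [Field k] [Field Ω] [Algebra F₀ k]
    [Algebra F₀ Ω] [Algebra k Ω] [IsScalarTower F₀ k Ω] [IsAlgClosed k] [DecidableEq k]
    [DecidableEq Ω] (W : WeierstrassCurve F₀) (j : ℕ) (hj : 1 ≤ j)
    (hchar : (2 * (j : k) + 1) ≠ 0) (P : (W.toAffine⁄Ω).Point) (hP : (2 * j + 1) • P = 0) :
    ∃ P₀ : (W.toAffine⁄k).Point,
      Affine.Point.map (W' := W.toAffine) (IsScalarTower.toAlgHom F₀ k Ω) P₀ = P := by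
  by_cases hP0 : P = 0
  · exact ⟨0, by rw [hP0]; rfl⟩
  have hroot := (S13.odd_nsmul_eq_zero_iff hP0 j).1 hP
  have hb : ∀ c : F₀, algebraMap F₀ Ω c = algebraMap k Ω (algebraMap F₀ k c) :=
    fun c => IsScalarTower.algebraMap_apply _ _ _ _
  have hb₂ : (W.toAffine⁄Ω).b₂ = algebraMap k Ω (W.toAffine⁄k).b₂ := by
    change (W.map (algebraMap F₀ Ω)).b₂ = algebraMap k Ω (W.map (algebraMap F₀ k)).b₂
    rw [map_b₂, map_b₂, hb]
  have hb₄ : (W.toAffine⁄Ω).b₄ = algebraMap k Ω (W.toAffine⁄k).b₄ := by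
    change (W.map (algebraMap F₀ Ω)).b₄ = algebraMap k Ω (W.map (algebraMap F₀ k)).b₄
    rw [map_b₄, map_b₄, hb]
  have hb₆ : (W.toAffine⁄Ω).b₆ = algebraMap k Ω (W.toAffine⁄k).b₆ := by
    change (W.map (algebraMap F₀ Ω)).b₆ = algebraMap k Ω (W.map (algebraMap F₀ k)).b₆
    rw [map_b₆, map_b₆, hb]
  have hb₈ : (W.toAffine⁄Ω).b₈ = algebraMap k Ω (W.toAffine⁄k).b₈ := by
    change (W.map (algebraMap F₀ Ω)).b₈ = algebraMap k Ω (W.map (algebraMap F₀ k)).b₈
    rw [map_b₈, map_b₈, hb]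
  rw [hb₂, hb₄, hb₆, hb₈, ← S13.torsPoly_map, eval_map_algebraMap] at hroot
  have hx : IsAlgebraic k (xc P) :=
    ⟨_, S13.torsPoly_ne_zero (W := (W.toAffine⁄k)) j hj hchar, hroot⟩
  obtain ⟨x₀, hx₀⟩ := mem_range_of_isAlgebraic hx
  have heq := equation_xc_yc hP0
  have ha₁ : (W.toAffine⁄Ω).a₁ = algebraMap k Ω (W.toAffine⁄k).a₁ := hb _
  have ha₂ : (W.toAffine⁄Ω).a₂ = algebraMap k Ω (W.toAffine⁄k).a₂ := hb _
  have ha₃ : (W.toAffine⁄Ω).a₃ = algebraMap k Ω (W.toAffine⁄k).a₃ := hb _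
  have ha₄ : (W.toAffine⁄Ω).a₄ = algebraMap k Ω (W.toAffine⁄k).a₄ := hb _
  have ha₆ : (W.toAffine⁄Ω).a₆ = algebraMap k Ω (W.toAffine⁄k).a₆ := hb _
  have hy : IsAlgebraic k (yc P) := by
    obtain ⟨A, hA⟩ : ∃ A : k, A = (W.toAffine⁄k).a₁ * x₀ + (W.toAffine⁄k).a₃ := ⟨_, rfl⟩
    obtain ⟨B, hB⟩ : ∃ B : k, B = x₀ ^ 3 + (W.toAffine⁄k).a₂ * x₀ ^ 2 + (W.toAffine⁄k).a₄ * x₀
      + (W.toAffine⁄k).a₆ := ⟨_, rfl⟩
    refine ⟨X ^ 2 + C A * X - C B, ?_, ?_⟩
    · intro h0
      have hdeg : (X ^ 2 + C A * X - C B : k[X]).degree = 2 := by compute_degree!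
      rw [h0] at hdeg
      simp at hdeg
    · simp only [map_sub, map_add, map_mul, map_pow, aeval_X, aeval_C]
      rw [hA, hB]
      simp only [map_add, map_mul, map_pow, hx₀, ← ha₁, ← ha₂, ← ha₃, ← ha₄, ← ha₆]
      linear_combination heq
  obtain ⟨y₀, hy₀⟩ := mem_range_of_isAlgebraic hy
  have hns := nonsingular_xc_yc hP0
  rw [← hx₀, ← hy₀] at hns
  have hns₀ : (W.toAffine⁄k).Nonsingular x₀ y₀ :=
    (W.toAffine.baseChange_nonsingular (IsScalarTower.toAlgHom F₀ k Ω).injective x₀ y₀).1 hns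
  refine ⟨Affine.Point.some x₀ y₀ hns₀, ?_⟩
  rw [Affine.Point.map_some, eq_some_xc_yc hP0]
  congr 1

section count

variable {K : Type*} [Field K] [DecidableEq K] (E : WeierstrassCurve.Affine K)

lemma mem_torsionBy_natCast_iff (p : ℕ) (P : E.Point) :
    P ∈ Submodule.torsionBy ℤ E.Point (p : ℤ) ↔ p • P = 0 := by
  rw [Submodule.mem_torsionBy_iff, natCast_zsmul]

lemma torsionBy_subset (j : ℕ) :
    ((Submodule.torsionBy ℤ E.Point ((2 * j + 1 : ℕ) : ℤ) : Submodule ℤ E.Point) : Set E.Point)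
      ⊆ insert 0 (S13.torsSet E j) := by
  intro P hP
  by_cases h0 : P = 0
  · left; exact h0
  · right
    exact ⟨h0, (mem_torsionBy_natCast_iff E _ P).1 hP⟩

lemma finite_torsionBy_aux (j : ℕ) (hchar : (2 * (j : K) + 1) ≠ 0) :
    ((Submodule.torsionBy ℤ E.Point ((2 * j + 1 : ℕ) : ℤ) : Submodule ℤ E.Point)
      : Set E.Point).Finite := by
  rcases Nat.eq_zero_or_pos j with rfl | hj
  · refine (Set.finite_singleton (0 : E.Point)).subset ?_
    intro P hP
    have := (mem_torsionBy_natCast_iff E _ P).1 hP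
    simpa using this
  · exact ((S13.torsSet_finite j hj hchar).insert 0).subset (torsionBy_subset E j)

lemma card_torsionBy_le (j : ℕ) (hchar : (2 * (j : K) + 1) ≠ 0) :
    Nat.card (Submodule.torsionBy ℤ E.Point ((2 * j + 1 : ℕ) : ℤ)) ≤ (2 * j + 1) ^ 2 := by
  classical
  rcases Nat.eq_zero_or_pos j with rfl | hj
  · have : Subsingleton (Submodule.torsionBy ℤ E.Point ((2 * 0 + 1 : ℕ) : ℤ)) := by
      constructor
      intro a b
      have ha := (mem_torsionBy_natCast_iff E _ a.1).1 a.2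
      have hb := (mem_torsionBy_natCast_iff E _ b.1).1 b.2
      apply Subtype.ext
      simp only [mul_zero, zero_add, one_smul] at ha hb
      rw [ha, hb]
    rw [Nat.card_of_subsingleton 0]
    norm_num
  · have hfin := S13.torsSet_finite (W := E) j hj hchar
    set T : Finset E.Point := hfin.toFinset with hT
    have hT0 : ∀ Q ∈ T, Q ≠ 0 := fun Q hQ => ((hfin.mem_toFinset).1 hQ).1
    have h1 : T.card ≤ 2 * (T.image xc).card := by
      convert S13.card_le_two_mul_card_image_xc T hT0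
    have hpoly := S13.torsPoly_ne_zero (W := E) j hj hchar
    have h2 : (T.image xc) ⊆ (S13.torsPoly E.b₂ E.b₄ E.b₆ E.b₈ j).roots.toFinset := by
      intro x hx
      obtain ⟨Q, hQ, rfl⟩ := Finset.mem_image.1 hx
      obtain ⟨hQ0, hQn⟩ := (hfin.mem_toFinset).1 hQ
      rw [Multiset.mem_toFinset, mem_roots hpoly]
      exact (S13.odd_nsmul_eq_zero_iff hQ0 j).1 hQn
    have h3 : (S13.torsPoly E.b₂ E.b₄ E.b₆ E.b₈ j).roots.toFinset.card ≤ 2 * j ^ 2 + 2 * j := by
      calc _ ≤ Multiset.card (S13.torsPoly E.b₂ E.b₄ E.b₆ E.b₈ j).roots :=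
            Multiset.toFinset_card_le _
        _ ≤ (S13.torsPoly E.b₂ E.b₄ E.b₆ E.b₈ j).natDegree := card_roots' _
        _ = _ := S13.natDegree_torsPoly j hj hchar
    have h4 : T.card ≤ 2 * (2 * j ^ 2 + 2 * j) :=
      h1.trans (Nat.mul_le_mul_left _ ((Finset.card_le_card h2).trans h3))
    have h5 : Nat.card (Submodule.torsionBy ℤ E.Point ((2 * j + 1 : ℕ) : ℤ))
        ≤ (insert 0 T).card := by
      have hsub : ((Submodule.torsionBy ℤ E.Point ((2 * j + 1 : ℕ) : ℤ) : Submodule ℤ E.Point)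
          : Set E.Point) ⊆ ((insert 0 T : Finset E.Point) : Set E.Point) := by
        intro P hP
        rcases torsionBy_subset E j hP with h | h
        · simp [h]
        · simp only [Finset.coe_insert, Set.mem_insert_iff, Finset.mem_coe]
          right
          exact (hfin.mem_toFinset).2 h
      have := Set.ncard_le_ncard hsub (Finset.finite_toSet _)
      rw [Set.ncard_coe_finset] at this
      exact this
    have h6 : (insert 0 T).card ≤ T.card + 1 := Finset.card_insert_le _ _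
    nlinarith

end count

theorem finite_torsionBy {F₀ k : Type*} [Field F₀] [Field k] [Algebra F₀ k]
    [DecidableEq k] (W : WeierstrassCurve F₀) {p : ℕ} (hp : Odd p)
    (hpk : (p : k) ≠ 0) :
    Finite (Submodule.torsionBy ℤ (W.toAffine⁄k).Point (p : ℤ)) := by
  obtain ⟨j, rfl⟩ := hp
  have hchar : (2 * (j : k) + 1) ≠ 0 := by
    intro h; apply hpk; push_cast; exact h
  exact (finite_torsionBy_aux (W.toAffine⁄k) j hchar).to_subtype

theorem card_torsionBy {F₀ k : Type*} [Field F₀] [Field k] [Algebra F₀ k] [IsAlgClosed k]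
    [DecidableEq k] (W : WeierstrassCurve F₀) (h2 : (2 : k) ≠ 0) (hΔ : W.Δ ≠ 0) {p : ℕ} (hp : Odd p)
    (hpk : (p : k) ≠ 0) :
    Nat.card (Submodule.torsionBy ℤ (W.toAffine⁄k).Point (p : ℤ)) = p ^ 2 := by
  classical
  have hfin := finite_torsionBy (k := k) W hp hpk
  obtain ⟨j, rfl⟩ := hp
  have hchar : (2 * (j : k) + 1) ≠ 0 := by
    intro h; apply hpk; push_cast; exact h
  refine le_antisymm (card_torsionBy_le (W.toAffine⁄k) j hchar) ?_
  rcases Nat.eq_zero_or_pos j with rfl | hj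
  · simp only [mul_zero, zero_add, one_pow]
    exact Nat.card_pos
  obtain ⟨S, hScard, hS⟩ := exists_torsion_finset (k := k) W h2 hΔ (2 * j + 1) (by omega) hpk
  have hdesc : ∀ P ∈ S, ∃ P₀ : (W.toAffine⁄k).Point,
      Affine.Point.map (W' := W.toAffine)
        (IsScalarTower.toAlgHom F₀ k (AlgebraicClosure (RatFunc k))) P₀ = P :=
    fun P hP => torsion_descends W j hj hchar P (hS P hP)
  choose! g hg using hdesc
  have hgt : ∀ P ∈ S, g P ∈ Submodule.torsionBy ℤ (W.toAffine⁄k).Point ((2 * j + 1 : ℕ) : ℤ) := by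
    intro P hP
    rw [mem_torsionBy_natCast_iff]
    apply Affine.Point.map_injective (W' := W.toAffine)
      (IsScalarTower.toAlgHom F₀ k (AlgebraicClosure (RatFunc k)))
    rw [map_nsmul, hg P hP, hS P hP, _root_.map_zero]
  rw [← hScard]
  let f : S → Submodule.torsionBy ℤ (W.toAffine⁄k).Point ((2 * j + 1 : ℕ) : ℤ) :=
    fun P => ⟨g P.1, hgt P.1 P.2⟩
  have hf : Function.Injective f := by
    intro P P' h
    have h1 : g P.1 = g P'.1 := congrArg Subtype.val h
    apply Subtype.ext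
    rw [← hg P.1 P.2, ← hg P'.1 P'.2, h1]
  have := Nat.card_le_card_of_injective f hf
  simpa using this

end Fermat.Agent.HW
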