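import Fermat.Agent.HW.RatDegBasic

/-! # HW / R2 : the degree of a composition of rational functions is multiplicative.

Proof sketch.  If `s = C c` both sides are `0` (also when `b(c) = 0`: division by `0`).
Otherwise write `s = u / v` coprime, `d = max (deg u) (deg v) ≥ 1`, `n = max (deg a) (deg b)`,
`aʰ = ∑ i ≤ n, aᵢ uⁱ vⁿ⁻ⁱ`, `bʰ` likewise; `a(s)/b(s) = aʰ/bʰ`.
KEY LEMMA (over any field `k'` with a ring hom from `F`): `(ū, v̄) ≠ (0,0)` ⟹ `(aʰ(ū,v̄), bʰ(ū,v̄)) ≠ (0,0)`
[if `v̄ ≠ 0`, `t = ū/v̄` would be a common root of `a, b`; if `v̄ = 0` we get `aₙ ūⁿ, bₙ ūⁿ`].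
Apply it (i) in `F[X]/(π)` for a prime `π` dividing both (⟹ coprime), (ii) to the coefficients of
`X^d` in `u, v` (⟹ the coefficient of `X^(nd)` in `aʰ` or `bʰ` is nonzero ⟹ max degree `= n d`). -/

set_option autoImplicit false

namespace Fermat.Agent.HW

open Polynomial

variable {F : Type*} [Field F]

section hmg

/-- homogenisation of `p` in degree `n`, evaluated at `(U, V)`. -/
noncomputable def hmg {A : Type*} [CommRing A] [Algebra F A] (p : F[X]) (n : ℕ) (U V : A) : A :=
  ∑ i ∈ Finset.range (n + 1), algebraMap F A (p.coeff i) * U ^ i * V ^ (n - i)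

theorem map_hmg {A A' : Type*} [CommRing A] [Algebra F A] [CommRing A'] [Algebra F A']
    (φ : A →ₐ[F] A') (p : F[X]) (n : ℕ) (U V : A) :
    φ (hmg p n U V) = hmg p n (φ U) (φ V) := by
  simp [hmg, map_sum]

theorem hmg_zero_right {A : Type*} [CommRing A] [Algebra F A] (p : F[X]) (n : ℕ) (U : A) :
    hmg p n U 0 = algebraMap F A (p.coeff n) * U ^ n := by
  unfold hmg
  rw [Finset.sum_range_succ, Finset.sum_eq_zero]
  · simp
  · intro i hi
    have : n - i ≠ 0 := by
      have := Finset.mem_range.1 hi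
      omega
    simp [zero_pow this]

theorem hmg_eq_aeval {A : Type*} [Field A] [Algebra F A] {p : F[X]} {n : ℕ}
    (hp : p.natDegree ≤ n) (U : A) {V : A} (hV : V ≠ 0) :
    hmg p n U V = aeval (U / V) p * V ^ n := by
  rw [aeval_eq_sum_range' (Nat.lt_succ_of_le hp), Finset.sum_mul]
  apply Finset.sum_congr rfl
  intro i hi
  have hi' : i ≤ n := Nat.lt_succ_iff.1 (Finset.mem_range.1 hi)
  rw [Algebra.smul_def, div_pow, ← pow_sub_mul_pow V hi']
  field_simp

/-- the key lemma. -/
theorem hmg_ne_zero {A : Type*} [Field A] [Algebra F A] {a b : F[X]} (hab : IsCoprime a b)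
    {n : ℕ} (ha : a.natDegree ≤ n) (hb : b.natDegree ≤ n)
    (hn : a.coeff n ≠ 0 ∨ b.coeff n ≠ 0) {U V : A} (hUV : U ≠ 0 ∨ V ≠ 0) :
    hmg a n U V ≠ 0 ∨ hmg b n U V ≠ 0 := by
  by_contra hcon
  push Not at hcon
  obtain ⟨h1, h2⟩ := hcon
  by_cases hV : V = 0
  · subst hV
    have hU : U ≠ 0 := hUV.resolve_right (by simp)
    rw [hmg_zero_right] at h1 h2
    have h1' : a.coeff n = 0 := by
      have := (mul_eq_zero.1 h1).resolve_right (pow_ne_zero _ hU)
      exact (map_eq_zero _).1 this
    have h2' : b.coeff n = 0 := by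
      have := (mul_eq_zero.1 h2).resolve_right (pow_ne_zero _ hU)
      exact (map_eq_zero _).1 this
    rcases hn with h | h
    · exact h h1'
    · exact h h2'
  · rw [hmg_eq_aeval ha U hV] at h1
    rw [hmg_eq_aeval hb U hV] at h2
    have h1' := (mul_eq_zero.1 h1).resolve_right (pow_ne_zero _ hV)
    have h2' := (mul_eq_zero.1 h2).resolve_right (pow_ne_zero _ hV)
    obtain ⟨α, β, hαβ⟩ := hab
    have := congrArg (aeval (U / V)) hαβ
    simp [h1', h2'] at this

theorem natDegree_hmg_le (p : F[X]) (n : ℕ) {u v : F[X]} {d : ℕ} (hu : u.natDegree ≤ d)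
    (hv : v.natDegree ≤ d) : (hmg p n u v).natDegree ≤ n * d := by
  unfold hmg
  apply natDegree_sum_le_of_forall_le
  intro i hi
  have hi' : i ≤ n := Nat.lt_succ_iff.1 (Finset.mem_range.1 hi)
  have h1 : (algebraMap F F[X] (p.coeff i) * u ^ i).natDegree ≤ 0 + i * d :=
    natDegree_mul_le_of_le (by simp [algebraMap_eq]) (natDegree_pow_le_of_le i hu)
  have h2 := natDegree_mul_le_of_le h1 (natDegree_pow_le_of_le (n - i) hv)
  calc _ ≤ 0 + i * d + (n - i) * d := h2
    _ = n * d := by rw [zero_add, ← add_mul, Nat.add_sub_cancel' hi']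

theorem coeff_hmg (p : F[X]) (n : ℕ) {u v : F[X]} {d : ℕ} (hu : u.natDegree ≤ d)
    (hv : v.natDegree ≤ d) : (hmg p n u v).coeff (n * d) = hmg p n (u.coeff d) (v.coeff d) := by
  unfold hmg
  rw [finsetSum_coeff]
  apply Finset.sum_congr rfl
  intro i hi
  have hi' : i ≤ n := Nat.lt_succ_iff.1 (Finset.mem_range.1 hi)
  have h0 : n * d = i * d + (n - i) * d := by rw [← add_mul, Nat.add_sub_cancel' hi']
  rw [mul_assoc, algebraMap_eq, coeff_C_mul, h0,
    coeff_mul_add_eq_of_natDegree_le (natDegree_pow_le_of_le i hu) (natDegree_pow_le_of_le (n - i) hv),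
    coeff_pow_of_natDegree_le hu, coeff_pow_of_natDegree_le hv, mul_assoc]
  rfl

end hmg

/-- the top coefficient of one of two polynomials is nonzero. -/
theorem coeff_max_ne_zero {a b : F[X]} (hb : b ≠ 0) :
    a.coeff (max a.natDegree b.natDegree) ≠ 0 ∨ b.coeff (max a.natDegree b.natDegree) ≠ 0 := by
  rcases le_total a.natDegree b.natDegree with h | h
  · right
    rw [max_eq_right h]
    exact leadingCoeff_ne_zero.2 hb
  · rcases eq_or_ne a 0 with rfl | ha
    · right
      have : b.natDegree = 0 := by simpa using h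
      rw [natDegree_zero, this, max_self]
      rw [← this]
      exact leadingCoeff_ne_zero.2 hb
    · left
      rw [max_eq_left h]
      exact leadingCoeff_ne_zero.2 ha

theorem rdeg_comp {a b : F[X]} (hb : b ≠ 0) (hab : IsCoprime a b) (s : RatFunc F) :
    rdeg (aeval s a / aeval s b) = max a.natDegree b.natDegree * rdeg s := by
  classical
  by_cases hs : rdeg s = 0
  · obtain ⟨c, rfl⟩ := (rdeg_eq_zero_iff s).1 hs
    rw [hs, mul_zero, rdeg_eq_zero_iff]
    refine ⟨eval c a / eval c b, ?_⟩
    have h : ∀ p : F[X], aeval (RatFunc.C c) p = RatFunc.C (eval c p) := by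
      intro p
      rw [← RatFunc.algebraMap_eq_C, aeval_algebraMap_apply]
      simp
    rw [h, h, map_div₀]
  · obtain ⟨u, v, hv, huv, hsuv, hd⟩ := exists_rep s
    set n := max a.natDegree b.natDegree with hn
    set d := max u.natDegree v.natDegree with hdd
    have han : a.natDegree ≤ n := le_max_left _ _
    have hbn : b.natDegree ≤ n := le_max_right _ _
    have hud : u.natDegree ≤ d := le_max_left _ _
    have hvd : v.natDegree ≤ d := le_max_right _ _
    have hcn := coeff_max_ne_zero (a := a) hb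
    have hcd := coeff_max_ne_zero (a := u) hv
    rw [← hn] at hcn
    rw [← hdd] at hcd
    -- top coefficients
    have htop := hmg_ne_zero (A := F) hab han hbn hcn hcd
    rw [← coeff_hmg a n hud hvd, ← coeff_hmg b n hud hvd] at htop
    -- coprimality
    have hcop : IsCoprime (hmg a n u v) (hmg b n u v) := by
      apply isCoprime_of_irreducible_dvd
      · rintro ⟨h1, h2⟩
        rw [h1, h2] at htop
        simp at htop
      · intro π hπ h1 h2
        have : Fact (Irreducible π) := ⟨hπ⟩
        have hUV : AdjoinRoot.mk π u ≠ 0 ∨ AdjoinRoot.mk π v ≠ 0 := by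
          by_contra hcon
          push Not at hcon
          have hu' := AdjoinRoot.mk_eq_zero.1 hcon.1
          have hv' := AdjoinRoot.mk_eq_zero.1 hcon.2
          exact hπ.not_isUnit (huv.isUnit_of_dvd' hu' hv')
        have key := hmg_ne_zero (A := AdjoinRoot π) hab han hbn hcn hUV
        have e1 : hmg a n (AdjoinRoot.mk π u) (AdjoinRoot.mk π v) = 0 := by
          have := map_hmg (AdjoinRoot.mkₐ π) a n u v
          rw [show (AdjoinRoot.mkₐ π) u = AdjoinRoot.mk π u from rfl,
            show (AdjoinRoot.mkₐ π) v = AdjoinRoot.mk π v from rfl] at this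
          rw [← this]
          exact AdjoinRoot.mk_eq_zero.2 h1
        have e2 : hmg b n (AdjoinRoot.mk π u) (AdjoinRoot.mk π v) = 0 := by
          have := map_hmg (AdjoinRoot.mkₐ π) b n u v
          rw [show (AdjoinRoot.mkₐ π) u = AdjoinRoot.mk π u from rfl,
            show (AdjoinRoot.mkₐ π) v = AdjoinRoot.mk π v from rfl] at this
          rw [← this]
          exact AdjoinRoot.mk_eq_zero.2 h2
        rcases key with h | h
        · exact h e1
        · exact h e2
    -- degrees
    have hmax : max (hmg a n u v).natDegree (hmg b n u v).natDegree = n * d := by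
      apply le_antisymm
      · exact max_le (natDegree_hmg_le a n hud hvd) (natDegree_hmg_le b n hud hvd)
      · rcases htop with h | h
        · exact le_max_of_le_left (le_natDegree_of_ne_zero h)
        · exact le_max_of_le_right (le_natDegree_of_ne_zero h)
    have hd0 : d ≠ 0 := by rw [← hd]; exact hs
    have hbh : hmg b n u v ≠ 0 := by
      intro h0
      rw [h0] at hcop hmax
      have hunit : IsUnit (hmg a n u v) := isCoprime_zero_right.1 hcop
      rw [natDegree_eq_zero_of_isUnit hunit, natDegree_zero, max_self] at hmax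
      have hn0 : n = 0 := by
        rcases Nat.mul_eq_zero.1 hmax.symm with h | h
        · exact h
        · exact absurd h hd0
      have hb0 : b.natDegree = 0 := by omega
      have : hmg b n u v = C (b.coeff 0) := by
        simp [hmg, hn0, algebraMap_eq]
      rw [this, C_eq_zero] at h0
      apply hb
      rw [eq_C_of_natDegree_eq_zero hb0, h0, C_0]
    -- the quotient
    have hV : algebraMap F[X] (RatFunc F) v ≠ 0 := RatFunc.algebraMap_ne_zero hv
    let φ : F[X] →ₐ[F] RatFunc F := IsScalarTower.toAlgHom F F[X] (RatFunc F)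
    have hφ : ∀ p, φ p = algebraMap F[X] (RatFunc F) p := fun _ => rfl
    have ea : algebraMap F[X] (RatFunc F) (hmg a n u v) =
        aeval s a * (algebraMap F[X] (RatFunc F) v) ^ n := by
      rw [← hφ, map_hmg, hφ, hφ, hmg_eq_aeval han _ hV, ← hsuv]
    have eb : algebraMap F[X] (RatFunc F) (hmg b n u v) =
        aeval s b * (algebraMap F[X] (RatFunc F) v) ^ n := by
      rw [← hφ, map_hmg, hφ, hφ, hmg_eq_aeval hbn _ hV, ← hsuv]
    have hq : aeval s a / aeval s b = algebraMap F[X] (RatFunc F) (hmg a n u v) /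
        algebraMap F[X] (RatFunc F) (hmg b n u v) := by
      rw [ea, eb, mul_div_mul_right _ _ (pow_ne_zero _ hV)]
    rw [hq, rdeg_div hbh hcop, hmax, hd]

/-- consequence (`b = 1`). -/
theorem rdeg_aeval (a : F[X]) (s : RatFunc F) : rdeg (aeval s a) = a.natDegree * rdeg s := by
  have h := rdeg_comp (a := a) (b := 1) one_ne_zero isCoprime_one_right s
  simpa using h

theorem rdeg_pow (s : RatFunc F) (n : ℕ) : rdeg (s ^ n) = n * rdeg s := by
  have h := rdeg_aeval (X ^ n : F[X]) s
  simpa using h

/-- `F` is algebraically closed in `F(T)`. -/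
theorem rdeg_eq_zero_of_root {r : RatFunc F} {p : F[X]} (hp : p ≠ 0) (h : aeval r p = 0) :
    rdeg r = 0 := by
  have h1 := rdeg_aeval p r
  rw [h, rdeg_zero] at h1
  rcases Nat.mul_eq_zero.1 h1.symm with h2 | h2
  · exfalso
    rw [eq_C_of_natDegree_eq_zero h2] at h hp
    rw [aeval_C] at h
    apply hp
    rw [(map_eq_zero _).1 h, C_0]
  · exact h2

end Fermat.Agent.HW
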