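import Fermat.Agent.HW.Defs

/-! # HW / N2 : the reduced form of `numR / denR` has degree `1 + ∑_c (χ(g(c)) + 1)`.

`g = W.Ψ₂Sq = 4X³ + b₂X² + 2b₄X + b₆`, `χ = quadraticChar`.
* `numR = g^ℓ + 2 g^((ℓ+1)/2) + g - (b₂ + 4X^ℓ + 4X)(X^ℓ - X)²`, `g^ℓ = g(X^ℓ)`; the terms of degree `3ℓ`, `2ℓ`
  cancel, `natDegree numR = 2ℓ + 1` (leading coefficient `4`; `3(ℓ+1)/2 < 2ℓ+1`), `natDegree denR = 2ℓ`.
* `X^ℓ - X = ∏_c (X - c)`.  Let `S₀, S₊, S₋` = `{c : χ(g c) = 0, 1, -1}`,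
  `D = ∏_{S₀}(X-c) * ∏_{S₋}(X-c)²`, `b = 4 ∏_{S₀}(X-c) * ∏_{S₊}(X-c)²`; `denR = D * b`.
* `D ∣ numR`: for `c ∈ S₋`, `(X-c) ∣ g^((ℓ-1)/2) + 1` (Euler); for `c ∈ S₀`, `(X-c) ∣ g`.  `a := numR / D`.
* `a(c) ≠ 0` for `c ∈ S₊` (`numR(c) = 4 g(c)`), and for `c ∈ S₀` (`numR'(c) = g'(c) ≠ 0`
  since `g` is squarefree: `Δ ≠ 0`).  Hence `IsCoprime a b`.
* `deg a = 2ℓ+1 - #S₀ - 2#S₋ = 1 + #S₀ + 2#S₊ = 1 + deg b`. -/

set_option autoImplicit false

namespace Fermat.Agent.HW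

open Polynomial

namespace CountPoly

variable {ℓ : ℕ} [Fact ℓ.Prime] (W : WeierstrassCurve (ZMod ℓ))

theorem eval_Ψ₂Sq (c : ZMod ℓ) :
    W.Ψ₂Sq.eval c = 4 * c ^ 3 + W.b₂ * c ^ 2 + 2 * W.b₄ * c + W.b₆ := by
  simp [WeierstrassCurve.Ψ₂Sq]

/-- the cofactor of `X - c` in `g - g(c)`. -/
noncomputable def gCof (c : ZMod ℓ) : (ZMod ℓ)[X] :=
  C 4 * (X ^ 2 + C c * X + C (c ^ 2)) + C W.b₂ * (X + C c) + C (2 * W.b₄)

theorem Ψ₂Sq_eq (c : ZMod ℓ) : W.Ψ₂Sq = (X - C c) * gCof W c + C (W.Ψ₂Sq.eval c) := by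
  rw [eval_Ψ₂Sq, WeierstrassCurve.Ψ₂Sq, gCof]
  simp only [map_add, map_mul, map_pow]
  ring

theorem eval_gCof (c : ZMod ℓ) : (gCof W c).eval c = 12 * c ^ 2 + 2 * W.b₂ * c + 2 * W.b₄ := by
  simp [gCof]
  ring

theorem four_ne_zero' (hℓ : ℓ ≠ 2) : (4 : ZMod ℓ) ≠ 0 := by
  have h2 : (2 : ZMod ℓ) ≠ 0 := by
    intro h
    have h' : ((2 : ℕ) : ZMod ℓ) = 0 := by exact_mod_cast h
    rw [ZMod.natCast_eq_zero_iff] at h'
    exact hℓ ((Nat.prime_dvd_prime_iff_eq Fact.out Nat.prime_two).mp h')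
  have : (4 : ZMod ℓ) = 2 * 2 := by norm_num
  rw [this]
  exact mul_ne_zero h2 h2

theorem eval_gCof_ne_zero (hℓ : ℓ ≠ 2) (hΔ : W.Δ ≠ 0) (c : ZMod ℓ) (hc : W.Ψ₂Sq.eval c = 0) :
    (gCof W c).eval c ≠ 0 := by
  intro h
  rw [eval_gCof] at h
  rw [eval_Ψ₂Sq] at hc
  apply hΔ
  have h16 : (16 : ZMod ℓ) * W.Δ = 0 := by
    have hb := W.b_relation
    rw [WeierstrassCurve.Δ]
    linear_combination
      ((-4 * W.b₂ ^ 3 + 15 * 4 * W.b₂ * (2 * W.b₄) - 27 * 4 ^ 2 * W.b₆)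
        + (-6 * 4 * W.b₂ ^ 2 + 18 * 4 ^ 2 * (2 * W.b₄)) * c) * hc
      + ((3 * 4 * W.b₂ * W.b₆ + W.b₂ ^ 2 * (2 * W.b₄) - 4 * 4 * (2 * W.b₄) ^ 2)
        + (9 * 4 ^ 2 * W.b₆ - 7 * 4 * W.b₂ * (2 * W.b₄) + 2 * W.b₂ ^ 3) * c
        + (2 * 4 * W.b₂ ^ 2 - 6 * 4 ^ 2 * (2 * W.b₄)) * c ^ 2) * h
      - 4 * W.b₂ ^ 2 * hb
  have h4 := four_ne_zero' (ℓ := ℓ) hℓ
  have : (16 : ZMod ℓ) = 4 * 4 := by norm_num
  rw [this] at h16
  exact (mul_eq_zero.mp h16).resolve_left (mul_ne_zero h4 h4)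

theorem X_pow_sub_X_eq_prod : (X ^ ℓ - X : (ZMod ℓ)[X]) = ∏ c : ZMod ℓ, (X - C c) := by
  have h1 : (1 : ℕ) < ℓ := (Fact.out : ℓ.Prime).one_lt
  have hroots : (X ^ ℓ - X : (ZMod ℓ)[X]).roots = Finset.univ.val := by
    have := FiniteField.roots_X_pow_card_sub_X (ZMod ℓ)
    rwa [ZMod.card] at this
  have hdeg : (X ^ ℓ - X : (ZMod ℓ)[X]).natDegree = ℓ :=
    FiniteField.X_pow_card_sub_X_natDegree_eq _ h1
  have hmonic : (X ^ ℓ - X : (ZMod ℓ)[X]).Monic := by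
    apply monic_X_pow_sub
    rw [degree_X]
    exact_mod_cast h1
  have := prod_multiset_X_sub_C_of_monic_of_roots_card_eq hmonic (by
    rw [hroots, hdeg]; simp [ZMod.card])
  rw [hroots] at this
  rw [← this]
  rfl

theorem Ψ₂Sq_pow_card :
    W.Ψ₂Sq ^ ℓ = 4 * X ^ (3 * ℓ) + C W.b₂ * X ^ (2 * ℓ) + C (2 * W.b₄) * X ^ ℓ + C W.b₆ := by
  rw [← ZMod.expand_card, WeierstrassCurve.Ψ₂Sq]
  simp only [map_add, map_mul, map_pow, expand_C, expand_X, ← pow_mul, map_ofNat]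
  ring

theorem numR_eq (h : ℕ) (hh : ℓ = 2 * h + 1) :
    numR ℓ W = C 4 * X ^ (2 * ℓ + 1) + (2 * W.Ψ₂Sq ^ (h + 1) + 4 * X ^ (ℓ + 2)
      + C (2 * W.b₂) * X ^ (ℓ + 1) + C (2 * W.b₄) * X ^ ℓ + C (2 * W.b₄) * X + C (2 * W.b₆)) := by
  have hh2 : (ℓ - 1) / 2 = h := by omega
  have e1 : W.Ψ₂Sq * (W.Ψ₂Sq ^ h + 1) ^ 2 = W.Ψ₂Sq ^ ℓ + 2 * W.Ψ₂Sq ^ (h + 1) + W.Ψ₂Sq := by
    have : W.Ψ₂Sq ^ ℓ = W.Ψ₂Sq ^ (2 * h + 1) := congrArg _ hh
    rw [this]; ring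
  have hG : W.Ψ₂Sq = 4 * X ^ 3 + C W.b₂ * X ^ 2 + C (2 * W.b₄) * X + C W.b₆ := by
    rw [WeierstrassCurve.Ψ₂Sq, map_ofNat]
  rw [numR, hh2, e1, Ψ₂Sq_pow_card]
  simp only [map_mul, map_ofNat]
  simp only [map_mul, map_ofNat] at hG
  linear_combination hG

omit [Fact ℓ.Prime] in
theorem natDegree_Ψ₂Sq_le : W.Ψ₂Sq.natDegree ≤ 3 := by
  rw [WeierstrassCurve.Ψ₂Sq]
  compute_degree

theorem natDegree_numR (hℓ : ℓ ≠ 2) : (numR ℓ W).natDegree = 2 * ℓ + 1 := by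
  have hp : ℓ.Prime := Fact.out
  obtain ⟨h, hh⟩ : ∃ h, ℓ = 2 * h + 1 := by
    rcases hp.eq_two_or_odd' with h2 | ⟨h, hh⟩
    · exact absurd h2 hℓ
    · exact ⟨h, hh⟩
  have h1 : 1 ≤ h := by
    have := hp.two_le
    omega
  rw [numR_eq W h hh]
  have h4 := four_ne_zero' (ℓ := ℓ) hℓ
  have hlead : (C (4 : ZMod ℓ) * X ^ (2 * ℓ + 1)).natDegree = 2 * ℓ + 1 :=
    natDegree_C_mul_X_pow _ _ h4
  rw [natDegree_add_eq_left_of_natDegree_lt, hlead]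
  rw [hlead]
  have t1 : (2 * W.Ψ₂Sq ^ (h + 1)).natDegree ≤ 2 * ℓ := by
    refine (natDegree_mul_le).trans ?_
    have a1 : (2 : (ZMod ℓ)[X]).natDegree = 0 := natDegree_ofNat 2
    have a2 : (W.Ψ₂Sq ^ (h + 1)).natDegree ≤ (h + 1) * 3 :=
      natDegree_pow_le_of_le _ (natDegree_Ψ₂Sq_le W)
    omega
  have t2 : (4 * X ^ (ℓ + 2) : (ZMod ℓ)[X]).natDegree ≤ 2 * ℓ := by
    refine (natDegree_mul_le).trans ?_
    have a1 : (4 : (ZMod ℓ)[X]).natDegree = 0 := natDegree_ofNat 4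
    rw [a1, natDegree_X_pow]
    omega
  have t3 : (C (2 * W.b₂) * X ^ (ℓ + 1)).natDegree ≤ 2 * ℓ :=
    (natDegree_C_mul_X_pow_le _ _).trans (by omega)
  have t4 : (C (2 * W.b₄) * X ^ ℓ).natDegree ≤ 2 * ℓ :=
    (natDegree_C_mul_X_pow_le _ _).trans (by omega)
  have t5 : (C (2 * W.b₄) * X).natDegree ≤ 2 * ℓ := by
    have := natDegree_C_mul_X_pow_le (2 * W.b₄) 1
    rw [pow_one] at this
    omega
  have t6 : (C (2 * W.b₆)).natDegree ≤ 2 * ℓ := by rw [natDegree_C]; omega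
  have := natDegree_add_le_of_degree_le (natDegree_add_le_of_degree_le
    (natDegree_add_le_of_degree_le (natDegree_add_le_of_degree_le
      (natDegree_add_le_of_degree_le t1 t2) t3) t4) t5) t6
  omega

theorem eval_numR (c : ZMod ℓ) :
    (numR ℓ W).eval c = W.Ψ₂Sq.eval c * ((W.Ψ₂Sq.eval c) ^ ((ℓ - 1) / 2) + 1) ^ 2 := by
  simp [numR, ZMod.pow_card]

theorem X_sub_C_dvd_X_pow_sub_X (c : ZMod ℓ) : (X - C c) ∣ (X ^ ℓ - X : (ZMod ℓ)[X]) := by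
  rw [dvd_iff_isRoot]
  simp [ZMod.pow_card]

theorem isCoprime_X_sub_C_of_eval_ne_zero {a : (ZMod ℓ)[X]} {c : ZMod ℓ} (h : a.eval c ≠ 0) :
    IsCoprime a (X - C c) := by
  rw [isCoprime_comm, (irreducible_X_sub_C c).coprime_iff_not_dvd, dvd_iff_isRoot]
  exact h

end CountPoly

open CountPoly in
theorem exists_reduced_aux (ℓ : ℕ) [Fact ℓ.Prime] (hℓ : ℓ ≠ 2) (W : WeierstrassCurve (ZMod ℓ))
    (hΔ : W.Δ ≠ 0) :
    ∃ a b : (ZMod ℓ)[X], b ≠ 0 ∧ IsCoprime a b ∧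
      ((max a.natDegree b.natDegree : ℕ) : ℤ)
        = 1 + ∑ c : ZMod ℓ, (quadraticChar (ZMod ℓ) (W.Ψ₂Sq.eval c) + 1) ∧
      a * denR ℓ = numR ℓ W * b := by
  classical
  have hp : ℓ.Prime := Fact.out
  obtain ⟨h, hh⟩ : ∃ h, ℓ = 2 * h + 1 := by
    rcases hp.eq_two_or_odd' with h2 | ⟨h, hh⟩
    · exact absurd h2 hℓ
    · exact ⟨h, hh⟩
  have hh2 : (ℓ - 1) / 2 = h := by omega
  have hh3 : ℓ / 2 = h := by omega
  have h1 : h ≠ 0 := by
    have := hp.two_le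
    omega
  have h4 := four_ne_zero' (ℓ := ℓ) hℓ
  set χ : ZMod ℓ → ℤ := fun c => quadraticChar (ZMod ℓ) (W.Ψ₂Sq.eval c) with hχdef
  have hχ : ∀ c, (χ c = 0 ∧ W.Ψ₂Sq.eval c = 0) ∨ χ c = 1 ∨ χ c = -1 := by
    intro c
    by_cases h0 : W.Ψ₂Sq.eval c = 0
    · left
      exact ⟨quadraticChar_eq_zero_iff.mpr h0, h0⟩
    · right
      exact quadraticChar_dichotomy h0
  have heuler : ∀ c, (W.Ψ₂Sq.eval c) ^ h = (χ c : ZMod ℓ) := by
    intro c
    have := quadraticChar_eq_pow_of_char_ne_two' (F := ZMod ℓ)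
      (by rw [ZMod.ringChar_zmod_n]; exact hℓ) (W.Ψ₂Sq.eval c)
    rw [ZMod.card, hh3] at this
    exact this.symm
  set eB : ZMod ℓ → ℕ := fun c => (χ c + 1).toNat with heB
  set eD : ZMod ℓ → ℕ := fun c => 2 - eB c with heD
  have heBc : ∀ c, (eB c : ℤ) = χ c + 1 := by
    intro c
    have : 0 ≤ χ c + 1 := by rcases hχ c with ⟨h0, -⟩ | h0 | h0 <;> rw [h0] <;> norm_num
    exact Int.toNat_of_nonneg this
  have heB2 : ∀ c, eD c + eB c = 2 := by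
    intro c
    have : eB c ≤ 2 := by
      have h2 := heBc c
      rcases hχ c with ⟨h0, -⟩ | h0 | h0 <;> rw [h0] at h2 <;> omega
    simp only [heD]
    omega
  set D : (ZMod ℓ)[X] := ∏ c : ZMod ℓ, (X - C c) ^ eD c with hD
  set B : (ZMod ℓ)[X] := ∏ c : ZMod ℓ, (X - C c) ^ eB c with hB
  have hDB : D * (C 4 * B) = denR ℓ := by
    rw [denR, X_pow_sub_X_eq_prod, ← Finset.prod_pow, map_ofNat]
    have : D * B = ∏ c : ZMod ℓ, (X - C c) ^ 2 := by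
      rw [hD, hB, ← Finset.prod_mul_distrib]
      exact Finset.prod_congr rfl fun c _ => by rw [← pow_add, heB2]
    rw [← this]
    ring
  have hDmonic : D.Monic := monic_prod_of_monic _ _ fun c _ => (monic_X_sub_C c).pow _
  have hBmonic : B.Monic := monic_prod_of_monic _ _ fun c _ => (monic_X_sub_C c).pow _
  have hDdeg : D.natDegree = ∑ c : ZMod ℓ, eD c := by
    rw [hD, natDegree_prod_of_monic _ _ fun c _ => (monic_X_sub_C c).pow _]
    exact Finset.sum_congr rfl fun c _ => by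
      rw [(monic_X_sub_C c).natDegree_pow, natDegree_X_sub_C, mul_one]
  have hBdeg : B.natDegree = ∑ c : ZMod ℓ, eB c := by
    rw [hB, natDegree_prod_of_monic _ _ fun c _ => (monic_X_sub_C c).pow _]
    exact Finset.sum_congr rfl fun c _ => by
      rw [(monic_X_sub_C c).natDegree_pow, natDegree_X_sub_C, mul_one]
  have hsum : (∑ c : ZMod ℓ, eD c) + ∑ c : ZMod ℓ, eB c = 2 * ℓ := by
    rw [← Finset.sum_add_distrib, Finset.sum_congr rfl fun c _ => heB2 c]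
    simp [ZMod.card, mul_comm]
  -- divisibility
  have hdvd : D ∣ numR ℓ W := by
    rw [hD]
    refine Finset.prod_dvd_of_coprime ?_ ?_
    · intro c _ c' _ hcc'
      exact (isCoprime_X_sub_C_of_isUnit_sub (sub_ne_zero.mpr hcc').isUnit).pow
    · intro c _
      have hBc := heBc c
      rcases hχ c with ⟨h0, hg0⟩ | h0 | h0
      · have : eD c = 1 := by
          have := heB2 c
          rw [h0] at hBc
          omega
        rw [this, pow_one, dvd_iff_isRoot, IsRoot.def, eval_numR, hg0, zero_mul]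
      · have : eD c = 0 := by
          have := heB2 c
          rw [h0] at hBc
          omega
        rw [this, pow_zero]
        exact one_dvd _
      · have : eD c = 2 := by
          have := heB2 c
          rw [h0] at hBc
          omega
        rw [this, numR, hh2]
        refine dvd_sub (Dvd.dvd.mul_left (pow_dvd_pow_of_dvd ?_ 2) _)
          (Dvd.dvd.mul_left (pow_dvd_pow_of_dvd (X_sub_C_dvd_X_pow_sub_X c) 2) _)
        rw [dvd_iff_isRoot, IsRoot.def, eval_add, eval_pow, eval_one, heuler, h0]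
        simp
  obtain ⟨a, ha⟩ := hdvd
  have hnum0 : numR ℓ W ≠ 0 := by
    intro h0
    have := natDegree_numR W hℓ
    rw [h0, natDegree_zero] at this
    omega
  have ha0 : a ≠ 0 := by
    rintro rfl
    exact hnum0 (by rw [ha, mul_zero])
  have hadeg : a.natDegree = 1 + ∑ c : ZMod ℓ, eB c := by
    have := natDegree_numR W hℓ
    rw [ha, hDmonic.natDegree_mul' ha0, hDdeg] at this
    omega
  have hC4 : IsUnit (C (4 : ZMod ℓ)) := (isUnit_C).mpr (isUnit_iff_ne_zero.mpr h4)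
  refine ⟨a, C 4 * B, mul_ne_zero (C_ne_zero.mpr h4) hBmonic.ne_zero, ?_, ?_, ?_⟩
  · -- coprimality
    rw [isCoprime_mul_unit_left_right hC4, hB]
    refine IsCoprime.prod_right fun c _ => ?_
    have hBc := heBc c
    rcases hχ c with ⟨h0, hg0⟩ | h0 | h0
    · -- simple zero of `g`
      refine IsCoprime.pow_right (isCoprime_X_sub_C_of_eval_ne_zero ?_)
      obtain ⟨E, hE⟩ := X_sub_C_dvd_X_pow_sub_X c
      have hgc := Ψ₂Sq_eq W c
      rw [hg0, map_zero, add_zero] at hgc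
      have hD1 : eD c = 1 := by
        have := heB2 c
        rw [h0] at hBc
        omega
      have hDsplit : D = (X - C c) * ∏ c' ∈ Finset.univ.erase c, (X - C c') ^ eD c' := by
        rw [hD, ← Finset.mul_prod_erase Finset.univ _ (Finset.mem_univ c), hD1, pow_one]
      set D' := ∏ c' ∈ Finset.univ.erase c, (X - C c') ^ eD c' with hD'
      have hn : numR ℓ W = (X - C c) * (gCof W c * (W.Ψ₂Sq ^ h + 1) ^ 2
          - (C W.b₂ + 4 * X ^ ℓ + 4 * X) * ((X - C c) * E ^ 2)) := by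
        rw [numR, hh2, hE]
        nth_rewrite 1 [hgc]
        ring
      have hcancel : D' * a = gCof W c * (W.Ψ₂Sq ^ h + 1) ^ 2
          - (C W.b₂ + 4 * X ^ ℓ + 4 * X) * ((X - C c) * E ^ 2) := by
        apply mul_left_cancel₀ (X_sub_C_ne_zero c)
        rw [← hn, ha, hDsplit]
        ring
      have hev := congrArg (eval c) hcancel
      simp only [eval_mul, eval_sub, eval_add, eval_pow, eval_one, eval_X, eval_C, sub_self,
        zero_mul, mul_zero, sub_zero, hg0, zero_pow h1, zero_add, one_pow, mul_one] at hev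
      intro ha'
      rw [ha', mul_zero] at hev
      exact eval_gCof_ne_zero W hℓ hΔ c hg0 hev.symm
    · refine IsCoprime.pow_right (isCoprime_X_sub_C_of_eval_ne_zero ?_)
      intro ha'
      have hev := eval_numR W c
      rw [ha, eval_mul, ha', mul_zero, hh2, heuler, h0] at hev
      have hg0 : W.Ψ₂Sq.eval c ≠ 0 := by
        intro hg0
        have : χ c = 0 := quadraticChar_eq_zero_iff.mpr hg0
        omega
      have h2 : ((1 : ℤ) : ZMod ℓ) + 1 ≠ 0 := by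
        intro h2
        apply h4
        have : (4 : ZMod ℓ) = (((1 : ℤ) : ZMod ℓ) + 1) * 2 := by push_cast; norm_num
        rw [this, h2, zero_mul]
      exact mul_ne_zero hg0 (pow_ne_zero 2 h2) hev.symm
    · have : eB c = 0 := by
        rw [h0] at hBc
        omega
      rw [this, pow_zero]
      exact isCoprime_one_right
  · rw [natDegree_C_mul h4, hBdeg, hadeg, max_eq_left (by omega)]
    push_cast
    rw [Finset.sum_congr rfl fun c _ => heBc c]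
  · rw [← hDB, ha]
    ring

end Fermat.Agent.HW
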