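import Fermat.Agent.HW.CountPts
import Fermat.Agent.HW.CountPoly

/-! # HW / N : `numR / denR` has degree `#W(F_ℓ)`. -/

set_option autoImplicit false

namespace Fermat.Agent.HW

open Polynomial

theorem exists_reduced (ℓ : ℕ) [Fact ℓ.Prime] (hℓ : ℓ ≠ 2) (W : WeierstrassCurve (ZMod ℓ))
    (hΔ : W.Δ ≠ 0) :
    ∃ a b : (ZMod ℓ)[X], b ≠ 0 ∧ IsCoprime a b ∧
      max a.natDegree b.natDegree = Nat.card W.toAffine.Point ∧
      a * denR ℓ = numR ℓ W * b := by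
  obtain ⟨a, b, hb, hab, hdeg, h⟩ := exists_reduced_aux ℓ hℓ W hΔ
  refine ⟨a, b, hb, hab, ?_, h⟩
  rw [← card_points ℓ hℓ W hΔ] at hdeg
  exact_mod_cast hdeg

end Fermat.Agent.HW
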