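import Fermat.Agent.HW.Defs

/-! # HW / N1 : point count as a character sum.

`#W(F_ℓ) = 1 + ∑_c #{y : y² + a₁cy + a₃y = c³ + a₂c² + a₄c + a₆} = 1 + ∑_c #{v : v² = g(c)}`
(`v = 2y + a₁c + a₃`, `ℓ` odd), and `#{v : v² = t} = quadraticChar t + 1`
(`quadraticChar_card_sqrts`).  All affine solutions are nonsingular because `Δ ≠ 0`
(`WeierstrassCurve.Affine.nonsingular_of_Δ_ne_zero` or similar). -/

set_option autoImplicit false

namespace Fermat.Agent.HW

open Polynomial

/-- points = origin + affine solutions. -/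
noncomputable def pointEquivOption {F : Type*} [Field F] (W : WeierstrassCurve F) (hΔ : W.Δ ≠ 0) :
    W.toAffine.Point ≃ Option (Σ c : F, {y : F // W.toAffine.Equation c y}) where
  toFun P := match P with
    | .zero => none
    | .some x y h => some ⟨x, y, h.1⟩
  invFun o := match o with
    | none => .zero
    | some ⟨x, y, h⟩ => .some x y ((W.toAffine.equation_iff_nonsingular_of_Δ_ne_zero hΔ).1 h)
  left_inv P := by cases P <;> rfl
  right_inv o := by
    rcases o with _ | ⟨x, y, h⟩ <;> rfl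

/-- fibre over `c` = square roots of `g(c)`. -/
noncomputable def fibreEquivSqrt {F : Type*} [Field F] (h2 : (2 : F) ≠ 0) (W : WeierstrassCurve F)
    (c : F) : {y : F // W.toAffine.Equation c y} ≃ {v : F // v ^ 2 = W.Ψ₂Sq.eval c} where
  toFun y := ⟨2 * y.1 + W.a₁ * c + W.a₃, by
    have h := (WeierstrassCurve.Affine.equation_iff _ _).1 y.2
    simp only [WeierstrassCurve.Ψ₂Sq, WeierstrassCurve.b₂, WeierstrassCurve.b₄,
      WeierstrassCurve.b₆, eval_add, eval_mul, eval_pow, eval_X, eval_C]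
    linear_combination 4 * h⟩
  invFun v := ⟨(v.1 - W.a₁ * c - W.a₃) / 2, by
    have h := v.2
    simp only [WeierstrassCurve.Ψ₂Sq, WeierstrassCurve.b₂, WeierstrassCurve.b₄,
      WeierstrassCurve.b₆, eval_add, eval_mul, eval_pow, eval_X, eval_C] at h
    rw [WeierstrassCurve.Affine.equation_iff]
    field_simp
    linear_combination h⟩
  left_inv y := by
    apply Subtype.ext
    simp only
    field_simp
    ring
  right_inv v := by
    apply Subtype.ext
    simp only
    field_simp
    ring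

theorem card_points (ℓ : ℕ) [Fact ℓ.Prime] (hℓ : ℓ ≠ 2) (W : WeierstrassCurve (ZMod ℓ))
    (hΔ : W.Δ ≠ 0) :
    (Nat.card W.toAffine.Point : ℤ)
      = 1 + ∑ c : ZMod ℓ, (quadraticChar (ZMod ℓ) (W.Ψ₂Sq.eval c) + 1) := by
  classical
  have hch : ringChar (ZMod ℓ) ≠ 2 := by rwa [ZMod.ringChar_zmod_n]
  have h2 : (2 : ZMod ℓ) ≠ 0 := Ring.two_ne_zero hch
  rw [Nat.card_congr (pointEquivOption W hΔ), Nat.card_eq_fintype_card, Fintype.card_option,
    Fintype.card_sigma]
  push_cast
  rw [add_comm]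
  congr 1
  refine Finset.sum_congr rfl fun c _ => ?_
  rw [← quadraticChar_card_sqrts hch, Fintype.card_congr (fibreEquivSqrt h2 W c)]
  congr 1
  rw [Set.toFinset_card]
  rfl

end Fermat.Agent.HW
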