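import Mathlib
import Fermat.Agent.S05.Formulas

/-!
# HW : "`a_ℓ(E)` is the trace of Frobenius on `E[p]`", elementary route.  Definitions.

Architect: helper52.  Blueprint: board topic `HW`; work packages: table `lemmas`, stmt = 'HW'.
ONE OWNER PER FILE.  This file (definitions + trivial API) is FROZEN once landed.

Overview of the proof.  `F = ZMod ℓ`, `W` a Weierstrass curve over `F` with `Δ ≠ 0`, `ℓ` odd,
`N = #W(F)`, `a = ℓ + 1 - N`.
* `L ⊇ F` a field, `E` = `W` over `L`, `Q ∈ E(L)` with `x(Q)` transcendental, i.e. we have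
  `ev : F(T) → L`, `T ↦ x(Q)`   (`Gen`).
* `vc P = 2 y + a₁ x + a₃`, so `vc P ^ 2 = g (x P)`, `g = Ψ₂Sq = 4x³ + b₂x² + 2b₄x + b₆`.
* `P` is ODD if `P = 0` or `x(P) ∈ ev F(T)` and `vc P ∈ ev F(T) * vc Q`   (`IsOdd`).
  Odd points form a subgroup containing `Q`, stable under the Frobenius `φ`.
* `ht P = rdeg (x(P))` = degree of the rational function `x(P) ∈ F(T)`; `ht 0 = 0`.
  EXACT parallelogram law on odd points; `ht (φ P) = ℓ ht P`; `ht (φ P - P) = N ht P`.
* quadratic-form algebra: `ht (φ² P - a φ P + ℓ P) = 0`; and `ht Z = 0`, `Z` odd ⟹ `2 Z = 0`.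
* every point over every field `k ⊇ F` is a difference of two generic points over a bigger field.
* reduction of `p`-torsion modulo a place over `ℓ` is additive, injective, Frobenius-compatible.
-/

set_option autoImplicit false

namespace Fermat.Agent.HW

open Polynomial WeierstrassCurve Fermat.Agent.S05

section rdeg

variable {F : Type*} [Field F]

/-- degree of a rational function, as a map `ℙ¹ → ℙ¹`. -/
noncomputable def rdeg (r : RatFunc F) : ℕ := max r.num.natDegree r.denom.natDegree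

end rdeg

section odd

variable {F L : Type*} [Field F] [Field L]

/-- `2y + a₁x + a₃` of a point (`0` at the origin... more precisely `a₃`; never used there). -/
def vc {E : WeierstrassCurve.Affine L} (P : E.Point) : L := 2 * yc P + E.a₁ * xc P + E.a₃

/-- `E` is the curve `W` transported along `F → F(T) → L`, and `Q` is a point of `E` with
`x(Q) = ev T`. -/
structure Gen (W : WeierstrassCurve F) (E : WeierstrassCurve.Affine L) (ev : RatFunc F →+* L)
    (Q : E.Point) : Prop where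
  a₁ : E.a₁ = ev (RatFunc.C W.a₁)
  a₂ : E.a₂ = ev (RatFunc.C W.a₂)
  a₃ : E.a₃ = ev (RatFunc.C W.a₃)
  a₄ : E.a₄ = ev (RatFunc.C W.a₄)
  a₆ : E.a₆ = ev (RatFunc.C W.a₆)
  ne : Q ≠ 0
  hx : xc Q = ev RatFunc.X

/-- odd points with respect to the generic point `Q`. -/
def IsOdd {E : WeierstrassCurve.Affine L} (ev : RatFunc F →+* L) (Q P : E.Point) : Prop :=
  P = 0 ∨ ∃ X Y : RatFunc F, xc P = ev X ∧ vc P = ev Y * vc Q

open Classical in
/-- the height: degree of the rational function `x(P)`. -/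
noncomputable def ht {E : WeierstrassCurve.Affine L} (ev : RatFunc F →+* L) (P : E.Point) : ℤ :=
  if P = 0 then 0 else (rdeg (Function.invFun ev (xc P)) : ℤ)

/-- abstract Frobenius endomorphism of the group of points. -/
structure FrobData (ℓ : ℕ) {E : WeierstrassCurve.Affine L} [DecidableEq L]
    (φ : E.Point →+ E.Point) : Prop where
  ne : ∀ P, P ≠ 0 → φ P ≠ 0
  hx : ∀ P, xc (φ P) = xc P ^ ℓ
  hy : ∀ P, yc (φ P) = yc P ^ ℓ

variable {E : WeierstrassCurve.Affine L} {ev : RatFunc F →+* L}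

@[simp] lemma ht_zero : ht ev (0 : E.Point) = 0 := by simp [ht]

lemma ht_of_eq {P : E.Point} (hP : P ≠ 0) {X : RatFunc F} (hX : xc P = ev X) :
    ht ev P = rdeg X := by
  rw [ht, if_neg hP, hX, Function.leftInverse_invFun ev.injective]

lemma ht_nonneg (P : E.Point) : 0 ≤ ht ev P := by
  unfold ht
  split_ifs
  · exact le_rfl
  · exact Int.natCast_nonneg _

lemma isOdd_zero (Q : E.Point) : IsOdd ev Q 0 := Or.inl rfl

lemma vc_sq {P : E.Point} (hP : P ≠ 0) :
    vc P ^ 2 = 4 * (xc P) ^ 3 + E.b₂ * (xc P) ^ 2 + 2 * E.b₄ * xc P + E.b₆ :=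
  psi2_sq hP

namespace Gen

variable {W : WeierstrassCurve F} {Q : E.Point}

lemma isOdd_self (hG : Gen W E ev Q) : IsOdd ev Q Q :=
  Or.inr ⟨RatFunc.X, 1, hG.hx, by simp⟩

lemma b₂ (hG : Gen W E ev Q) : E.b₂ = ev (RatFunc.C W.b₂) := by
  simp only [WeierstrassCurve.b₂, hG.a₁, hG.a₂, map_add, map_mul, map_pow, map_ofNat]

lemma b₄ (hG : Gen W E ev Q) : E.b₄ = ev (RatFunc.C W.b₄) := by
  simp only [WeierstrassCurve.b₄, hG.a₁, hG.a₃, hG.a₄, map_add, map_mul, map_ofNat]

lemma b₆ (hG : Gen W E ev Q) : E.b₆ = ev (RatFunc.C W.b₆) := by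
  simp only [WeierstrassCurve.b₆, hG.a₃, hG.a₆, map_add, map_mul, map_pow, map_ofNat]

lemma b₈ (hG : Gen W E ev Q) : E.b₈ = ev (RatFunc.C W.b₈) := by
  simp only [WeierstrassCurve.b₈, hG.a₁, hG.a₂, hG.a₃, hG.a₄, hG.a₆, map_add, map_sub, map_mul,
    map_pow, map_ofNat]

lemma ht_self (hG : Gen W E ev Q) : ht ev Q = rdeg (RatFunc.X : RatFunc F) :=
  ht_of_eq hG.ne hG.hx

end Gen

end odd

section count

variable (ℓ : ℕ) (W : WeierstrassCurve (ZMod ℓ))

/-- numerator of the rational function `x(φ P - P)` of `x(P)` (not reduced). -/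
noncomputable def numR : (ZMod ℓ)[X] :=
  W.Ψ₂Sq * (W.Ψ₂Sq ^ ((ℓ - 1) / 2) + 1) ^ 2 - (C W.b₂ + 4 * X ^ ℓ + 4 * X) * (X ^ ℓ - X) ^ 2

/-- denominator of the rational function `x(φ P - P)` of `x(P)` (not reduced). -/
noncomputable def denR : (ZMod ℓ)[X] := 4 * (X ^ ℓ - X) ^ 2

end count

end Fermat.Agent.HW
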