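import Fermat.Agent.HW.Defs

/-! # HW / T4 : the Frobenius endomorphism of the group of points over any `k ⊇ F_ℓ`. -/

set_option autoImplicit false

namespace Fermat.Agent.HW

open Polynomial WeierstrassCurve Fermat.Agent.S05
open scoped WeierstrassCurve.Affine

variable {ℓ : ℕ} [Fact ℓ.Prime] (W : WeierstrassCurve (ZMod ℓ))

/-- Frobenius `(x,y) ↦ (x^ℓ, y^ℓ)`. -/
noncomputable def frob (k : Type*) [Field k] [Algebra (ZMod ℓ) k] [DecidableEq k] :
    (W.toAffine⁄k).Point →+ (W.toAffine⁄k).Point :=
  Affine.Point.map (W' := W.toAffine) (FiniteField.frobeniusAlgHom (ZMod ℓ) k)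

theorem frobData (k : Type*) [Field k] [Algebra (ZMod ℓ) k] [DecidableEq k] :
    FrobData ℓ (frob W k) := by
  have hpow : ∀ z : k, FiniteField.frobeniusAlgHom (ZMod ℓ) k z = z ^ ℓ := by
    intro z
    rw [FiniteField.coe_frobeniusAlgHom, ZMod.card]
  have hℓ0 : ℓ ≠ 0 := (Fact.out : ℓ.Prime).ne_zero
  refine ⟨?_, ?_, ?_⟩
  · intro P hP
    cases P with
    | zero => exact absurd rfl hP
    | some x y h =>
      rw [frob, Affine.Point.map_some]
      exact Affine.Point.some_ne_zero _
  · intro P
    cases P with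
    | zero =>
      show (0 : k) = 0 ^ ℓ
      rw [zero_pow hℓ0]
    | some x y h =>
      rw [frob, Affine.Point.map_some]
      exact hpow x
  · intro P
    cases P with
    | zero =>
      show (0 : k) = 0 ^ ℓ
      rw [zero_pow hℓ0]
    | some x y h =>
      rw [frob, Affine.Point.map_some]
      exact hpow y

theorem frob_map {k L : Type*} [Field k] [Algebra (ZMod ℓ) k] [DecidableEq k]
    [Field L] [Algebra (ZMod ℓ) L] [DecidableEq L] (f : k →ₐ[ZMod ℓ] L) (P : (W.toAffine⁄k).Point) :
    frob W L (Affine.Point.map (W' := W.toAffine) f P)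
      = Affine.Point.map (W' := W.toAffine) f (frob W k P) := by
  rw [frob, frob, Affine.Point.map_map, Affine.Point.map_map]
  congr 2
  ext z
  simp only [AlgHom.comp_apply, FiniteField.coe_frobeniusAlgHom, map_pow]

end Fermat.Agent.HW
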