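import Fermat.Agent.HW.Defs

/-! # HW / T1-T3 : existence of generic points.

T1 `exists_ev`: `RatFunc.liftRingHom` / `IsFractionRing.lift` of `aeval x`, injective by transcendence.
T2 `exists_generic`: in `AlgebraicClosure (RatFunc k)` take `x = T` and `y` a root of the Weierstrass equation
   (monic quadratic); nonsingular since `Δ ≠ 0`.
T3 `transcendental_xc_add`: points of `E(L)` whose `x` is algebraic over `k` (then `y` is too) are exactly the image
   of `Point.map` from the intermediate field `algebraicClosure k L`, hence form a subgroup; it contains the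
   image of `E(k)` and does not contain `η`. -/

set_option autoImplicit false

namespace Fermat.Agent.HW

open Polynomial WeierstrassCurve Fermat.Agent.S05
open scoped WeierstrassCurve.Affine

theorem exists_ev {F L : Type*} [Field F] [Field L] [Algebra F L] {x : L}
    (hx : Transcendental F x) :
    ∃ ev : RatFunc F →+* L, (∀ c, ev (RatFunc.C c) = algebraMap F L c) ∧ ev RatFunc.X = x := by
  have hinj : Function.Injective ((aeval x : F[X] →ₐ[F] L) : F[X] →+* L) :=
    transcendental_iff_injective.mp hx
  refine ⟨IsFractionRing.lift (A := F[X]) (K := RatFunc F) hinj, ?_, ?_⟩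
  · intro c
    rw [← RatFunc.algebraMap_C, IsFractionRing.lift_algebraMap]; simp
  · rw [← RatFunc.algebraMap_X, IsFractionRing.lift_algebraMap]; simp

theorem exists_generic {F k : Type*} [Field F] [Field k] [Algebra F k] (W : WeierstrassCurve F)
    (hΔ : W.Δ ≠ 0) :
    ∃ η : (W.toAffine⁄(AlgebraicClosure (RatFunc k))).Point, η ≠ 0 ∧ Transcendental k (xc η) := by
  set Ω := AlgebraicClosure (RatFunc k) with hΩ
  set E := (W.toAffine⁄Ω) with hE
  set x : Ω := algebraMap (RatFunc k) Ω RatFunc.X with hx
  have hΔ' : E.Δ ≠ 0 := by
    rw [hE]; erw [WeierstrassCurve.map_Δ]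
    exact fun h => hΔ ((map_eq_zero _).1 h)
  obtain ⟨y, hy⟩ := IsAlgClosed.exists_root
    ((X : Polynomial Ω) ^ 2 + C (E.a₁ * x + E.a₃) * X - C (x ^ 3 + E.a₂ * x ^ 2 + E.a₄ * x + E.a₆))
    (by
      have : ((X : Polynomial Ω) ^ 2 + C (E.a₁ * x + E.a₃) * X
          - C (x ^ 3 + E.a₂ * x ^ 2 + E.a₄ * x + E.a₆)).degree = 2 := by
        compute_degree!
      rw [this]; norm_num)
  have heq : E.Equation x y := by
    rw [WeierstrassCurve.Affine.equation_iff]
    simp only [IsRoot.def, eval_sub, eval_add, eval_pow, eval_X, eval_mul, eval_C] at hy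
    linear_combination hy
  have hns : E.Nonsingular x y := (E.equation_iff_nonsingular_of_Δ_ne_zero hΔ').1 heq
  refine ⟨Affine.Point.some x y hns, by simp, ?_⟩
  rw [xc_some, hx]
  exact (transcendental_algebraMap_iff (algebraMap (RatFunc k) Ω).injective).2
    RatFunc.transcendental_X

theorem transcendental_xc_add {F k L : Type*} [Field F] [Field k] [Field L] [Algebra F k]
    [Algebra F L] [Algebra k L] [IsScalarTower F k L] [DecidableEq k]
    [DecidableEq L] (W : WeierstrassCurve F) {η : (W.toAffine⁄L).Point}
    (hη : Transcendental k (xc η)) (P : (W.toAffine⁄k).Point) :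
    η + Affine.Point.map (W' := W.toAffine) (IsScalarTower.toAlgHom F k L) P ≠ 0 ∧
      Transcendental k
        (xc (η + Affine.Point.map (W' := W.toAffine) (IsScalarTower.toAlgHom F k L) P)) := by
  classical
  set A : IntermediateField k L := algebraicClosure k L with hA
  set ι : A →ₐ[F] L := (A.val).restrictScalars F with hι
  set G : AddSubgroup (W.toAffine⁄L).Point := (Affine.Point.map (W' := W.toAffine) ι).range with hG
  have mem_range : ∀ R : (W.toAffine⁄L).Point, (R = 0 ∨ IsAlgebraic k (xc R)) → R ∈ G := by
    intro R hR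
    rcases R with _ | ⟨x, y, h⟩
    · exact G.zero_mem
    · have hx : IsAlgebraic k x := by
        rcases hR with hR | hR
        · exact absurd hR (by simp)
        · simpa using hR
      have hxA : x ∈ A := mem_algebraicClosure_iff.2 hx
      have hyA : y ∈ A := by
        rw [hA, mem_algebraicClosure_iff]
        have h1 : IsAlgebraic A y := by
          have heq := (Affine.equation_iff _ _).1 h.1
          set x' : A := ⟨x, hxA⟩ with hx'
          set p : Polynomial A := X ^ 2 + C (algebraMap F A W.a₁ * x' + algebraMap F A W.a₃) * X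
            - C (x' ^ 3 + algebraMap F A W.a₂ * x' ^ 2 + algebraMap F A W.a₄ * x'
              + algebraMap F A W.a₆) with hp
          have hdeg : p.degree = 2 := by
            rw [hp]; compute_degree!
          refine ⟨p, fun h0 => by rw [h0] at hdeg; simp at hdeg, ?_⟩
          have hc : ∀ c : F, algebraMap A L (algebraMap F A c) = algebraMap F L c := fun c =>
            ι.commutes c
          have hxx : algebraMap A L x' = x := rfl
          simp only [hp, map_sub, map_add, map_mul, map_pow, aeval_X, aeval_C, hc, hxx]
          simp only [WeierstrassCurve.baseChange, WeierstrassCurve.map_a₁,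
            WeierstrassCurve.map_a₂, WeierstrassCurve.map_a₃, WeierstrassCurve.map_a₄,
            WeierstrassCurve.map_a₆] at heq
          linear_combination heq
        exact h1.restrictScalars k
      have hns : (W.toAffine⁄A).Nonsingular (⟨x, hxA⟩ : A) (⟨y, hyA⟩ : A) :=
        (W.toAffine.baseChange_nonsingular ι.injective (⟨x, hxA⟩ : A) (⟨y, hyA⟩ : A)).1 h
      exact ⟨Affine.Point.some _ _ hns, rfl⟩
  have of_range : ∀ R ∈ G, IsAlgebraic k (xc R) := by
    rintro R ⟨S, rfl⟩
    rcases S with _ | ⟨x, y, h⟩
    · exact isAlgebraic_zero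
    · exact mem_algebraicClosure_iff.1 x.2
  have hP : Affine.Point.map (W' := W.toAffine) (IsScalarTower.toAlgHom F k L) P ∈ G := by
    apply mem_range
    rcases P with _ | ⟨x, y, h⟩
    · exact Or.inl rfl
    · exact Or.inr (isAlgebraic_algebraMap x)
  have key : ¬ (η + Affine.Point.map (W' := W.toAffine) (IsScalarTower.toAlgHom F k L) P) ∈ G := by
    intro h
    have : η ∈ G := by
      have := G.sub_mem h hP
      simpa using this
    exact hη (of_range _ this)
  exact ⟨fun h => key (mem_range _ (Or.inl h)), fun h => key (mem_range _ (Or.inr h))⟩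

end Fermat.Agent.HW
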