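import Fermat.Agent.HW.Generic
import Fermat.Agent.HW.Frob
import Fermat.Agent.HW.GenPoint

/-! # HW / T5 = Theorem (C) : the Frobenius relation (up to `2`-torsion) over any field `k ⊇ F_ℓ`. -/

set_option autoImplicit false

namespace Fermat.Agent.HW

open Polynomial WeierstrassCurve Fermat.Agent.S05
open scoped WeierstrassCurve.Affine

variable {ℓ : ℕ} [Fact ℓ.Prime] (W : WeierstrassCurve (ZMod ℓ))

/-- relation for a point with transcendental `x`-coordinate. -/
theorem frob_quadratic_of_transcendental (hℓ : ℓ ≠ 2) (hΔ : W.Δ ≠ 0) {L : Type*} [Field L]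
    [Algebra (ZMod ℓ) L] [DecidableEq L] {Q : (W.toAffine⁄L).Point} (hQ : Q ≠ 0)
    (hx : Transcendental (ZMod ℓ) (xc Q)) :
    (2 : ℤ) • (frob W L (frob W L Q)
      - ((ℓ : ℤ) + 1 - (Nat.card W.toAffine.Point : ℤ)) • frob W L Q + (ℓ : ℤ) • Q) = 0 := by
  obtain ⟨ev, hC, hX⟩ := exists_ev hx
  have hG : Gen W (W.toAffine⁄L) ev Q :=
    { a₁ := by rw [hC]; rfl
      a₂ := by rw [hC]; rfl
      a₃ := by rw [hC]; rfl
      a₄ := by rw [hC]; rfl
      a₆ := by rw [hC]; rfl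
      ne := hQ
      hx := hX.symm }
  exact generic_relation hℓ hΔ hG (frobData W L)

/-- **Theorem (C)**. -/
theorem frob_quadratic (hℓ : ℓ ≠ 2) (hΔ : W.Δ ≠ 0) {k : Type*} [Field k]
    [Algebra (ZMod ℓ) k] [DecidableEq k] (P : (W.toAffine⁄k).Point) :
    (2 : ℤ) • (frob W k (frob W k P)
      - ((ℓ : ℤ) + 1 - (Nat.card W.toAffine.Point : ℤ)) • frob W k P + (ℓ : ℤ) • P) = 0 := by
  classical
  obtain ⟨η, hη0, hη⟩ := exists_generic (k := k) W hΔ
  set L := AlgebraicClosure (RatFunc k)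
  set ι := Affine.Point.map (W' := W.toAffine) (IsScalarTower.toAlgHom (ZMod ℓ) k L) with hι
  obtain ⟨h0, h1⟩ := transcendental_xc_add W hη P
  have e1 := frob_quadratic_of_transcendental W hℓ hΔ hη0 (hη.of_tower_top (ZMod ℓ))
  have e2 := frob_quadratic_of_transcendental W hℓ hΔ h0 (h1.of_tower_top (ZMod ℓ))
  apply Affine.Point.map_injective (W' := W.toAffine) (IsScalarTower.toAlgHom (ZMod ℓ) k L)
  rw [← hι] at e2 ⊢
  simp only [map_add, map_sub, map_zsmul, smul_add, smul_sub, map_zero] at e1 e2 ⊢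
  rw [hι, ← frob_map, ← frob_map, ← hι]
  have e3 := congrArg₂ (· - ·) e2 e1
  simp only [sub_zero] at e3
  rw [← e3]
  abel

end Fermat.Agent.HW
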