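import Fermat.Agent.HW.OddGroup
import Fermat.Agent.HW.RatDegComp

/-! # HW / O5 : an odd point of height `0` is `2`-torsion.

`Z ≠ 0`, `xc Z = ev X`, `rdeg X = 0` so `X = C c`; `vc Z = ev Y * w`; squaring, `Y² g(T) = g(c)` in `F(T)`.
If `Y ≠ 0`: write `Y = a/b`; `a² g = g(c) b²` in `F[X]`, `g(c) ≠ 0`, degrees `2 deg a + 3 = 2 deg b`: parity.
So `Y = 0`, `vc Z = 0`, `Z + Z = 0` (`S05.add_self_eq_zero_iff`). -/

set_option autoImplicit false

namespace Fermat.Agent.HW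

open Polynomial WeierstrassCurve Fermat.Agent.S05

variable {F L : Type*} [Field F] [Field L] [DecidableEq L]
  {W : WeierstrassCurve F} {E : WeierstrassCurve.Affine L} {ev : RatFunc F →+* L} {Q : E.Point}

omit [DecidableEq L] in
/-- `vc Q ^ 2 = ev (g(T))` with `g = Ψ₂Sq`, written as the image of a polynomial. -/
theorem Gen.vc_sq_eq_poly (hG : Gen W E ev Q) :
    vc Q ^ 2 = ev (algebraMap F[X] (RatFunc F)
      (C 4 * X ^ 3 + C W.b₂ * X ^ 2 + C (2 * W.b₄) * X + C W.b₆)) := by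
  rw [vc_sq hG.ne, hG.hx, hG.b₂, hG.b₄, hG.b₆]
  simp only [map_add, map_mul, map_pow, RatFunc.algebraMap_C, RatFunc.algebraMap_X, map_ofNat]

theorem natDegree_gPoly (h2 : (2 : F) ≠ 0) (b2 b4 b6 : F) :
    (C 4 * X ^ 3 + C b2 * X ^ 2 + C b4 * X + C b6 : F[X]).natDegree = 3 := by
  have h4 : (4 : F) ≠ 0 := by
    have : (4 : F) = 2 * 2 := by norm_num
    rw [this]; exact mul_ne_zero h2 h2
  exact natDegree_cubic h4

theorem add_self_eq_zero_of_ht_eq_zero (h2 : (2 : F) ≠ 0) (hG : Gen W E ev Q) {Z : E.Point}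
    (h : IsOdd ev Q Z) (h0 : ht ev Z = 0) : Z + Z = 0 := by
  rcases h with rfl | ⟨X', Y, hX, hY⟩
  · simp
  by_cases hZ : Z = 0
  · subst hZ; simp
  rw [ht_of_eq hZ hX] at h0
  obtain ⟨c, rfl⟩ := (rdeg_eq_zero_iff X').1 (by exact_mod_cast h0)
  rw [add_self_eq_zero_iff hZ]
  change vc Z = 0
  set g : F[X] := C 4 * X ^ 3 + C W.b₂ * X ^ 2 + C (2 * W.b₄) * X + C W.b₆ with hg
  have hgdeg : g.natDegree = 3 := natDegree_gPoly h2 _ _ _
  have hg0 : g ≠ 0 := by
    intro h; rw [h] at hgdeg; simp at hgdeg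
  have hsq : Y ^ 2 * algebraMap F[X] (RatFunc F) g = RatFunc.C (g.eval c) := by
    apply ev.injective
    rw [map_mul, map_pow, ← hG.vc_sq_eq_poly, ← mul_pow, ← hY, vc_sq hZ, hX, hG.b₂, hG.b₄, hG.b₆, hg]
    simp only [eval_add, eval_mul, eval_pow, eval_C, eval_X, map_add, map_mul, map_pow, map_ofNat,
      eval_ofNat]
  have hY0 : Y = 0 := by
    by_contra hY0
    have hga : algebraMap F[X] (RatFunc F) g ≠ 0 := by
      rw [Ne, map_eq_zero_iff _ (RatFunc.algebraMap_injective F)]; exact hg0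
    have h1 := congrArg RatFunc.intDegree hsq
    rw [RatFunc.intDegree_C, RatFunc.intDegree_mul (pow_ne_zero 2 hY0) hga,
      RatFunc.intDegree_polynomial, hgdeg, pow_two, RatFunc.intDegree_mul hY0 hY0] at h1
    omega
  rw [hY, hY0, map_zero, zero_mul]

end Fermat.Agent.HW
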