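import Mathlib

/-! # HW / Q : quadratic-form algebra (Mathlib only).

`h` satisfies the parallelogram law ⟹ `B P Q = h (P+Q) - h P - h Q` is biadditive (Silverman VIII.9.3;
values in `ℤ`, torsion free).  `B (φP) P = (l+1-N) h P =: a h P`; polarise:
`B (φP) Q + B (φQ) P = a B P Q`; `B (φP) (φQ) = l B P Q`.  Expand `2 h Z = B Z Z` for
`Z = φφP - a φP + l P`:  everything cancels. -/

set_option autoImplicit false

namespace Fermat.Agent.HW

section

variable {G : Type*} [AddCommGroup G] (h : G → ℤ)
  (hpar : ∀ P Q, h (P + Q) + h (P - Q) = 2 * h P + 2 * h Q)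

include hpar

lemma quad_zero : h 0 = 0 := by
  have := hpar 0 0
  simp at this
  omega

lemma quad_neg (P : G) : h (-P) = h P := by
  have := hpar 0 P
  have h0 := quad_zero h hpar
  simp only [zero_add, zero_sub, h0] at this
  omega

lemma quad_cube (P Q R : G) :
    h (P + R + Q) = h (P + R) + h (P + Q) + h (R + Q) - h P - h Q - h R := by
  have e1 := hpar (P + R) Q
  have e2 := hpar P (R - Q)
  have e3 := hpar (P + Q) R
  have e4 := hpar R Q
  have a1 : P + (R - Q) = P + R - Q := by abel
  have a2 : P - (R - Q) = P + Q - R := by abel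
  have a3 : P + Q + R = P + R + Q := by abel
  rw [a1, a2] at e2
  rw [a3] at e3
  omega

/-- the associated biadditive form. -/
def quadB : G →+ G →+ ℤ :=
  AddMonoidHom.mk' (fun P => AddMonoidHom.mk' (fun Q => h (P + Q) - h P - h Q) (by
    intro Q R
    have a1 : P + (Q + R) = Q + P + R := by abel
    have a2 : P + Q = Q + P := by abel
    have e' := quad_cube h hpar Q R P
    rw [a1, a2, e']
    ring)) (by
    intro P R
    ext Q
    simp only [AddMonoidHom.mk'_apply, AddMonoidHom.add_apply]
    rw [quad_cube h hpar P Q R]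
    ring)

lemma quadB_apply (P Q : G) : quadB h hpar P Q = h (P + Q) - h P - h Q := rfl

lemma quadB_comm (P Q : G) : quadB h hpar P Q = quadB h hpar Q P := by
  rw [quadB_apply, quadB_apply, add_comm]; ring

lemma quadB_self (P : G) : quadB h hpar P P = 2 * h P := by
  have := hpar P P
  rw [sub_self, quad_zero h hpar] at this
  rw [quadB_apply]; omega

end

theorem quad_main {G : Type*} [AddCommGroup G] (h : G → ℤ)
    (hpar : ∀ P Q, h (P + Q) + h (P - Q) = 2 * h P + 2 * h Q)
    (φ : G →+ G) (l N : ℤ) (hφ : ∀ P, h (φ P) = l * h P) (hN : ∀ P, h (φ P - P) = N * h P)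
    (P : G) : h (φ (φ P) - (l + 1 - N) • φ P + l • P) = 0 := by
  set B := quadB h hpar with hB
  set a := l + 1 - N with ha
  have Bφ : ∀ X Y, B (φ X) (φ Y) = l * B X Y := by
    intro X Y
    rw [hB, quadB_apply, quadB_apply, ← map_add, hφ, hφ, hφ]; ring
  have Bd : ∀ X, B (φ X) X = a * h X := by
    intro X
    have e1 : B (φ X) (-X) = h (φ X - X) - h (φ X) - h (-X) := by
      rw [hB, quadB_apply, ← sub_eq_add_neg]
    rw [map_neg, hN, hφ, quad_neg h hpar] at e1
    rw [ha]
    linarith
  have Bpol : ∀ X Y, B (φ X) Y + B (φ Y) X = a * B X Y := by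
    intro X Y
    have e1 := Bd (X + Y)
    have e2 := Bd X
    have e3 := Bd Y
    have e4 : B X Y = h (X + Y) - h X - h Y := rfl
    simp only [map_add, AddMonoidHom.add_apply] at e1
    rw [e4]
    linarith
  have hc : ∀ X Y, B X Y = B Y X := quadB_comm h hpar
  have hs : ∀ X, B X X = 2 * h X := quadB_self h hpar
  set u := φ (φ P) with hu
  set v := φ P with hv
  have e_ww := hs P
  have e_vw := Bd P
  have e_vv : B v v = l * B P P := Bφ P P
  have e_uv : B u v = l * B v P := Bφ v P
  have e_uu : B u u = l * B v v := Bφ v v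
  have e_uw := Bpol v P
  have key : B (u - a • v + l • P) (u - a • v + l • P) = 0 := by
    simp only [map_add, map_sub, map_zsmul, AddMonoidHom.add_apply, AddMonoidHom.sub_apply,
      AddMonoidHom.zsmul_apply, smul_eq_mul]
    rw [hc v u, hc P u, hc P v]
    have e_uw' : B u P = a * B v P - B v v := by linarith
    rw [e_uw', e_uu, e_uv, e_vv, e_vw, e_ww]
    ring
  rw [hs] at key
  omega

end Fermat.Agent.HW
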