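import Fermat.Agent.HW.OddFrobSub
import Fermat.Agent.HW.OddZero
import Fermat.Agent.HW.Quad

/-! # HW / G : the Frobenius relation (up to `2`-torsion) for a generic point. -/

set_option autoImplicit false

namespace Fermat.Agent.HW

open Polynomial WeierstrassCurve Fermat.Agent.S05

variable {ℓ : ℕ} [Fact ℓ.Prime] {L : Type*} [Field L] [DecidableEq L]
  {W : WeierstrassCurve (ZMod ℓ)} {E : WeierstrassCurve.Affine L}
  {ev : RatFunc (ZMod ℓ) →+* L} {Q : E.Point} {φ : E.Point →+ E.Point}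

lemma two_ne_zero_zmod (hℓ : ℓ ≠ 2) : (2 : ZMod ℓ) ≠ 0 := by
  intro h
  have h1 : ((2 : ℕ) : ZMod ℓ) = 0 := by exact_mod_cast h
  rw [ZMod.natCast_eq_zero_iff] at h1
  exact hℓ ((Nat.prime_dvd_prime_iff_eq (Fact.out) Nat.prime_two).1 h1)

theorem generic_relation (hℓ : ℓ ≠ 2) (hΔ : W.Δ ≠ 0) (hG : Gen W E ev Q) (hφ : FrobData ℓ φ) :
    (2 : ℤ) • (φ (φ Q) - ((ℓ : ℤ) + 1 - (Nat.card W.toAffine.Point : ℤ)) • φ Q + (ℓ : ℤ) • Q)
      = 0 := by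
  have h2 := two_ne_zero_zmod hℓ
  set S := oddSubgroup h2 hG with hS
  -- restrict `φ` to `S`
  let φS : S →+ S :=
    { toFun := fun P => ⟨φ P.1, isOdd_frob hℓ hG hφ P.2⟩
      map_zero' := by ext; simp
      map_add' := fun P P' => by ext; simp }
  have key := quad_main (G := S) (fun P => ht ev P.1)
    (fun P P' => by
      simpa using ht_parallelogram h2 hΔ hG P.2 P'.2)
    φS (ℓ : ℤ) (Nat.card W.toAffine.Point : ℤ)
    (fun P => ht_frob hG hφ P.2)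
    (fun P => ht_frob_sub hℓ hΔ hG hφ P.2)
    ⟨Q, hG.isOdd_self⟩
  set Z : S := φS (φS ⟨Q, hG.isOdd_self⟩)
      - ((ℓ : ℤ) + 1 - (Nat.card W.toAffine.Point : ℤ)) • φS ⟨Q, hG.isOdd_self⟩
      + (ℓ : ℤ) • ⟨Q, hG.isOdd_self⟩ with hZ
  have hZ1 : (Z : E.Point)
      = φ (φ Q) - ((ℓ : ℤ) + 1 - (Nat.card W.toAffine.Point : ℤ)) • φ Q + (ℓ : ℤ) • Q := by
    rw [hZ]
    simp [φS]
  have := add_self_eq_zero_of_ht_eq_zero h2 hG Z.2 key
  rw [← hZ1, two_smul]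
  exact this

end Fermat.Agent.HW
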