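import Mathlib

/-! # HW / NE-3a : powers of a root of `X² - aX + l` (Mathlib only).

`X² - aX + l ∣ X^(2k) - a_k X^k + l^k` in `ℤ[X]`, `a_0 = 2`, `a_1 = a`, `a_(k+2) = a a_(k+1) - l a_k`
(or: `τ' := a - τ` commutes with `τ`, `τ τ' = l`, `τ^k + τ'^k = a_k`; work in `AddMonoid.End V` / `Module.End ℤ V` via
`DistribMulAction.toAddMonoidEnd`). -/

set_option autoImplicit false

namespace Fermat.Agent.HW

open Polynomial

namespace NEDickson

/-- the commutative computation. -/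
theorem comm_quadratic_pow {A : Type*} [CommRing A] (t : A) (a l : ℤ)
    (h : t ^ 2 - a * t + l = 0) (k : ℕ) :
    ∃ b : ℤ, t ^ k * t ^ k - b * t ^ k + (l : A) ^ k = 0 := by
  set t' : A := a - t with ht'
  have hl : t * t' = l := by rw [ht']; linear_combination (-1 : A) * h
  have key : ∀ k : ℕ, ∃ b b' : ℤ, t ^ k + t' ^ k = b ∧ t ^ (k + 1) + t' ^ (k + 1) = b' := by
    intro k
    induction k with
    | zero => exact ⟨2, a, by norm_num, by rw [ht']; ring⟩
    | succ k ih =>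
      obtain ⟨b, b', hb, hb'⟩ := ih
      refine ⟨b', a * b' - l * b, hb', ?_⟩
      have e : t ^ (k + 1 + 1) + t' ^ (k + 1 + 1) =
          (t + t') * (t ^ (k + 1) + t' ^ (k + 1)) - (t * t') * (t ^ k + t' ^ k) := by ring
      rw [e, hb, hb', hl]
      have : t + t' = a := by rw [ht']; ring
      rw [this]
      push_cast
      ring
  obtain ⟨b, -, hb, -⟩ := key k
  refine ⟨b, ?_⟩
  rw [← hb, ← hl, mul_pow]
  ring

theorem dvd_quadratic_pow (a l : ℤ) (k : ℕ) :
    ∃ b : ℤ, (X ^ 2 - C a * X + C l : ℤ[X]) ∣ X ^ k * X ^ k - C b * X ^ k + C (l ^ k) := by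
  set q : ℤ[X] := X ^ 2 - C a * X + C l with hq
  obtain ⟨b, hb⟩ := comm_quadratic_pow (A := ℤ[X] ⧸ Ideal.span {q}) (Ideal.Quotient.mk _ X) a l
    (by
      have : Ideal.Quotient.mk (Ideal.span {q}) q = 0 :=
        Ideal.Quotient.eq_zero_iff_mem.2 (Ideal.mem_span_singleton_self q)
      rw [hq] at this
      simpa using this) k
  refine ⟨b, ?_⟩
  rw [← Ideal.mem_span_singleton, ← Ideal.Quotient.eq_zero_iff_mem]
  simpa using hb

variable {G V : Type*} [Monoid G] [AddCommGroup V] [DistribMulAction G V]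

/-- the action of a polynomial in `τ`. -/
noncomputable def act (τ : G) (P : ℤ[X]) : AddMonoid.End V :=
  aeval (DistribMulAction.toAddMonoidEnd G V τ) P

theorem act_mul (τ : G) (P Q : ℤ[X]) (v : V) : act τ (P * Q) v = act τ P (act τ Q v) := by
  unfold act
  rw [map_mul]
  rfl

theorem act_add (τ : G) (P Q : ℤ[X]) (v : V) : act τ (P + Q) v = act τ P v + act τ Q v := by
  unfold act
  rw [map_add]
  rfl

theorem act_sub (τ : G) (P Q : ℤ[X]) (v : V) : act τ (P - Q) v = act τ P v - act τ Q v := by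
  unfold act
  rw [map_sub]
  rfl

theorem act_C (τ : G) (n : ℤ) (v : V) : act τ (C n) v = n • v := by
  unfold act
  rw [aeval_C]
  simp

theorem act_X_pow (τ : G) (k : ℕ) (v : V) : act τ (X ^ k) v = τ ^ k • v := by
  unfold act
  rw [map_pow, aeval_X, ← map_pow]
  rfl

theorem act_X (τ : G) (v : V) : act τ X v = τ • v := by
  have := act_X_pow τ 1 v
  rwa [pow_one, pow_one] at this

theorem act_eq_zero_of_dvd (τ : G) {P Q : ℤ[X]} (hd : P ∣ Q) (hP : ∀ v : V, act τ P v = 0) (v : V) :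
    act τ Q v = 0 := by
  obtain ⟨R, rfl⟩ := hd
  rw [act_mul, hP]

end NEDickson

open NEDickson

theorem exists_quadratic_pow {G V : Type*} [Monoid G] [AddCommGroup V] [DistribMulAction G V]
    (τ : G) (a l : ℤ) (h : ∀ v : V, τ • τ • v - a • τ • v + l • v = 0) (k : ℕ) :
    ∃ b : ℤ, ∀ v : V, (τ ^ k) • (τ ^ k) • v - b • (τ ^ k) • v + (l ^ k) • v = 0 := by
  obtain ⟨b, hb⟩ := dvd_quadratic_pow a l k
  refine ⟨b, fun v => ?_⟩
  have h1 := act_eq_zero_of_dvd τ hb (fun v : V => by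
    rw [act_add, act_sub, act_mul, act_C, act_C, act_X, pow_two, act_mul, act_X, act_X]
    exact h v) v
  rw [act_add, act_sub, act_mul, act_mul, act_C, act_C, act_X_pow, act_X_pow] at h1
  exact h1

/-- unipotent case. -/
theorem unipotent_pow {G V : Type*} [Monoid G] [AddCommGroup V] [DistribMulAction G V]
    (τ : G) (h : ∀ v : V, τ • τ • v - (2 : ℤ) • τ • v + v = 0) (k : ℕ) :
    ∀ v : V, (τ ^ k) • (τ ^ k) • v - (2 : ℤ) • (τ ^ k) • v + v = 0 := by
  intro v
  have hd : (X * X - C 2 * X + C 1 : ℤ[X]) ∣ X ^ k * X ^ k - C 2 * X ^ k + C 1 := by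
    have h1 : (X - 1 : ℤ[X]) ∣ X ^ k - 1 := by
      have := sub_dvd_pow_sub_pow (X : ℤ[X]) 1 k
      rwa [one_pow] at this
    have h2 := pow_dvd_pow_of_dvd h1 2
    have e1 : (X * X - C 2 * X + C 1 : ℤ[X]) = (X - 1) ^ 2 := by
      simp only [map_ofNat, map_one]; ring
    have e2 : (X ^ k * X ^ k - C 2 * X ^ k + C 1 : ℤ[X]) = (X ^ k - 1) ^ 2 := by
      simp only [map_ofNat, map_one]; ring
    rw [e1, e2]
    exact h2
  have h1 := act_eq_zero_of_dvd τ hd (fun v : V => by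
    rw [act_add, act_sub, act_mul, act_mul, act_C, act_C, act_X, act_X, one_smul]
    exact h v) v
  rw [act_add, act_sub, act_mul, act_mul, act_C, act_C, act_X_pow, act_X_pow, one_smul] at h1
  exact h1

end Fermat.Agent.HW
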