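import Fermat.Agent.HW.Main
import Fermat.Agent.HW.TorsCount
import Fermat.Agent.HW.NEDickson
import Fermat.Agent.Cheb.Final
import Fermat.Agent.Cheb.Cyclo

/-! # HW / NE-3 : HW + generator-Chebotarev: relations for ALL `σ ∈ G_ℚ` on `E[p]`.

`L := ℚ(x(P), y(P) : P ∈ E[p]; ζ)` is finite over `ℚ` (`finite_torsionBy`; as in `S13/Glue.exists_level`).  `Cheb.preludeSpec L σ T'`
with `T' = T ∪ {2, p} ∪ primes dividing m ∪ primes dividing Δ` gives `ℓ, A, τ, a, b` with `τ^a = σ`, `σ^b = τ` on `L`; an automorphism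
acts on `E[p]` (and on `ζ`) through its restriction to `L`.  `HW.frobenius_relation` for `τ`; `Cheb.apply_rootOfUnity_of_isFrobeniusAt`:
`τ ζ = ζ^ℓ`; then `exists_quadratic_pow` / `unipotent_pow` with `k = a`.  In `unipotent_of_eisenstein`: `τ ζ = (σ^b) ζ = ζ`, so
`ζ^ℓ = ζ`, `ℓ ≡ 1 [MOD m]`, and `a_ℓ ≡ ℓ + 1 ≡ 2`, `ℓ ≡ 1 (mod p)` as `p ∣ m`; integers act on `E[p]` through `ZMod p`. -/

set_option autoImplicit false

namespace Fermat.Agent.HW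

open WeierstrassCurve WeierstrassCurve.Affine.Point Fermat.Agent.S05
open scoped WeierstrassCurve.Affine

/-- the `p`-torsion Galois module of the integral model `W`. -/
abbrev TorsQ (W : WeierstrassCurve ℤ) (p : ℕ) : Type :=
  Submodule.torsionBy ℤ ((W.map (Int.castRingHom ℚ)).toAffine⁄(AlgebraicClosure ℚ)).Point p

local notation "Kb" => AlgebraicClosure ℚ
local notation "GQ" => (AlgebraicClosure ℚ ≃ₐ[ℚ] AlgebraicClosure ℚ)

/-- two automorphisms which agree on the coordinates of a point agree on the point -/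
theorem smul_eq_smul_of_coords (E : WeierstrassCurve ℚ) (σ σ' : GQ) (Q : (E.toAffine⁄Kb).Point)
    (hx : σ (xc Q) = σ' (xc Q)) (hy : σ (yc Q) = σ' (yc Q)) : σ • Q = σ' • Q := by
  cases Q with
  | zero => rfl
  | some x y h =>
    simp only [xc_some, yc_some] at hx hy
    rw [algEquiv_smul_def, algEquiv_smul_def]
    simp only [Affine.Point.map_some]
    congr 1

theorem zsmul_eq_zsmul_of_dvd {W : WeierstrassCurve ℤ} {p : ℕ} {x y : ℤ} (h : (p : ℤ) ∣ x - y)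
    (v : TorsQ W p) : x • v = y • v := by
  obtain ⟨c, hc⟩ := h
  rw [← sub_eq_zero, ← sub_smul, hc, mul_comm, mul_smul]
  have : ((p : ℕ) : ℤ) • v = 0 := Submodule.smul_torsionBy _ v
  rw [this, smul_zero]

/-- generator-Chebotarev for the field generated by `E[p]` and `ζ`. -/
theorem exists_frob_approx (W : WeierstrassCurve ℤ) (hΔ : W.Δ ≠ 0) {p : ℕ} (hp : p.Prime)
    (hp2 : p ≠ 2) {m : ℕ} (hm : 0 < m) (T : Finset ℕ) (ζ : Kb) (σ : GQ) :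
    ∃ (ℓ : ℕ) (A : ValuationSubring Kb) (τ : GQ) (a b : ℕ),
      ℓ.Prime ∧ ℓ ∉ T ∧ ℓ ≠ 2 ∧ ℓ ≠ p ∧ ¬ ℓ ∣ m ∧ W.IsGoodPrimeFor ℓ ∧ A.LiesOverPrime ℓ ∧
      A.IsFrobeniusAt τ ℓ ∧ (∀ v : TorsQ W p, (τ ^ a) • v = σ • v) ∧ (τ ^ a) ζ = σ ζ ∧
      (σ ^ b) ζ = τ ζ := by
  classical
  have hfin : Finite (TorsQ W p) :=
    finite_torsionBy (k := Kb) (W.map (Int.castRingHom ℚ)) (hp.odd_of_ne_two hp2)
      (by exact_mod_cast hp.ne_zero)
  let S : Set Kb := ((Set.range fun x : TorsQ W p => xc x.1) ∪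
    (Set.range fun x : TorsQ W p => yc x.1)) ∪ {ζ}
  have hS : S.Finite := ((Set.finite_range _).union (Set.finite_range _)).union
    (Set.finite_singleton ζ)
  have : Finite S := hS
  have hL : FiniteDimensional ℚ (IntermediateField.adjoin ℚ S) :=
    IntermediateField.finiteDimensional_adjoin fun x _ =>
      (AlgebraicClosure.isAlgebraic ℚ).isIntegral.isIntegral x
  obtain ⟨ℓ, A, τ, a, b, h1, h2, h3, h4, -, h6, h7⟩ :=
    Cheb.preludeSpec (IntermediateField.adjoin ℚ S) hL σ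
      (T ∪ {2, p} ∪ m.primeFactors ∪ W.Δ.natAbs.primeFactors)
  simp only [Finset.mem_union, Finset.mem_insert, Finset.mem_singleton, not_or] at h2
  obtain ⟨⟨⟨hT, h22, h2p⟩, h2m⟩, h2Δ⟩ := h2
  refine ⟨ℓ, A, τ, a, b, h1, hT, h22, h2p, ?_, ?_, h3, h4, fun v => ?_, ?_, ?_⟩
  · intro hd
    exact h2m (Nat.mem_primeFactors.2 ⟨h1, hd, hm.ne'⟩)
  · intro hd
    exact h2Δ (Nat.mem_primeFactors.2 ⟨h1, Int.natCast_dvd.1 hd, Int.natAbs_ne_zero.2 hΔ⟩)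
  · apply Subtype.ext
    apply smul_eq_smul_of_coords
    · exact h6 _ (IntermediateField.subset_adjoin ℚ S (Or.inl (Or.inl ⟨v, rfl⟩)))
    · exact h6 _ (IntermediateField.subset_adjoin ℚ S (Or.inl (Or.inr ⟨v, rfl⟩)))
  · exact h6 _ (IntermediateField.subset_adjoin ℚ S (Or.inr rfl))
  · exact h7 _ (IntermediateField.subset_adjoin ℚ S (Or.inr rfl))

theorem frobenius_relation_tors (W : WeierstrassCurve ℤ) {ℓ p : ℕ} (hℓ : ℓ.Prime) (hℓ2 : ℓ ≠ 2)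
    (hgood : W.IsGoodPrimeFor ℓ) (hp : p.Prime) (hp2 : p ≠ 2) (hpℓ : p ≠ ℓ)
    (A : ValuationSubring Kb) (hA : A.LiesOverPrime ℓ) (τ : GQ) (hτ : A.IsFrobeniusAt τ ℓ)
    (v : TorsQ W p) : τ • τ • v - W.apOfModel ℓ • τ • v + (ℓ : ℤ) • v = 0 := by
  apply Subtype.ext
  have hv : p • v.1 = 0 := by
    have := (Submodule.mem_torsionBy_iff _ _).1 v.2
    rwa [natCast_zsmul] at this
  exact frobenius_relation W hℓ hℓ2 hgood hp hp2 hpℓ A hA τ hτ v.1 hv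

theorem exists_quadratic_relation (W : WeierstrassCurve ℤ) (hΔ : W.Δ ≠ 0) {p : ℕ} (hp : p.Prime)
    (hp2 : p ≠ 2) {ζ : AlgebraicClosure ℚ} (hζ : IsPrimitiveRoot ζ p)
    (σ : AlgebraicClosure ℚ ≃ₐ[ℚ] AlgebraicClosure ℚ) :
    ∃ (a : ℤ) (n : ℕ), σ ζ = ζ ^ n ∧
      ∀ v : TorsQ W p, σ • σ • v - a • σ • v + (n : ℤ) • v = 0 := by
  obtain ⟨ℓ, A, τ, a, b, h1, -, h2, hℓp, hℓm, hgood, hA, hτ, hv, hζa, -⟩ :=
    exists_frob_approx W hΔ hp hp2 hp.pos ∅ ζ σ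
  obtain ⟨c, hc⟩ := exists_quadratic_pow τ (W.apOfModel ℓ) (ℓ : ℤ)
    (frobenius_relation_tors W h1 h2 hgood hp hp2 (Ne.symm hℓp) A hA τ hτ) a
  refine ⟨c, ℓ ^ a, ?_, fun v => ?_⟩
  · rw [← hζa]
    exact Cheb.pow_apply_rootOfUnity_of_isFrobeniusAt h1 hA hℓm hτ hζ.pow_eq_one a
  · have := hc v
    rw [hv, hv] at this
    push_cast
    exact this

theorem unipotent_of_eisenstein (W : WeierstrassCurve ℤ) (hΔ : W.Δ ≠ 0) {p : ℕ} (hp : p.Prime)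
    (hp2 : p ≠ 2) {m : ℕ} (hpm : p ∣ m) (hm : 0 < m) (T : Finset ℕ)
    (hEis : ∀ ℓ : ℕ, ℓ.Prime → ℓ ∉ T → W.IsGoodPrimeFor ℓ → ℓ ≠ p → ℓ ≡ 1 [MOD m] →
      (p : ℤ) ∣ W.apOfModel ℓ - ((ℓ : ℤ) + 1))
    {ζ : AlgebraicClosure ℚ} (hζ : IsPrimitiveRoot ζ m)
    (σ : AlgebraicClosure ℚ ≃ₐ[ℚ] AlgebraicClosure ℚ) (hσ : σ ζ = ζ) :
    ∀ v : TorsQ W p, σ • σ • v - (2 : ℤ) • σ • v + v = 0 := by
  obtain ⟨ℓ, A, τ, a, b, h1, hT, h2, hℓp, hℓm, hgood, hA, hτ, hv, -, hζb⟩ :=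
    exists_frob_approx W hΔ hp hp2 hm T ζ σ
  have hσb : (σ ^ b) ζ = ζ := by
    clear hζb
    induction b with
    | zero => simp
    | succ b ih => rw [pow_succ, AlgEquiv.mul_apply, hσ, ih]
  have hτζ : ζ ^ ℓ = ζ ^ 1 := by
    rw [pow_one, ← Cheb.apply_rootOfUnity_of_isFrobeniusAt h1 hA hℓm hτ hζ.pow_eq_one, ← hζb, hσb]
  have hmod : ℓ ≡ 1 [MOD m] := by
    have hζ0 : ζ ≠ 0 := hζ.ne_zero hm.ne'
    have h3 : ζ ^ (ℓ - 1) = 1 := by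
      have h4 : ζ ^ (ℓ - 1) * ζ = 1 * ζ := by
        rw [← pow_succ, Nat.sub_add_cancel h1.one_lt.le, one_mul, hτζ, pow_one]
      exact mul_right_cancel₀ hζ0 h4
    exact ((Nat.modEq_iff_dvd' h1.one_lt.le).2 (hζ.dvd_of_pow_eq_one _ h3)).symm
  have hd := hEis ℓ h1 hT hgood hℓp hmod
  have hmodp : (p : ℤ) ∣ (ℓ : ℤ) - 1 := by
    have h3 : (m : ℤ) ∣ (ℓ : ℤ) - 1 := by
      have := (Nat.modEq_iff_dvd.1 hmod.symm)
      simpa using this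
    exact (Int.natCast_dvd_natCast.2 hpm).trans h3
  have hd2 : (p : ℤ) ∣ W.apOfModel ℓ - 2 := by
    have : W.apOfModel ℓ - 2 = (W.apOfModel ℓ - ((ℓ : ℤ) + 1)) + ((ℓ : ℤ) - 1) := by ring
    rw [this]
    exact dvd_add hd hmodp
  have hτrel : ∀ v : TorsQ W p, τ • τ • v - (2 : ℤ) • τ • v + v = 0 := by
    intro v
    have := frobenius_relation_tors W h1 h2 hgood hp hp2 (Ne.symm hℓp) A hA τ hτ v
    rw [zsmul_eq_zsmul_of_dvd hd2, zsmul_eq_zsmul_of_dvd hmodp v, one_smul] at this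
    exact this
  intro v
  have := unipotent_pow τ hτrel a v
  rw [hv, hv] at this
  exact this

end Fermat.Agent.HW
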