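import Mathlib

/-! # HW / NE-2 : the group-theoretic core of "irreducible ⟹ not Eisenstein" (Mathlib only).

Steps.  (1) every `σ ∈ H` satisfies `σ^p = 1` on `V` (`(σ-1)² = 0`, `p V = 0`), so the image of `H`
in `Equiv.Perm V` is a finite `p`-group; `p ∣ card V`, `0` is fixed ⟹ a nonzero fixed vector
(`IsPGroup.exists_fixed_point_of_prime_dvd_card_of_fixed_point`).
(2) `V^H` is a `G`-stable submodule (`H` normal), `≠ ⊥`, so `= ⊤`: `H` acts trivially.
(3) commutators act trivially: the actions of any `σ, τ` on `V` commute.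
(4) `c² = 1` on `V`, the `+1`-eigenspace of `c` is `G`-stable, so `c = ε = ± 1` on `V`.
(5) a non-scalar `σ₀` exists (else a line is stable, `card V > p`).
(6) compare the quadratic relations of `σ₀` and of `σ₀ c = ε σ₀` (with `χ (σ₀ c) = - χ σ₀`):
`b σ₀ + 2 χ σ₀ = 0` on `V`; `σ₀` non-scalar gives `b = 0`, `χ σ₀ = 0`, `σ₀² = a σ₀`, `σ₀ = a`:
contradiction. -/

set_option autoImplicit false

namespace Fermat.Agent.HW

namespace NEGroup

variable {p : ℕ} [Fact p.Prime] {G V : Type*} [Group G]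
    [AddCommGroup V] [Module (ZMod p) V] [DistribMulAction G V]

theorem smul_zmod_smul (σ : G) (z : ZMod p) (v : V) : σ • z • v = z • σ • v :=
  ZMod.map_smul (DistribSMul.toAddMonoidHom V σ) z v

theorem irr_addSubgroup
    (hirr : ∀ N : Submodule (ZMod p) V, (∀ σ : G, ∀ v ∈ N, σ • v ∈ N) → N = ⊥ ∨ N = ⊤)
    (W : AddSubgroup V) (hW : ∀ σ : G, ∀ v ∈ W, σ • v ∈ W) :
    (∀ v ∈ W, v = 0) ∨ (∀ v, v ∈ W) := by
  rcases hirr (AddSubgroup.toZModSubmodule p W) (fun σ v hv => hW σ v hv) with h | h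
  · left
    intro v hv
    have h1 : v ∈ AddSubgroup.toZModSubmodule p W := hv
    rw [h] at h1
    simpa using h1
  · right
    intro v
    have h1 : v ∈ AddSubgroup.toZModSubmodule p W := by
      rw [h]
      trivial
    exact h1

omit [Fact p.Prime] [Module (ZMod p) V] in
theorem pow_smul_of_unip (h : G) (hh : ∀ v : V, h • h • v - (2 : ℤ) • h • v + v = 0) (k : ℕ)
    (v : V) : h ^ k • v = v + k • (h • v - v) := by
  induction k with
  | zero => simp
  | succ k ih =>
    have e : h • h • v = h • v + (h • v - v) := by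
      have := hh v
      rw [two_zsmul] at this
      rw [← sub_eq_zero, ← this]
      abel
    rw [pow_succ', mul_smul, ih, smul_add, smul_comm h k, smul_sub, e, succ_nsmul]
    abel_nf

theorem pow_p_smul_of_unip (h : G) (hh : ∀ v : V, h • h • v - (2 : ℤ) • h • v + v = 0)
    (v : V) : h ^ p • v = v := by
  rw [pow_smul_of_unip h hh, ← Nat.cast_smul_eq_nsmul (ZMod p), ZMod.natCast_self, zero_smul,
    add_zero]

theorem exists_fixed [Finite V] (hpV : p ∣ Nat.card V) (H : Subgroup G)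
    (hH : ∀ σ ∈ H, ∀ v : V, σ • σ • v - (2 : ℤ) • σ • v + v = 0) :
    ∃ b : V, b ≠ 0 ∧ ∀ σ ∈ H, σ • b = b := by
  let f : H →* Equiv.Perm V := MulAction.toPermHom H V
  have hP : IsPGroup p f.range := by
    rintro ⟨_, ⟨h, rfl⟩⟩
    refine ⟨1, ?_⟩
    rw [pow_one]
    apply Subtype.ext
    apply Equiv.ext
    intro v
    have h1 : ((f h) ^ p) v = (h : G) ^ p • v := by
      rw [← map_pow]
      rfl
    have h2 := pow_p_smul_of_unip (p := p) (h : G) (hH h h.2) v
    rw [← h1] at h2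
    exact h2
  have h0 : (0 : V) ∈ MulAction.fixedPoints f.range V := by
    rintro ⟨_, ⟨h, rfl⟩⟩
    exact smul_zero (h : G)
  obtain ⟨b, hb, hb0⟩ := hP.exists_fixed_point_of_prime_dvd_card_of_fixed_point V hpV h0
  exact ⟨b, hb0.symm, fun σ hσ => hb ⟨f ⟨σ, hσ⟩, ⟨_, rfl⟩⟩⟩

end NEGroup

open NEGroup

theorem false_of_eisenstein {p : ℕ} [Fact p.Prime] (hp2 : p ≠ 2) {G V : Type*} [Group G]
    [AddCommGroup V] [Module (ZMod p) V] [DistribMulAction G V] [Finite V]
    (hcard : p < Nat.card V)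
    (hirr : ∀ N : Submodule (ZMod p) V, (∀ σ : G, ∀ v ∈ N, σ • v ∈ N) → N = ⊥ ∨ N = ⊤)
    (χ : G → ℤ)
    (hχmul : ∀ σ τ : G, ((χ (σ * τ) : ℤ) : ZMod p) = (χ σ : ZMod p) * (χ τ : ZMod p))
    (hquad : ∀ σ : G, ∃ a : ℤ, ∀ v : V, σ • σ • v - a • σ • v + χ σ • v = 0)
    (H : Subgroup G) [H.Normal] (hcomm : ∀ σ τ : G, σ * τ * σ⁻¹ * τ⁻¹ ∈ H)
    (hH : ∀ σ ∈ H, ∀ v : V, σ • σ • v - (2 : ℤ) • σ • v + v = 0)
    (c : G) (hc : c * c ∈ H) (hχc : ((χ c : ℤ) : ZMod p) = -1) : False := by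
  have hp : p.Prime := Fact.out
  have hirr' := irr_addSubgroup hirr
  -- `V` is nontrivial
  have hnt : Nontrivial V := by
    rw [← Finite.one_lt_card_iff_nontrivial]
    exact hp.one_lt.trans hcard
  obtain ⟨v₀, hv₀⟩ := exists_ne (0 : V)
  have hpV : p ∣ Nat.card V := by
    rw [Module.natCard_eq_pow_finrank (K := ZMod p) (V := V), Nat.card_zmod]
    exact dvd_pow_self p (Module.finrank_pos (R := ZMod p) (M := V)).ne'
  -- (1), (2) `H` acts trivially
  have htriv : ∀ σ ∈ H, ∀ v : V, σ • v = v := by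
    obtain ⟨b, hb0, hb⟩ := exists_fixed hpV H hH
    let W : AddSubgroup V :=
      { carrier := {v | ∀ σ ∈ H, σ • v = v}
        add_mem' := fun {x y} hx hy σ hσ => by rw [smul_add, hx σ hσ, hy σ hσ]
        zero_mem' := fun σ _ => smul_zero σ
        neg_mem' := fun {x} hx σ hσ => by rw [smul_neg, hx σ hσ] }
    have hW : ∀ σ : G, ∀ v ∈ W, σ • v ∈ W := by
      intro σ v hv τ hτ
      have h1 : σ⁻¹ * τ * σ ∈ H := by
        have := (inferInstance : H.Normal).conj_mem τ hτ σ⁻¹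
        rwa [inv_inv] at this
      have h2 := hv _ h1
      calc τ • σ • v = σ • (σ⁻¹ * τ * σ) • v := by
            simp only [← mul_smul]
            congr 1
            group
        _ = σ • v := by rw [h2]
    rcases hirr' W hW with h | h
    · exact absurd (h b hb) hb0
    · exact fun σ hσ v => h v σ hσ
  -- (3) the actions commute
  have hcm : ∀ (σ τ : G) (v : V), σ • τ • v = τ • σ • v := by
    intro σ τ v
    have h1 := htriv _ (hcomm σ τ) (τ • σ • v)
    rw [← h1]
    simp only [← mul_smul]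
    congr 1
    group
  -- (4) `c = ± 1`
  have hcc : ∀ v : V, c • c • v = v := fun v => by
    rw [← mul_smul]
    exact htriv _ hc v
  have hε : ∃ ε : ZMod p, ε * ε = 1 ∧ ∀ v : V, c • v = ε • v := by
    let W : AddSubgroup V :=
      { carrier := {v | c • v = v}
        add_mem' := fun {x y} hx hy => by
          show c • (x + y) = x + y
          rw [smul_add, hx, hy]
        zero_mem' := smul_zero c
        neg_mem' := fun {x} hx => by
          show c • (-x) = -x
          rw [smul_neg, hx] }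
    have hW : ∀ σ : G, ∀ v ∈ W, σ • v ∈ W := by
      intro σ v hv
      show c • σ • v = σ • v
      rw [hcm c σ v, hv]
    rcases hirr' W hW with h | h
    · refine ⟨-1, by ring, fun v => ?_⟩
      have h1 : c • v + v ∈ W := by
        show c • (c • v + v) = c • v + v
        rw [smul_add, hcc, add_comm]
      have h2 := h _ h1
      rw [neg_smul, one_smul]
      exact eq_neg_of_add_eq_zero_left h2
    · exact ⟨1, by ring, fun v => by rw [one_smul]; exact h v⟩
  obtain ⟨ε, hε2, hε⟩ := hε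
  -- (5) a non-scalar element
  have hns : ∃ σ₀ : G, ¬ ∃ z : ZMod p, ∀ v : V, σ₀ • v = z • v := by
    by_contra hall
    push Not at hall
    have hst : ∀ σ : G, ∀ v ∈ Submodule.span (ZMod p) {v₀}, σ • v ∈ Submodule.span (ZMod p) {v₀} := by
      intro σ v hv
      obtain ⟨z, hz⟩ := hall σ
      rw [hz]
      exact Submodule.smul_mem _ _ hv
    rcases hirr _ hst with h | h
    · rw [Submodule.span_singleton_eq_bot] at h
      exact hv₀ h
    · have hsurj : Function.Surjective (fun y : ZMod p => y • v₀) := by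
        intro v
        have : v ∈ Submodule.span (ZMod p) {v₀} := by
          rw [h]
          trivial
        exact Submodule.mem_span_singleton.1 this
      have := Nat.card_le_card_of_surjective _ hsurj
      rw [Nat.card_zmod] at this
      omega
  obtain ⟨σ₀, hσ₀⟩ := hns
  -- (6)
  obtain ⟨a₀, ha₀⟩ := hquad σ₀
  obtain ⟨a₁, ha₁⟩ := hquad (σ₀ * c)
  have h1 : ∀ v : V, σ₀ • σ₀ • v - (a₀ : ZMod p) • σ₀ • v + (χ σ₀ : ZMod p) • v = 0 := by
    intro v
    rw [Int.cast_smul_eq_zsmul, Int.cast_smul_eq_zsmul]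
    exact ha₀ v
  have h2 : ∀ v : V, σ₀ • σ₀ • v - ((a₁ : ZMod p) * ε) • σ₀ • v - (χ σ₀ : ZMod p) • v = 0 := by
    intro v
    have h3 := ha₁ v
    rw [← Int.cast_smul_eq_zsmul (ZMod p), ← Int.cast_smul_eq_zsmul (ZMod p), hχmul, hχc] at h3
    simp only [mul_smul, hε, smul_zmod_smul] at h3
    rw [← h3]
    have h4 : ε • ε • σ₀ • σ₀ • v = σ₀ • σ₀ • v := by
      rw [← mul_smul, hε2, one_smul]
    rw [h4]
    generalize σ₀ • σ₀ • v = w₂
    generalize σ₀ • v = w₁
    module
  have h3 : ∀ v : V, ((a₁ : ZMod p) * ε - a₀) • σ₀ • v + (2 * (χ σ₀ : ZMod p)) • v = 0 := by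
    intro v
    have e1 := h1 v
    have e2 := h2 v
    have : ((a₁ : ZMod p) * ε - a₀) • σ₀ • v + (2 * (χ σ₀ : ZMod p)) • v
        = (σ₀ • σ₀ • v - (a₀ : ZMod p) • σ₀ • v + (χ σ₀ : ZMod p) • v)
          - (σ₀ • σ₀ • v - ((a₁ : ZMod p) * ε) • σ₀ • v - (χ σ₀ : ZMod p) • v) := by
      generalize σ₀ • σ₀ • v = w₂
      generalize σ₀ • v = w₁
      module
    rw [this, e1, e2, sub_zero]
  have hb : (a₁ : ZMod p) * ε - a₀ = 0 := by
    by_contra hb
    apply hσ₀
    refine ⟨-(((a₁ : ZMod p) * ε - a₀)⁻¹ * (2 * (χ σ₀ : ZMod p))), fun v => ?_⟩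
    have e := congrArg (fun w => ((a₁ : ZMod p) * ε - a₀)⁻¹ • w) (h3 v)
    simp only [smul_add, smul_zero, ← mul_smul, inv_mul_cancel₀ hb, one_smul] at e
    rw [neg_smul]
    exact eq_neg_of_add_eq_zero_left e
  have hχ0 : (χ σ₀ : ZMod p) = 0 := by
    have e := h3 v₀
    rw [hb, zero_smul, zero_add] at e
    rcases smul_eq_zero.1 e with e | e
    · rcases mul_eq_zero.1 e with e | e
      · exfalso
        have h4 : ((2 : ℕ) : ZMod p) = 0 := by exact_mod_cast e
        rw [ZMod.natCast_eq_zero_iff] at h4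
        have := (Nat.prime_dvd_prime_iff_eq hp Nat.prime_two).1 h4
        exact hp2 this
      · exact e
    · exact absurd e hv₀
  apply hσ₀
  refine ⟨(a₀ : ZMod p), fun v => ?_⟩
  have e := h1 (σ₀⁻¹ • v)
  rw [hχ0, zero_smul, add_zero, smul_inv_smul, sub_eq_zero] at e
  exact e

end Fermat.Agent.HW
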