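import Fermat.Agent.HW.NECheb
import Fermat.Agent.HW.NEGroup
import Fermat.Agent.HW.NEVarChange

/-! # HW / NE : irreducible `E[p]` ⟹ not Eisenstein, even along the primes `ℓ ≡ 1 (mod m)`.  (E-side of S41.) -/

set_option autoImplicit false

namespace Fermat.Agent.HW

open WeierstrassCurve WeierstrassCurve.Affine.Point Fermat.Agent.S05
open scoped WeierstrassCurve.Affine

local notation "Qb" => AlgebraicClosure ℚ
local notation "GQ" => (AlgebraicClosure ℚ ≃ₐ[ℚ] AlgebraicClosure ℚ)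

theorem exists_inverting {m : ℕ} (hm : 0 < m) {ζ : AlgebraicClosure ℚ} (hζ : IsPrimitiveRoot ζ m) :
    ∃ c : AlgebraicClosure ℚ ≃ₐ[ℚ] AlgebraicClosure ℚ, c ζ = ζ⁻¹ := by
  have h1 := Polynomial.cyclotomic_eq_minpoly_rat hζ hm
  have h2 := Polynomial.cyclotomic_eq_minpoly_rat hζ.inv hm
  have hc : IsConjRoot ℚ ζ⁻¹ ζ := by
    rw [IsConjRoot, ← h1, ← h2]
  obtain ⟨σ, hσ⟩ := (isConjRoot_iff_exists_algEquiv (K := ℚ) (L := Qb)).1 hc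
  exact ⟨σ, hσ⟩

/-- every automorphism maps a primitive root to a power of it. -/
lemma exists_pow_of_primitiveRoot {m : ℕ} (hm : 0 < m) {ζ : Qb} (hζ : IsPrimitiveRoot ζ m) (σ : GQ) :
    ∃ k : ℕ, σ ζ = ζ ^ k := by
  have h1 : (σ ζ) ^ m = 1 := by rw [← map_pow, hζ.pow_eq_one, map_one]
  have : NeZero m := ⟨hm.ne'⟩
  obtain ⟨k, -, hk⟩ := hζ.eq_pow_of_pow_eq_one h1
  exact ⟨k, hk.symm⟩

lemma comm_on_root {m : ℕ} (hm : 0 < m) {ζ : Qb} (hζ : IsPrimitiveRoot ζ m) (σ τ : GQ) (k : ℕ) :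
    σ (τ (ζ ^ k)) = τ (σ (ζ ^ k)) := by
  obtain ⟨a, ha⟩ := exists_pow_of_primitiveRoot hm hζ σ
  obtain ⟨b, hb⟩ := exists_pow_of_primitiveRoot hm hζ τ
  simp only [map_pow, ha, hb]
  ring

/-- version for the integral model itself. -/
theorem exists_prime_not_eisenstein_model (W : WeierstrassCurve ℤ) (hΔ : W.Δ ≠ 0) {p : ℕ}
    (hp : p.Prime) (hp2 : p ≠ 2)
    (hirr : GaloisRepIsIrreducible (K := AlgebraicClosure ℚ) ℚ
      (W.map (Int.castRingHom ℚ)).toAffine p)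
    (m : ℕ) (hm : 0 < m) (T : Finset ℕ) :
    ∃ ℓ : ℕ, ℓ.Prime ∧ ℓ ∉ T ∧ W.IsGoodPrimeFor ℓ ∧ ℓ ≠ p ∧ ℓ ≡ 1 [MOD m] ∧
      ¬ (p : ℤ) ∣ W.apOfModel ℓ - ((ℓ : ℤ) + 1) := by
  by_contra hcon
  push Not at hcon
  have : Fact p.Prime := ⟨hp⟩
  have hm' : 0 < m * p := Nat.mul_pos hm hp.pos
  have hEis : ∀ ℓ : ℕ, ℓ.Prime → ℓ ∉ T → W.IsGoodPrimeFor ℓ → ℓ ≠ p → ℓ ≡ 1 [MOD m * p] →
      (p : ℤ) ∣ W.apOfModel ℓ - ((ℓ : ℤ) + 1) :=
    fun ℓ h1 h2 h3 h4 h5 => hcon ℓ h1 h2 h3 h4 (Nat.ModEq.of_mul_right p h5)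
  have : NeZero (m * p) := ⟨hm'.ne'⟩
  obtain ⟨ζ, hζ⟩ := HasEnoughRootsOfUnity.exists_primitiveRoot Qb (m * p)
  have hζp : IsPrimitiveRoot (ζ ^ m) p := hζ.pow hm' rfl
  -- the module
  have hΔQ : (W.map (Int.castRingHom ℚ)).Δ ≠ 0 := by
    rw [map_Δ]; simpa using hΔ
  have hodd : Odd p := hp.eq_two_or_odd'.resolve_left hp2
  have hpQ : ((p : ℕ) : Qb) ≠ 0 := by exact_mod_cast hp.ne_zero
  have hfin : Finite (TorsQ W p) := finite_torsionBy (k := Qb) (W.map (Int.castRingHom ℚ)) hodd hpQ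
  have hcard : Nat.card (TorsQ W p) = p ^ 2 :=
    card_torsionBy (k := Qb) (W.map (Int.castRingHom ℚ)) two_ne_zero hΔQ hodd hpQ
  -- the character
  choose a n hn hquad using fun σ : GQ => exists_quadratic_relation W hΔ hp hp2 hζp σ
  have hχmul : ∀ σ τ : GQ, (((n (σ * τ) : ℕ) : ℤ) : ZMod p)
      = (((n σ : ℕ) : ℤ) : ZMod p) * (((n τ : ℕ) : ℤ) : ZMod p) := by
    intro σ τ
    have e1 : (ζ ^ m) ^ n (σ * τ) = (ζ ^ m) ^ (n σ * n τ) := by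
      rw [← hn, AlgEquiv.mul_apply, hn τ, map_pow, hn σ, ← pow_mul]
    have hfo : IsOfFinOrder (ζ ^ m) := isOfFinOrder_iff_pow_eq_one.2 ⟨p, hp.pos, hζp.pow_eq_one⟩
    have e2 := hfo.pow_eq_pow_iff_modEq.1 e1
    rw [← hζp.eq_orderOf] at e2
    have e3 := (ZMod.natCast_eq_natCast_iff _ _ _).2 e2
    push_cast at e3 ⊢
    exact e3
  -- the subgroup
  let H : Subgroup GQ := MulAction.stabilizer GQ ζ
  have hHmem : ∀ σ : GQ, σ ∈ H ↔ σ ζ = ζ := fun σ => Iff.rfl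
  have hfixpow : ∀ σ ∈ H, ∀ k : ℕ, σ (ζ ^ k) = ζ ^ k := by
    intro σ hσ k
    rw [map_pow, (hHmem σ).1 hσ]
  have hnormal : H.Normal := by
    constructor
    intro σ hσ τ
    rw [hHmem]
    obtain ⟨k, hk⟩ := exists_pow_of_primitiveRoot hm' hζ τ⁻¹
    rw [AlgEquiv.mul_apply, AlgEquiv.mul_apply, hk, hfixpow σ hσ, ← hk, ← AlgEquiv.mul_apply,
      mul_inv_cancel, AlgEquiv.one_apply]
  have hcomm : ∀ σ τ : GQ, σ * τ * σ⁻¹ * τ⁻¹ ∈ H := by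
    intro σ τ
    rw [hHmem]
    obtain ⟨k, hk⟩ := exists_pow_of_primitiveRoot hm' hζ (σ⁻¹ * τ⁻¹)
    have e : (σ * τ * σ⁻¹ * τ⁻¹) ζ = σ (τ ((σ⁻¹ * τ⁻¹) ζ)) := by
      simp only [AlgEquiv.mul_apply]
    rw [e, hk, comm_on_root hm' hζ σ τ k, ← hk]
    simp only [AlgEquiv.mul_apply]
    rw [← AlgEquiv.mul_apply σ, mul_inv_cancel, AlgEquiv.one_apply, ← AlgEquiv.mul_apply τ,
      mul_inv_cancel, AlgEquiv.one_apply]
  obtain ⟨c, hc⟩ := exists_inverting hm' hζ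
  have hcc : c * c ∈ H := by
    rw [hHmem, AlgEquiv.mul_apply, hc, map_inv₀, hc, inv_inv]
  have hχc : (((n c : ℕ) : ℤ) : ZMod p) = -1 := by
    have e1 : (ζ ^ m) ^ (n c + 1) = 1 := by
      rw [pow_succ, ← hn, map_pow, hc, inv_pow]
      exact inv_mul_cancel₀ (pow_ne_zero _ (hζ.ne_zero hm'.ne'))
    have e2 := (hζp.pow_eq_one_iff_dvd _).1 e1
    have e3 := (ZMod.natCast_eq_zero_iff _ _).2 e2
    push_cast at e3 ⊢
    exact eq_neg_of_add_eq_zero_left e3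
  refine false_of_eisenstein (p := p) (G := GQ) (V := TorsQ W p) hp2 ?_ ?_ (fun σ => (n σ : ℤ))
    hχmul (fun σ => ⟨a σ, hquad σ⟩) H hcomm ?_ c hcc hχc
  · rw [hcard]
    nlinarith [hp.two_le]
  · intro N hN
    exact hirr.2 N hN
  · intro σ hσ
    exact unipotent_of_eisenstein W hΔ hp hp2 (Dvd.intro_left m rfl) hm' T hEis hζ σ
      ((hHmem σ).1 hσ)

/-- **E-side of S41.** -/
theorem exists_prime_not_eisenstein (E : WeierstrassCurve ℚ) [E.IsElliptic]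
    {W : WeierstrassCurve ℤ} (hW : W.IsIntegralModelOf E) {p : ℕ} (hp : p.Prime) (hp2 : p ≠ 2)
    (hirr : GaloisRepIsIrreducible (K := AlgebraicClosure ℚ) ℚ E.toAffine p)
    (m : ℕ) (hm : 0 < m) (T : Finset ℕ) :
    ∃ ℓ : ℕ, ℓ.Prime ∧ ℓ ∉ T ∧ W.IsGoodPrimeFor ℓ ∧ ℓ ≠ p ∧ ℓ ≡ 1 [MOD m] ∧
      ¬ (p : ℤ) ∣ W.apOfModel ℓ - ((ℓ : ℤ) + 1) := by
  obtain ⟨C, hC⟩ := hW
  have hΔ : W.Δ ≠ 0 := by
    intro h0
    have h1 : (W.map (Int.castRingHom ℚ)).Δ = 0 := by rw [map_Δ, h0, _root_.map_zero]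
    rw [← hC, variableChange_Δ] at h1
    have hE : E.Δ ≠ 0 := E.isUnit_Δ.ne_zero
    rcases mul_eq_zero.1 h1 with h | h
    · exact (pow_ne_zero 12 (Units.ne_zero _)) h
    · exact hE h
  exact exists_prime_not_eisenstein_model W hΔ hp hp2
    (irreducible_of_variableChange C hC p hirr) m hm T

end Fermat.Agent.HW
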