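import Fermat.Agent.HW.OddGroup
import Fermat.Agent.HW.RatDegComp
import Fermat.Agent.HW.OddZero

/-! # HW / O3 : Frobenius on odd points.

`xc (φP) = ev (X^ℓ)`; `vc (φ P) = (vc P)^ℓ` (char `ℓ`, coefficients in `F_ℓ`)
`= ev (Y^ℓ) w^ℓ = ev (Y^ℓ g(T)^((ℓ-1)/2)) w` as `w² = ev g(T)`.  `rdeg (X^ℓ) = ℓ rdeg X` (`rdeg_pow`). -/

set_option autoImplicit false

namespace Fermat.Agent.HW

open Polynomial WeierstrassCurve Fermat.Agent.S05

variable {ℓ : ℕ} [Fact ℓ.Prime] {L : Type*} [Field L] [DecidableEq L]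
  {W : WeierstrassCurve (ZMod ℓ)} {E : WeierstrassCurve.Affine L}
  {ev : RatFunc (ZMod ℓ) →+* L} {Q : E.Point} {φ : E.Point →+ E.Point}

omit [DecidableEq L] in
/-- the target of `ev` has characteristic `ℓ`. -/
theorem charP_of_ev (ev : RatFunc (ZMod ℓ) →+* L) : CharP L ℓ :=
  charP_of_injective_ringHom (ev.comp (RatFunc.C : ZMod ℓ →+* RatFunc (ZMod ℓ))).injective ℓ

omit [DecidableEq L] in
/-- constants are fixed by the `ℓ`-th power map. -/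
theorem ev_C_pow (ev : RatFunc (ZMod ℓ) →+* L) (c : ZMod ℓ) :
    ev (RatFunc.C c) ^ ℓ = ev (RatFunc.C c) := by
  rw [← map_pow, ← map_pow, ZMod.pow_card]

theorem vc_frob (hG : Gen W E ev Q) (hφ : FrobData ℓ φ) (P : E.Point) :
    vc (φ P) = vc P ^ ℓ := by
  have : CharP L ℓ := charP_of_ev ev
  have h2 : (2 : L) ^ ℓ = 2 := by
    have := ev_C_pow ev (2 : ZMod ℓ)
    simpa only [map_ofNat] using this
  unfold vc
  rw [add_pow_char, add_pow_char, mul_pow, mul_pow, h2, hφ.hx, hφ.hy, hG.a₁, hG.a₃, ev_C_pow,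
    ev_C_pow]

theorem isOdd_frob (hℓ : ℓ ≠ 2) (hG : Gen W E ev Q) (hφ : FrobData ℓ φ) {P : E.Point}
    (h : IsOdd ev Q P) : IsOdd ev Q (φ P) := by
  rcases h with rfl | ⟨X', Y, hX, hY⟩
  · rw [map_zero]; exact isOdd_zero Q
  have hodd : ℓ = 2 * ((ℓ - 1) / 2) + 1 := by
    have h1 := (Fact.out : ℓ.Prime).eq_two_or_odd
    have h2 := (Fact.out : ℓ.Prime).two_le
    omega
  refine Or.inr ⟨X' ^ ℓ, Y ^ ℓ * (algebraMap (ZMod ℓ)[X] (RatFunc (ZMod ℓ))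
      (C 4 * X ^ 3 + C W.b₂ * X ^ 2 + C (2 * W.b₄) * X + C W.b₆)) ^ ((ℓ - 1) / 2), ?_, ?_⟩
  · rw [hφ.hx, hX, map_pow]
  · rw [vc_frob hG hφ, hY, mul_pow, map_mul, map_pow, map_pow, ← hG.vc_sq_eq_poly, mul_assoc, ← pow_mul,
      ← pow_succ, ← hodd]

theorem ht_frob (hG : Gen W E ev Q) (hφ : FrobData ℓ φ) {P : E.Point}
    (h : IsOdd ev Q P) : ht ev (φ P) = ℓ * ht ev P := by
  rcases h with rfl | ⟨X', Y, hX, hY⟩
  · simp
  by_cases hP : P = 0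
  · subst hP; simp
  have hX' : xc (φ P) = ev (X' ^ ℓ) := by rw [hφ.hx, hX, map_pow]
  rw [ht_of_eq hP hX, ht_of_eq (hφ.ne P hP) hX', rdeg_pow]
  push_cast
  ring

end Fermat.Agent.HW
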