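import Fermat.Agent.HW.RatDegComp

/-! # HW / R3 : the exact parallelogram law on the level of `x`-coordinates.

Proof sketch for `rdeg_add_sub`.  Write `xᵢ = aᵢ/bᵢ` coprime, `dᵢ = max (deg aᵢ) (deg bᵢ)`.
For a triple `t = (t₀,t₁,t₂)` of polynomials call it PRIMITIVE if `Ideal.span {t₀,t₁,t₂} = ⊤`, and let
`mdeg t` be the maximum of the three `natDegree`s.
1. (Gauss) `σ(x₁,x₂) := (a₁a₂, a₁b₂+a₂b₁, b₁b₂)` is primitive with `mdeg = d₁ + d₂`
   (prime ideal argument / case distinction on which of `aᵢ,bᵢ` has degree `dᵢ`).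
2. `Φ = WeierstrassCurve.addSubMap (W.map C)` evaluated at a primitive triple `t` is primitive with
   `mdeg = 2 mdeg t`: `≤` is clear, and `WeierstrassCurve.addSubMapCoeff_condition` gives
   `tᵢ⁴ = ∑ⱼ (quadratic form in t) * Φⱼ(t)`  (so a prime containing all `Φⱼ(t)` contains all `tᵢ`; and
   `4 mdeg t ≤ 2 mdeg t + mdeg Φ(t)`).
3. `hmul, hadd` say that `σ(x₃,x₄)` and `Φ(σ(x₁,x₂))` are proportional; two proportional primitive triples
   differ by a unit of `F[X]`, hence have the same `mdeg`.   So `d₃ + d₄ = 2 (d₁ + d₂)`. -/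

set_option autoImplicit false

namespace Fermat.Agent.HW

open Polynomial

namespace R3

section ring

variable {R : Type*} [CommRing R]

/-- explicit form of `addSubMap`. -/
def P0 (W : WeierstrassCurve R) (s t u : R) : R :=
  s ^ 2 - W.b₄ * s * u - W.b₆ * t * u - W.b₈ * u ^ 2
def P1 (W : WeierstrassCurve R) (s t u : R) : R :=
  2 * t * s + W.b₂ * s * u + W.b₄ * t * u + W.b₆ * u ^ 2
def P2 (s t u : R) : R := t ^ 2 - 4 * s * u

lemma cert (W : WeierstrassCurve R) [W.IsElliptic] (s t u : R) :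
    (∃ c0 c1 c2 : R, c0 * P0 W s t u + c1 * P1 W s t u + c2 * P2 s t u = s ^ 4) ∧
    (∃ c0 c1 c2 : R, c0 * P0 W s t u + c1 * P1 W s t u + c2 * P2 s t u = t ^ 4) ∧
    (∃ c0 c1 c2 : R, c0 * P0 W s t u + c1 * P1 W s t u + c2 * P2 s t u = u ^ 4) := by
  have h := W.addSubMapCoeff_condition ![s, t, u]
  have e0 : (W.addSubMap 0).eval ![s, t, u] = P0 W s t u := by
    simp [WeierstrassCurve.addSubMap, P0]
  have e1 : (W.addSubMap 1).eval ![s, t, u] = P1 W s t u := by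
    simp [WeierstrassCurve.addSubMap, P1]
  have e2 : (W.addSubMap 2).eval ![s, t, u] = P2 s t u := by
    simp [WeierstrassCurve.addSubMap, P2]
  refine ⟨?_, ?_, ?_⟩
  · have := h 0
    rw [Fin.sum_univ_three, e0, e1, e2] at this
    exact ⟨_, _, _, this⟩
  · have := h 1
    rw [Fin.sum_univ_three, e0, e1, e2] at this
    exact ⟨_, _, _, this⟩
  · have := h 2
    rw [Fin.sum_univ_three, e0, e1, e2] at this
    exact ⟨_, _, _, this⟩

/-- primitive triples. -/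
def Prim (s t u : R) : Prop := ∃ c0 c1 c2 : R, c0 * s + c1 * t + c2 * u = 1

lemma prim_iff (s t u : R) : Prim s t u ↔ ∀ P : Ideal R, P.IsPrime → s ∈ P → t ∈ P → u ∈ P → False := by
  constructor
  · rintro ⟨c0, c1, c2, h⟩ P hP hs ht hu
    apply hP.ne_top
    rw [Ideal.eq_top_iff_one, ← h]
    exact P.add_mem (P.add_mem (P.mul_mem_left _ hs) (P.mul_mem_left _ ht)) (P.mul_mem_left _ hu)
  · intro h
    by_contra hcon
    have hne : Ideal.span {s, t, u} ≠ ⊤ := by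
      intro htop
      apply hcon
      have h1 : (1 : R) ∈ Ideal.span {s, t, u} := by rw [htop]; trivial
      rw [Ideal.mem_span_insert] at h1
      obtain ⟨c0, z, hz, h1⟩ := h1
      rw [Ideal.mem_span_pair] at hz
      obtain ⟨c1, c2, rfl⟩ := hz
      exact ⟨c0, c1, c2, by rw [h1]; ring⟩
    obtain ⟨M, hM, hle⟩ := Ideal.exists_le_maximal _ hne
    exact h M hM.isPrime (hle (Ideal.subset_span (by simp))) (hle (Ideal.subset_span (by simp)))
      (hle (Ideal.subset_span (by simp)))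

lemma prim_P (W : WeierstrassCurve R) [W.IsElliptic] {s t u : R} (h : Prim s t u) :
    Prim (P0 W s t u) (P1 W s t u) (P2 s t u) := by
  rw [prim_iff] at h ⊢
  intro P hP h0 h1 h2
  obtain ⟨⟨a0, a1, a2, ha⟩, ⟨b0, b1, b2, hb⟩, ⟨c0, c1, c2, hc⟩⟩ := cert W s t u
  have key : ∀ c0 c1 c2 : R, c0 * P0 W s t u + c1 * P1 W s t u + c2 * P2 s t u ∈ P := fun c0 c1 c2 =>
    P.add_mem (P.add_mem (P.mul_mem_left _ h0) (P.mul_mem_left _ h1)) (P.mul_mem_left _ h2)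
  refine h P hP (hP.mem_of_pow_mem 4 ?_) (hP.mem_of_pow_mem 4 ?_) (hP.mem_of_pow_mem 4 ?_)
  · rw [← ha]; exact key _ _ _
  · rw [← hb]; exact key _ _ _
  · rw [← hc]; exact key _ _ _

lemma prim_sigma {a₁ b₁ a₂ b₂ : R} (h₁ : IsCoprime a₁ b₁) (h₂ : IsCoprime a₂ b₂) :
    Prim (a₁ * a₂) (a₁ * b₂ + a₂ * b₁) (b₁ * b₂) := by
  rw [prim_iff]
  intro P hP hs ht hu
  have n₁ : ¬ (a₁ ∈ P ∧ b₁ ∈ P) := by
    rintro ⟨ha, hb⟩
    obtain ⟨x, y, hxy⟩ := h₁
    apply hP.ne_top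
    rw [Ideal.eq_top_iff_one, ← hxy]
    exact P.add_mem (P.mul_mem_left _ ha) (P.mul_mem_left _ hb)
  have n₂ : ¬ (a₂ ∈ P ∧ b₂ ∈ P) := by
    rintro ⟨ha, hb⟩
    obtain ⟨x, y, hxy⟩ := h₂
    apply hP.ne_top
    rw [Ideal.eq_top_iff_one, ← hxy]
    exact P.add_mem (P.mul_mem_left _ ha) (P.mul_mem_left _ hb)
  rcases hP.mem_or_mem hs with ha | ha
  · have hb₁ : b₁ ∉ P := fun hb => n₁ ⟨ha, hb⟩
    have hb₂ : b₂ ∈ P := (hP.mem_or_mem hu).resolve_left hb₁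
    have ha₂ : a₂ ∉ P := fun h => n₂ ⟨h, hb₂⟩
    have : a₂ * b₁ ∈ P := by
      have := P.sub_mem ht (P.mul_mem_right b₂ ha)
      simpa using this
    rcases hP.mem_or_mem this with h | h
    · exact ha₂ h
    · exact hb₁ h
  · have hb₂ : b₂ ∉ P := fun hb => n₂ ⟨ha, hb⟩
    have hb₁ : b₁ ∈ P := (hP.mem_or_mem hu).resolve_right hb₂
    have ha₁ : a₁ ∉ P := fun h => n₁ ⟨h, hb₁⟩
    have : a₁ * b₂ ∈ P := by
      have := P.sub_mem ht (P.mul_mem_right b₁ ha)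
      simpa using this
    rcases hP.mem_or_mem this with h | h
    · exact ha₁ h
    · exact hb₂ h

/-- two proportional primitive triples differ by a unit. -/
lemma prim_prop [IsDomain R] {s t u s' t' u' : R} (h : Prim s t u) (h' : Prim s' t' u')
    (hu : u ≠ 0) (hs : s' * u = s * u') (ht : t' * u = t * u') :
    ∃ c : Rˣ, s' = c * s ∧ t' = c * t ∧ u' = c * u := by
  obtain ⟨c0, c1, c2, hc⟩ := h
  obtain ⟨d0, d1, d2, hd⟩ := h'
  -- u' = (c0 s' + c1 t' + c2 u') * u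
  have e1 : u' = (c0 * s' + c1 * t' + c2 * u') * u := by
    linear_combination (-u') * hc - c0 * hs - c1 * ht
  have e2 : u = (d0 * s + d1 * t + d2 * u) * u' := by
    linear_combination (-u) * hd + d0 * hs + d1 * ht
  have e3 : (c0 * s' + c1 * t' + c2 * u') * (d0 * s + d1 * t + d2 * u) = 1 := by
    apply mul_right_cancel₀ hu
    calc (c0 * s' + c1 * t' + c2 * u') * (d0 * s + d1 * t + d2 * u) * u
        = (d0 * s + d1 * t + d2 * u) * ((c0 * s' + c1 * t' + c2 * u') * u) := by ring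
      _ = (d0 * s + d1 * t + d2 * u) * u' := by rw [← e1]
      _ = 1 * u := by rw [← e2, one_mul]
  refine ⟨⟨_, _, e3, by rw [mul_comm]; exact e3⟩, ?_, ?_, e1⟩
  · apply mul_right_cancel₀ hu
    simp only
    rw [hs]
    nth_rewrite 1 [e1]
    ring
  · apply mul_right_cancel₀ hu
    simp only
    rw [ht]
    nth_rewrite 1 [e1]
    ring

end ring

section deg

variable {F : Type*} [Field F]

/-- `d` is the exact maximal degree of the pair. -/
def Top2 (a b : F[X]) (d : ℕ) : Prop :=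
  a.natDegree ≤ d ∧ b.natDegree ≤ d ∧ ¬ (a.coeff d = 0 ∧ b.coeff d = 0)

/-- `d` is the exact maximal degree of the triple. -/
def Top3 (s t u : F[X]) (d : ℕ) : Prop :=
  s.natDegree ≤ d ∧ t.natDegree ≤ d ∧ u.natDegree ≤ d ∧
    ¬ (s.coeff d = 0 ∧ t.coeff d = 0 ∧ u.coeff d = 0)

lemma top2_max (a : F[X]) {b : F[X]} (hb : b ≠ 0) : Top2 a b (max a.natDegree b.natDegree) := by
  refine ⟨le_max_left _ _, le_max_right _ _, ?_⟩
  rintro ⟨h1, h2⟩
  rcases le_total a.natDegree b.natDegree with h | h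
  · rw [max_eq_right h] at h2
    exact hb (leadingCoeff_eq_zero.1 h2)
  · rw [max_eq_left h] at h1 h2
    have ha : a = 0 := leadingCoeff_eq_zero.1 h1
    rw [ha, natDegree_zero] at h h2
    have : b.natDegree = 0 := Nat.le_zero.1 h
    apply hb
    apply leadingCoeff_eq_zero.1
    rw [leadingCoeff, this]
    exact h2

lemma top3_sigma {a₁ b₁ a₂ b₂ : F[X]} {d₁ d₂ : ℕ} (h₁ : Top2 a₁ b₁ d₁) (h₂ : Top2 a₂ b₂ d₂) :
    Top3 (a₁ * a₂) (a₁ * b₂ + a₂ * b₁) (b₁ * b₂) (d₁ + d₂) := by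
  obtain ⟨ha₁, hb₁, n₁⟩ := h₁
  obtain ⟨ha₂, hb₂, n₂⟩ := h₂
  refine ⟨natDegree_mul_le_of_le ha₁ ha₂, natDegree_add_le_of_degree_le
    (natDegree_mul_le_of_le ha₁ hb₂) ?_, natDegree_mul_le_of_le hb₁ hb₂, ?_⟩
  · rw [mul_comm]; exact natDegree_mul_le_of_le hb₁ ha₂
  · rw [mul_comm a₂ b₁, coeff_add, coeff_mul_add_eq_of_natDegree_le ha₁ ha₂,
      coeff_mul_add_eq_of_natDegree_le ha₁ hb₂, coeff_mul_add_eq_of_natDegree_le hb₁ ha₂,
      coeff_mul_add_eq_of_natDegree_le hb₁ hb₂]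
    rintro ⟨e1, e2, e3⟩
    rcases mul_eq_zero.1 e1 with h | h
    · have hb : b₁.coeff d₁ ≠ 0 := fun hb => n₁ ⟨h, hb⟩
      have hb' : b₂.coeff d₂ = 0 := (mul_eq_zero.1 e3).resolve_left hb
      rw [h, zero_mul, zero_add] at e2
      exact n₂ ⟨(mul_eq_zero.1 e2).resolve_left hb, hb'⟩
    · have hb : b₂.coeff d₂ ≠ 0 := fun hb => n₂ ⟨h, hb⟩
      have hb' : b₁.coeff d₁ = 0 := (mul_eq_zero.1 e3).resolve_right hb
      rw [h, mul_zero, add_zero] at e2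
      exact n₁ ⟨(mul_eq_zero.1 e2).resolve_right hb, hb'⟩

lemma natDegree_term {p q : F[X]} {d : ℕ} (c : F) (hp : p.natDegree ≤ d) (hq : q.natDegree ≤ d) :
    (C c * (p * q)).natDegree ≤ d + d :=
  (natDegree_C_mul_le _ _).trans (natDegree_mul_le_of_le hp hq)

lemma coeff_term {p q : F[X]} {d : ℕ} (c : F) (hp : p.natDegree ≤ d) (hq : q.natDegree ≤ d) :
    (C c * (p * q)).coeff (d + d) = c * (p.coeff d * q.coeff d) := by
  rw [coeff_C_mul, coeff_mul_add_eq_of_natDegree_le hp hq]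

lemma P0_eq (W : WeierstrassCurve F) (s t u : F[X]) :
    P0 (W.map C) s t u = C 1 * (s * s) - C W.b₄ * (s * u) - C W.b₆ * (t * u) - C W.b₈ * (u * u) := by
  simp only [P0, WeierstrassCurve.map_b₄, WeierstrassCurve.map_b₆, WeierstrassCurve.map_b₈, C_1]
  ring

lemma P1_eq (W : WeierstrassCurve F) (s t u : F[X]) :
    P1 (W.map C) s t u
      = C 2 * (t * s) + C W.b₂ * (s * u) + C W.b₄ * (t * u) + C W.b₆ * (u * u) := by
  simp only [P1, WeierstrassCurve.map_b₄, WeierstrassCurve.map_b₆, WeierstrassCurve.map_b₂,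
    map_ofNat]
  ring

lemma P2_eq (s t u : F[X]) : P2 s t u = C 1 * (t * t) - C 4 * (s * u) := by
  simp only [P2, map_ofNat, C_1]
  ring

lemma top3_P (W : WeierstrassCurve F) [W.IsElliptic] {s t u : F[X]} {d : ℕ} (h : Top3 s t u d) :
    Top3 (P0 (W.map C) s t u) (P1 (W.map C) s t u) (P2 s t u) (d + d) := by
  obtain ⟨hs, ht, hu, hn⟩ := h
  rw [P0_eq, P1_eq, P2_eq]
  refine ⟨?_, ?_, ?_, ?_⟩
  · exact (natDegree_sub_le_of_le (natDegree_sub_le_of_le (natDegree_sub_le_of_le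
      (natDegree_term _ hs hs) (natDegree_term _ hs hu)) (natDegree_term _ ht hu))
      (natDegree_term _ hu hu)).trans (by simp)
  · exact natDegree_add_le_of_degree_le (natDegree_add_le_of_degree_le (natDegree_add_le_of_degree_le
      (natDegree_term _ ht hs) (natDegree_term _ hs hu)) (natDegree_term _ ht hu))
      (natDegree_term _ hu hu)
  · exact (natDegree_sub_le_of_le (natDegree_term _ ht ht) (natDegree_term _ hs hu)).trans (by simp)
  · simp only [coeff_sub, coeff_add, coeff_term _ hs hs, coeff_term _ hs hu, coeff_term _ ht hu,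
      coeff_term _ hu hu, coeff_term _ ht hs, coeff_term _ ht ht]
    rintro ⟨e0, e1, e2⟩
    obtain ⟨⟨a0, a1, a2, ha⟩, ⟨b0, b1, b2, hb⟩, ⟨c0, c1, c2, hc⟩⟩ :=
      cert W (s.coeff d) (t.coeff d) (u.coeff d)
    have f0 : P0 W (s.coeff d) (t.coeff d) (u.coeff d) = 0 := by
      rw [← e0, P0]; ring
    have f1 : P1 W (s.coeff d) (t.coeff d) (u.coeff d) = 0 := by
      rw [← e1, P1]; ring
    have f2 : P2 (s.coeff d) (t.coeff d) (u.coeff d) = 0 := by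
      rw [← e2, P2]; ring
    rw [f0, f1, f2] at ha hb hc
    simp only [mul_zero, add_zero] at ha hb hc
    exact hn ⟨pow_eq_zero_iff (by norm_num) |>.1 ha.symm, pow_eq_zero_iff (by norm_num) |>.1 hb.symm,
      pow_eq_zero_iff (by norm_num) |>.1 hc.symm⟩

lemma natDegree_unit_mul (c : F[X]ˣ) (p : F[X]) : ((c : F[X]) * p).natDegree = p.natDegree := by
  obtain ⟨r, hr, hc⟩ := Polynomial.isUnit_iff.1 c.isUnit
  rw [← hc]
  exact natDegree_C_mul hr.ne_zero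

lemma top3_le {s t u s' t' u' : F[X]} {d d' : ℕ} (h : Top3 s t u d) (h' : Top3 s' t' u' d')
    (es : s'.natDegree = s.natDegree) (et : t'.natDegree = t.natDegree)
    (eu : u'.natDegree = u.natDegree) : d ≤ d' := by
  obtain ⟨hs, ht, hu, hn⟩ := h
  obtain ⟨hs', ht', hu', -⟩ := h'
  by_contra hlt
  push Not at hlt
  apply hn
  refine ⟨coeff_eq_zero_of_natDegree_lt ?_, coeff_eq_zero_of_natDegree_lt ?_,
    coeff_eq_zero_of_natDegree_lt ?_⟩ <;> omega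

end deg

end R3

variable {F : Type*} [Field F]

theorem rdeg_add_sub (W : WeierstrassCurve F) (hΔ : W.Δ ≠ 0) {x₁ x₂ x₃ x₄ : RatFunc F}
    (hne : x₁ ≠ x₂)
    (hmul : x₃ * x₄ * (x₁ - x₂) ^ 2
      = x₁ ^ 2 * x₂ ^ 2 - RatFunc.C W.b₄ * (x₁ * x₂) - RatFunc.C W.b₆ * (x₁ + x₂) - RatFunc.C W.b₈)
    (hadd : (x₃ + x₄) * (x₁ - x₂) ^ 2
      = 2 * (x₁ * x₂) * (x₁ + x₂) + RatFunc.C W.b₂ * (x₁ * x₂) + RatFunc.C W.b₄ * (x₁ + x₂)
        + RatFunc.C W.b₆) :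
    rdeg x₃ + rdeg x₄ = 2 * rdeg x₁ + 2 * rdeg x₂ := by
  have : W.IsElliptic := ⟨isUnit_iff_ne_zero.2 hΔ⟩
  obtain ⟨a₁, b₁, hb₁, hc₁, hx₁, hd₁⟩ := exists_rep x₁
  obtain ⟨a₂, b₂, hb₂, hc₂, hx₂, hd₂⟩ := exists_rep x₂
  obtain ⟨a₃, b₃, hb₃, hc₃, hx₃, hd₃⟩ := exists_rep x₃
  obtain ⟨a₄, b₄, hb₄, hc₄, hx₄, hd₄⟩ := exists_rep x₄
  have hinj : Function.Injective (algebraMap F[X] (RatFunc F)) := RatFunc.algebraMap_injective F
  have hB₁ : algebraMap F[X] (RatFunc F) b₁ ≠ 0 := (map_ne_zero_iff _ hinj).2 hb₁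
  have hB₂ : algebraMap F[X] (RatFunc F) b₂ ≠ 0 := (map_ne_zero_iff _ hinj).2 hb₂
  have hB₃ : algebraMap F[X] (RatFunc F) b₃ ≠ 0 := (map_ne_zero_iff _ hinj).2 hb₃
  have hB₄ : algebraMap F[X] (RatFunc F) b₄ ≠ 0 := (map_ne_zero_iff _ hinj).2 hb₄
  have hA₁ : algebraMap F[X] (RatFunc F) a₁ = x₁ * algebraMap F[X] (RatFunc F) b₁ := by
    rw [hx₁, div_mul_cancel₀ _ hB₁]
  have hA₂ : algebraMap F[X] (RatFunc F) a₂ = x₂ * algebraMap F[X] (RatFunc F) b₂ := by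
    rw [hx₂, div_mul_cancel₀ _ hB₂]
  have hA₃ : algebraMap F[X] (RatFunc F) a₃ = x₃ * algebraMap F[X] (RatFunc F) b₃ := by
    rw [hx₃, div_mul_cancel₀ _ hB₃]
  have hA₄ : algebraMap F[X] (RatFunc F) a₄ = x₄ * algebraMap F[X] (RatFunc F) b₄ := by
    rw [hx₄, div_mul_cancel₀ _ hB₄]
  set s := a₁ * a₂ with hs
  set t := a₁ * b₂ + a₂ * b₁ with ht
  set u := b₁ * b₂ with hu
  have e2 : algebraMap F[X] (RatFunc F) (R3.P2 s t u)
      = (x₁ - x₂) ^ 2 * (algebraMap F[X] (RatFunc F) b₁ * algebraMap F[X] (RatFunc F) b₂) ^ 2 := by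
    simp only [R3.P2, hs, ht, hu, map_sub, map_mul, map_add, map_pow, map_ofNat, hA₁, hA₂]
    ring
  have hP2 : R3.P2 s t u ≠ 0 := by
    intro h0
    rw [h0, map_zero] at e2
    have := mul_ne_zero (pow_ne_zero 2 (sub_ne_zero.2 hne)) (pow_ne_zero 2 (mul_ne_zero hB₁ hB₂))
    exact this e2.symm
  have es : (a₃ * a₄) * R3.P2 s t u = R3.P0 (W.map C) s t u * (b₃ * b₄) := by
    apply hinj
    rw [map_mul, e2]
    simp only [R3.P0_eq, hs, ht, hu, map_sub, map_mul, map_add, hA₁, hA₂, hA₃,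
      hA₄, RatFunc.algebraMap_C, map_one]
    linear_combination ((algebraMap F[X] (RatFunc F) b₁) ^ 2 * (algebraMap F[X] (RatFunc F) b₂) ^ 2
      * algebraMap F[X] (RatFunc F) b₃ * algebraMap F[X] (RatFunc F) b₄) * hmul
  have et : (a₃ * b₄ + a₄ * b₃) * R3.P2 s t u = R3.P1 (W.map C) s t u * (b₃ * b₄) := by
    apply hinj
    rw [map_mul, e2]
    simp only [R3.P1_eq, hs, ht, hu, map_mul, map_add, map_ofNat, hA₁, hA₂, hA₃,
      hA₄, RatFunc.algebraMap_C]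
    linear_combination ((algebraMap F[X] (RatFunc F) b₁) ^ 2 * (algebraMap F[X] (RatFunc F) b₂) ^ 2
      * algebraMap F[X] (RatFunc F) b₃ * algebraMap F[X] (RatFunc F) b₄) * hadd
  obtain ⟨c, h1, h2, h3⟩ := R3.prim_prop (R3.prim_P (W.map C) (R3.prim_sigma hc₁ hc₂))
    (R3.prim_sigma hc₃ hc₄) hP2 es et
  have T := R3.top3_P W (R3.top3_sigma (R3.top2_max a₁ hb₁) (R3.top2_max a₂ hb₂))
  have T' := R3.top3_sigma (R3.top2_max a₃ hb₃) (R3.top2_max a₄ hb₄)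
  have n1 := R3.natDegree_unit_mul c (R3.P0 (W.map C) s t u)
  have n2 := R3.natDegree_unit_mul c (R3.P1 (W.map C) s t u)
  have n3 := R3.natDegree_unit_mul c (R3.P2 s t u)
  rw [← h1] at n1
  rw [← h2] at n2
  rw [← h3] at n3
  have l1 := R3.top3_le T T' n1 n2 n3
  have l2 := R3.top3_le T' T n1.symm n2.symm n3.symm
  rw [hd₁, hd₂, hd₃, hd₄]
  omega

/-- duplication: from `rdeg_comp`; coprimality of the two polynomials from
`addSubMapCoeff_condition` at `(x², 2x, 1)`, `i = 2`. -/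
theorem rdeg_dbl (W : WeierstrassCurve F) (hΔ : W.Δ ≠ 0) {x₁ x₃ : RatFunc F}
    (hne : 4 * x₁ ^ 3 + RatFunc.C W.b₂ * x₁ ^ 2 + 2 * RatFunc.C W.b₄ * x₁ + RatFunc.C W.b₆ ≠ 0)
    (h : x₃ * (4 * x₁ ^ 3 + RatFunc.C W.b₂ * x₁ ^ 2 + 2 * RatFunc.C W.b₄ * x₁ + RatFunc.C W.b₆)
      = x₁ ^ 4 - RatFunc.C W.b₄ * x₁ ^ 2 - 2 * RatFunc.C W.b₆ * x₁ - RatFunc.C W.b₈) :
    rdeg x₃ = 4 * rdeg x₁ := by
  have : W.IsElliptic := ⟨isUnit_iff_ne_zero.2 hΔ⟩
  set f : F[X] := X ^ 4 - C W.b₄ * X ^ 2 - 2 * C W.b₆ * X - C W.b₈ with hf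
  set g : F[X] := 4 * X ^ 3 + C W.b₂ * X ^ 2 + 2 * C W.b₄ * X + C W.b₆ with hg
  have ef : aeval x₁ f = x₁ ^ 4 - RatFunc.C W.b₄ * x₁ ^ 2 - 2 * RatFunc.C W.b₆ * x₁ - RatFunc.C W.b₈ := by
    simp [hf, RatFunc.algebraMap_eq_C, map_ofNat]
  have eg : aeval x₁ g
      = 4 * x₁ ^ 3 + RatFunc.C W.b₂ * x₁ ^ 2 + 2 * RatFunc.C W.b₄ * x₁ + RatFunc.C W.b₆ := by
    simp [hg, RatFunc.algebraMap_eq_C, map_ofNat]
  have hg0 : g ≠ 0 := by
    intro h0
    rw [h0, map_zero] at eg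
    exact hne eg.symm
  have hcop : IsCoprime f g := by
    obtain ⟨-, -, c0, c1, c2, hc⟩ := R3.cert (W.map C) (X ^ 2 : F[X]) (2 * X) 1
    refine ⟨c0, c1, ?_⟩
    have e0 : R3.P0 (W.map C) (X ^ 2 : F[X]) (2 * X) 1 = f := by
      simp only [R3.P0, WeierstrassCurve.map_b₄, WeierstrassCurve.map_b₆, WeierstrassCurve.map_b₈, hf]
      ring
    have e1 : R3.P1 (W.map C) (X ^ 2 : F[X]) (2 * X) 1 = g := by
      simp only [R3.P1, WeierstrassCurve.map_b₄, WeierstrassCurve.map_b₆, WeierstrassCurve.map_b₂, hg]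
      ring
    have e2 : R3.P2 (X ^ 2 : F[X]) (2 * X) 1 = 0 := by
      simp only [R3.P2]
      ring
    rw [e0, e1, e2] at hc
    simpa using hc
  have hx₃ : x₃ = aeval x₁ f / aeval x₁ g := by
    rw [ef, eg, eq_div_iff hne, h]
  have hdf : f.natDegree = 4 := by
    rw [hf]
    compute_degree!
  have hdg : g.natDegree ≤ 3 := by
    rw [hg]
    compute_degree
  rw [hx₃, rdeg_comp hg0 hcop, hdf, max_eq_left (by omega)]

end Fermat.Agent.HW
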