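import Fermat.Agent.HW.OddGroup
import Fermat.Agent.HW.RatDegAddSub

/-! # HW / O2 : exact parallelogram law for `ht` on odd points.

Cases: `P = 0` or `P' = 0` (use `xc_neg`); `xc P ≠ xc P'`: pull `S05.xc_add_mul_xc_sub`,
`S05.xc_add_add_xc_sub` back along the injective `ev` and use `rdeg_add_sub`;
`xc P = xc P'`, i.e. `P' = ± P` (`S05.xc_eq_iff`): need `ht (P+P) = 4 ht P`: if `P + P ≠ 0` use `S05.xc_dbl` and
`rdeg_dbl`; if `P + P = 0` then `vc P = 0`, so `g(X_P) = 0`, so `rdeg X_P = 0` (`rdeg_eq_zero_of_root`,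
`g ≠ 0` because `4 ≠ 0`). -/

set_option autoImplicit false

namespace Fermat.Agent.HW

open Polynomial WeierstrassCurve Fermat.Agent.S05

variable {F L : Type*} [Field F] [Field L] [DecidableEq L]
  {W : WeierstrassCurve F} {E : WeierstrassCurve.Affine L} {ev : RatFunc F →+* L} {Q : E.Point}

theorem ht_neg (P : E.Point) : ht ev (-P) = ht ev P := by
  by_cases h : P = 0
  · subst h; rw [neg_zero]
  · rw [ht, ht, if_neg h, if_neg (neg_ne_zero.2 h), xc_neg]

omit [DecidableEq L] in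
/-- the `x`-coordinate of a nonzero odd point -/
lemma IsOdd.exists_xc {P : E.Point} (h : IsOdd ev Q P) (hP : P ≠ 0) :
    ∃ X : RatFunc F, xc P = ev X ∧ ht ev P = rdeg X := by
  rcases h with h | ⟨X, Y, hX, -⟩
  · exact absurd h hP
  · exact ⟨X, hX, ht_of_eq hP hX⟩

theorem ht_dbl (h2 : (2 : F) ≠ 0) (hΔ : W.Δ ≠ 0) (hG : Gen W E ev Q) {P : E.Point}
    (h : IsOdd ev Q P) : ht ev (P + P) = 4 * ht ev P := by
  by_cases hP : P = 0
  · subst hP; simp
  obtain ⟨X, hX, hhX⟩ := h.exists_xc hP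
  have hsq := vc_sq hP
  rw [hX, hG.b₂, hG.b₄, hG.b₆] at hsq
  have hsq' : vc P ^ 2 = ev (4 * X ^ 3 + RatFunc.C W.b₂ * X ^ 2 + 2 * RatFunc.C W.b₄ * X
      + RatFunc.C W.b₆) := by
    rw [hsq]; simp only [map_add, map_mul, map_pow, map_ofNat]
  by_cases hPP : P + P = 0
  · -- `vc P = 0`
    have hv : vc P = 0 := (add_self_eq_zero_iff hP).1 hPP
    rw [hv, zero_pow two_ne_zero, eq_comm, map_eq_zero] at hsq'
    let p : F[X] := C 4 * Polynomial.X ^ 3 + C W.b₂ * Polynomial.X ^ 2 + C (2 * W.b₄) * Polynomial.X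
      + C W.b₆
    have hp : p ≠ 0 := by
      intro h0
      have := congrArg (fun q => Polynomial.coeff q 3) h0
      simp only [p, coeff_add, coeff_C_mul, coeff_X_pow, coeff_X, coeff_C, coeff_zero] at this
      norm_num at this
      apply h2
      have h4 : (2 : F) * 2 = 0 := by rw [← this]; norm_num
      exact (mul_self_eq_zero.1 h4)
    have hroot : aeval X p = 0 := by
      rw [← hsq']
      simp only [p, map_add, map_mul, map_pow, aeval_C, aeval_X, map_ofNat]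
      rfl
    have := rdeg_eq_zero_of_root hp hroot
    rw [hPP, ht_zero, hhX, this]; simp
  · obtain ⟨X₃, hX₃, hhX₃⟩ := (isOdd_add h2 hG h h).exists_xc hPP
    have hd := xc_dbl hP hPP
    rw [hX, hX₃, hG.b₂, hG.b₄, hG.b₆, hG.b₈] at hd
    have hv : vc P ≠ 0 := fun h0 => hPP ((add_self_eq_zero_iff hP).2 h0)
    have hne : 4 * X ^ 3 + RatFunc.C W.b₂ * X ^ 2 + 2 * RatFunc.C W.b₄ * X + RatFunc.C W.b₆ ≠ 0 := by
      intro h0
      rw [h0, map_zero] at hsq'
      exact hv (pow_eq_zero_iff two_ne_zero |>.1 hsq')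
    have hd' : X₃ * (4 * X ^ 3 + RatFunc.C W.b₂ * X ^ 2 + 2 * RatFunc.C W.b₄ * X + RatFunc.C W.b₆)
        = X ^ 4 - RatFunc.C W.b₄ * X ^ 2 - 2 * RatFunc.C W.b₆ * X - RatFunc.C W.b₈ := by
      apply ev.injective
      simp only [map_add, map_sub, map_mul, map_pow, map_ofNat]
      exact hd
    rw [hhX₃, hhX, rdeg_dbl W hΔ hne hd']
    push_cast; ring

theorem ht_parallelogram (h2 : (2 : F) ≠ 0) (hΔ : W.Δ ≠ 0) (hG : Gen W E ev Q) {P P' : E.Point}
    (h : IsOdd ev Q P) (h' : IsOdd ev Q P') :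
    ht ev (P + P') + ht ev (P - P') = 2 * ht ev P + 2 * ht ev P' := by
  by_cases hP : P = 0
  · subst hP; rw [zero_add, zero_sub, ht_neg, ht_zero]; ring
  by_cases hP' : P' = 0
  · subst hP'; rw [add_zero, sub_zero, ht_zero]; ring
  by_cases hx : xc P = xc P'
  · rcases (xc_eq_iff hP hP').1 hx with e | e
    · subst e
      rw [sub_self, ht_zero, ht_dbl h2 hΔ hG h]; ring
    · subst e
      rw [neg_add_cancel, ht_zero, ← neg_add', ht_neg, ht_neg, ht_dbl h2 hΔ hG h']; ring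
  · have hs : P + P' ≠ 0 := fun h0 => hx ((xc_eq_iff hP hP').2 (Or.inr (eq_neg_of_add_eq_zero_left h0)))
    have hd : P - P' ≠ 0 := fun h0 => hx ((xc_eq_iff hP hP').2 (Or.inl (sub_eq_zero.1 h0)))
    obtain ⟨X, hX, hhX⟩ := h.exists_xc hP
    obtain ⟨X', hX', hhX'⟩ := h'.exists_xc hP'
    obtain ⟨X₃, hX₃, hhX₃⟩ := (isOdd_add h2 hG h h').exists_xc hs
    obtain ⟨X₄, hX₄, hhX₄⟩ := (isOdd_sub h2 hG h h').exists_xc hd
    have e1 := xc_add_mul_xc_sub hP hP' hx
    have e2 := xc_add_add_xc_sub hP hP' hx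
    rw [hX, hX', hX₃, hX₄, hG.b₄, hG.b₆, hG.b₈] at e1
    rw [hX, hX', hX₃, hX₄, hG.b₂, hG.b₄, hG.b₆] at e2
    have hne : X ≠ X' := fun h0 => hx (by rw [hX, hX', h0])
    have := rdeg_add_sub W hΔ (x₃ := X₃) (x₄ := X₄) hne
      (by apply ev.injective
          simp only [map_add, map_sub, map_mul, map_pow]
          exact e1)
      (by apply ev.injective
          simp only [map_add, map_sub, map_mul, map_pow, map_ofNat]
          exact e2)
    rw [hhX, hhX', hhX₃, hhX₄]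
    exact_mod_cast this

end Fermat.Agent.HW
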