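import Fermat.Agent.HW.OddFrob
import Fermat.Agent.HW.OddPar
import Fermat.Agent.HW.Count

/-! # HW / O4 : `ht (φ P - P) = #W(F_ℓ) * ht P` on odd points.

`P ≠ 0`, `x = xc P = ev X`.  If `x^ℓ ≠ x`: addition formula in `(x,v)`-coordinates with `v(φP) = v^ℓ`, `v(-P) = -v`:
`xc (φP - P) = ((v^ℓ + v)² - (b₂ + 4x^ℓ + 4x)(x^ℓ-x)²)/(4 (x^ℓ-x)²)`, `(v^ℓ+v)² = v² (v^(ℓ-1) + 1)²
 = g(x) (g(x)^((ℓ-1)/2) + 1)²`.  This is `xc_frob_sub`.  Then `exists_reduced` + `rdeg_comp`.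
If `x^ℓ = x`: `X^ℓ = X`, so `rdeg X = 0` (`rdeg_eq_zero_of_root` or `rdeg_pow`), `ht P = 0`, and `φP = ±P`
(`S05.xc_eq_iff`) so `φP - P ∈ {0, -(P+P)}` has height `0` by `ht_dbl`, `ht_neg`. -/

set_option autoImplicit false
set_option linter.unusedSectionVars false

namespace Fermat.Agent.HW

open Polynomial WeierstrassCurve Fermat.Agent.S05

variable {ℓ : ℕ} [Fact ℓ.Prime] {L : Type*} [Field L] [DecidableEq L]
  {W : WeierstrassCurve (ZMod ℓ)} {E : WeierstrassCurve.Affine L}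
  {ev : RatFunc (ZMod ℓ) →+* L} {Q : E.Point} {φ : E.Point →+ E.Point}

lemma aeval_Ψ₂Sq (X : RatFunc (ZMod ℓ)) : aeval X W.Ψ₂Sq = gK W X := by
  simp only [WeierstrassCurve.Ψ₂Sq, gK, map_add, map_mul, map_pow, aeval_X, aeval_C, map_ofNat]
  rfl

lemma aeval_denR (X : RatFunc (ZMod ℓ)) : aeval X (denR ℓ) = 4 * (X ^ ℓ - X) ^ 2 := by
  simp only [denR, map_mul, map_pow, map_sub, aeval_X, map_ofNat]

lemma aeval_numR (X : RatFunc (ZMod ℓ)) : aeval X (numR ℓ W)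
    = gK W X * (gK W X ^ ((ℓ - 1) / 2) + 1) ^ 2
      - (RatFunc.C W.b₂ + 4 * X ^ ℓ + 4 * X) * (X ^ ℓ - X) ^ 2 := by
  simp only [numR, map_mul, map_pow, map_sub, map_add, aeval_X, map_ofNat, aeval_Ψ₂Sq, map_one,
    aeval_C]
  rfl

theorem xc_frob_sub (hℓ : ℓ ≠ 2) (hG : Gen W E ev Q) (hφ : FrobData ℓ φ) {P : E.Point}
    (hP : P ≠ 0) {X : RatFunc (ZMod ℓ)} (hX : xc P = ev X) (hne : X ^ ℓ ≠ X) :
    xc (φ P - P) * ev (aeval X (denR ℓ)) = ev (aeval X (numR ℓ W)) := by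
  have hnP : -P ≠ 0 := neg_ne_zero.2 hP
  have hx : xc (φ P) ≠ xc (-P) := by
    rw [hφ.hx, xc_neg, hX, ← map_pow]
    exact fun h => hne (ev.injective h)
  obtain ⟨μ, hμ, h4, -⟩ := add_formula_of_ne (hφ.ne P hP) hnP hx
  rw [← sub_eq_add_neg, hφ.hx, xc_neg] at h4
  rw [hφ.hx, xc_neg, vc_frob hG hφ, vc_neg hP] at hμ
  obtain ⟨m, hm⟩ : ∃ m, ℓ = 2 * m + 1 := by
    rcases (Fact.out : ℓ.Prime).eq_two_or_odd' with h | h
    · exact absurd h hℓ
    · exact h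
  have hm2 : (ℓ - 1) / 2 = m := by omega
  have hv := hG.vc_sq_eq hP hX
  rw [aeval_denR, aeval_numR, hm2]
  simp only [map_sub, map_mul, map_pow, map_add, map_ofNat, map_one, ← hG.b₂, ← hX, ← hv]
  have e1 : vc P ^ ℓ = vc P * (vc P ^ 2) ^ m := by rw [hm, ← pow_mul]; ring
  rw [e1] at hμ
  linear_combination (xc P ^ ℓ - xc P) ^ 2 * h4
    + (μ * (xc P ^ ℓ - xc P) + (vc P * (vc P ^ 2) ^ m - -vc P)) * hμ

lemma pow_eq_self_of_rdeg_eq_zero {X : RatFunc (ZMod ℓ)} (h : rdeg X = 0) : X ^ ℓ = X := by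
  obtain ⟨c, rfl⟩ := (rdeg_eq_zero_iff X).1 h
  rw [← map_pow, ZMod.pow_card]

theorem ht_frob_sub (hℓ : ℓ ≠ 2) (hΔ : W.Δ ≠ 0) (hG : Gen W E ev Q) (hφ : FrobData ℓ φ)
    {P : E.Point} (h : IsOdd ev Q P) :
    ht ev (φ P - P) = (Nat.card W.toAffine.Point : ℤ) * ht ev P := by
  have h2 : (2 : ZMod ℓ) ≠ 0 := by
    intro h
    have h1 : ((2 : ℕ) : ZMod ℓ) = 0 := by exact_mod_cast h
    rw [ZMod.natCast_eq_zero_iff] at h1
    exact hℓ ((Nat.prime_dvd_prime_iff_eq (Fact.out) Nat.prime_two).1 h1)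
  by_cases hP : P = 0
  · subst hP; simp
  obtain ⟨X, Y, hX, hY⟩ := h.resolve_left hP
  by_cases hne : X ^ ℓ = X
  · -- constant case
    have hr : rdeg X = 0 := by
      have e := rdeg_pow X ℓ
      rw [hne] at e
      have hl : 2 ≤ ℓ := (Fact.out : ℓ.Prime).two_le
      by_contra h0
      have : 0 < rdeg X := Nat.pos_of_ne_zero h0
      nlinarith
    have hht : ht ev P = 0 := by rw [ht_of_eq hP hX, hr]; rfl
    have hx : xc (φ P) = xc P := by rw [hφ.hx, hX, ← map_pow, hne]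
    rw [hht, mul_zero]
    rcases (xc_eq_iff (hφ.ne P hP) hP).1 hx with e | e
    · rw [e, sub_self, ht_zero]
    · have : -P - P = -(P + P) := by abel
      rw [e, this, ht_neg, ht_dbl h2 hΔ hG h, hht, mul_zero]
  · have hrX : rdeg X ≠ 0 := fun h0 => hne (pow_eq_self_of_rdeg_eq_zero h0)
    have hx : xc (φ P) ≠ xc P := by
      rw [hφ.hx, hX, ← map_pow]
      exact fun h => hne (ev.injective h)
    have hne0 : φ P - P ≠ 0 := by
      intro h0
      exact hx (by rw [sub_eq_zero.1 h0])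
    obtain ⟨a, b, hb, hab, hdeg, hrel⟩ := exists_reduced ℓ hℓ W hΔ
    have hbX : aeval X b ≠ 0 := fun h0 => hrX (rdeg_eq_zero_of_root hb h0)
    have h4 : (4 : RatFunc (ZMod ℓ)) ≠ 0 := by
      have : (4 : RatFunc (ZMod ℓ)) = RatFunc.C (2 * 2 : ZMod ℓ) := by
        rw [map_mul, map_ofNat]; norm_num
      rw [this]
      exact (_root_.map_ne_zero _).2 (mul_ne_zero h2 h2)
    have hdX : aeval X (denR ℓ) ≠ 0 := by
      rw [aeval_denR]
      exact mul_ne_zero h4 (pow_ne_zero 2 (sub_ne_zero.2 hne))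
    have hrelX : aeval X a * aeval X (denR ℓ) = aeval X (numR ℓ W) * aeval X b := by
      rw [← map_mul, ← map_mul, hrel]
    have hxc : xc (φ P - P) = ev (aeval X a / aeval X b) := by
      have e := xc_frob_sub hℓ hG hφ hP hX hne
      have hd' : ev (aeval X (denR ℓ)) ≠ 0 := (_root_.map_ne_zero ev).2 hdX
      apply mul_right_cancel₀ hd'
      rw [e, ← map_mul]
      congr 1
      field_simp
      linear_combination -hrelX
    rw [ht_of_eq hne0 hxc, ht_of_eq hP hX, rdeg_comp hb hab, hdeg]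
    push_cast
    ring

end Fermat.Agent.HW
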