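import Fermat.Agent.HW.Defs

/-! # HW / O1 : odd points form a subgroup.

In the coordinates `(x, v)`, `v = vc P = 2y + a₁x + a₃`, `v² = g(x)`:
`x(P+P') = (v-v')²/(4(x-x')²) - b₂/4 - x - x'` for `x ≠ x'`, `v(P+P') = -(v + μ (x(P+P') - x))`,
`μ = (v-v')/(x-x')`; doubling: `μ = g'(x)/(2v) = g'(x) v/(2 g(x))`.  With `v = ev Y * w`, `v' = ev Y' * w`,
`w² = ev (g(T))` everything stays of the required shape.  `2 ≠ 0` in `F` is needed. -/

set_option autoImplicit false
set_option linter.unusedSectionVars false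
set_option linter.unusedVariables false

namespace Fermat.Agent.HW

open Polynomial WeierstrassCurve WeierstrassCurve.Affine WeierstrassCurve.Affine.Point Fermat.Agent.S05

section formulas

variable {L : Type*} [Field L] [DecidableEq L] {E : WeierstrassCurve.Affine L}

/-- addition formula in `(x, v)`-coordinates, case `x ≠ x'`. -/
theorem add_formula_of_ne {P P' : E.Point} (hP : P ≠ 0) (hP' : P' ≠ 0) (hx : xc P ≠ xc P') :
    ∃ μ : L, μ * (xc P - xc P') = vc P - vc P' ∧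
      4 * xc (P + P') = μ ^ 2 - E.b₂ - 4 * xc P - 4 * xc P' ∧
      vc (P + P') = -(vc P + μ * (xc (P + P') - xc P)) := by
  cases P with
  | zero => exact absurd rfl hP
  | some x1 y1 h1 =>
    cases P' with
    | zero => exact absurd rfl hP'
    | some x2 y2 h2 =>
      simp only [xc_some] at hx
      have hd : x1 - x2 ≠ 0 := sub_ne_zero.2 hx
      refine ⟨2 * E.slope x1 x2 y1 y2 + E.a₁, ?_, ?_, ?_⟩
      · simp only [vc, xc_some, yc_some, slope_of_X_ne hx]
        field_simp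
        ring
      · rw [add_of_X_ne hx]
        simp only [xc_some, addX, b₂]
        ring
      · rw [add_of_X_ne hx]
        simp only [vc, xc_some, yc_some, addX, addY, negAddY, negY]
        ring

/-- addition formula in `(x, v)`-coordinates, doubling. -/
theorem add_formula_self {P : E.Point} (hP : P ≠ 0) (hv : vc P ≠ 0) :
    ∃ μ : L, μ * vc P = 6 * xc P ^ 2 + E.b₂ * xc P + E.b₄ ∧
      4 * xc (P + P) = μ ^ 2 - E.b₂ - 4 * xc P - 4 * xc P ∧
      vc (P + P) = -(vc P + μ * (xc (P + P) - xc P)) := by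
  cases P with
  | zero => exact absurd rfl hP
  | some x1 y1 h1 =>
      simp only [vc, xc_some, yc_some] at hv
      have hy : y1 ≠ E.negY x1 y1 := by
        intro hy
        apply hv
        simp only [negY] at hy
        linear_combination hy
      have hd : y1 - E.negY x1 y1 ≠ 0 := sub_ne_zero.2 hy
      refine ⟨2 * E.slope x1 x1 y1 y1 + E.a₁, ?_, ?_, ?_⟩
      · simp only [vc, xc_some, yc_some, slope_of_Y_ne rfl hy, b₂, b₄]
        have e : 2 * y1 + E.a₁ * x1 + E.a₃ = y1 - E.negY x1 y1 := by simp only [negY]; ring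
        rw [e]
        field_simp
        simp only [negY]
        ring
      · rw [add_self_of_Y_ne hy]
        simp only [xc_some, addX, b₂]
        ring
      · rw [add_self_of_Y_ne hy]
        simp only [vc, xc_some, yc_some, addX, addY, negAddY, negY]
        ring

end formulas

section odd

variable {F L : Type*} [Field F] [Field L] [DecidableEq L]
  {W : WeierstrassCurve F} {E : WeierstrassCurve.Affine L} {ev : RatFunc F →+* L} {Q : E.Point}

omit [DecidableEq L] in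
lemma vc_neg {P : E.Point} (hP : P ≠ 0) : vc (-P) = -vc P := by
  simp only [vc, xc_neg, yc_neg hP, negY]
  ring

/-- `g(X) = 4X³ + b₂X² + 2b₄X + b₆` evaluated in `F(T)`. -/
noncomputable def gK (W : WeierstrassCurve F) (X : RatFunc F) : RatFunc F :=
  4 * X ^ 3 + RatFunc.C W.b₂ * X ^ 2 + 2 * RatFunc.C W.b₄ * X + RatFunc.C W.b₆

omit [DecidableEq L] in
lemma Gen.vc_sq_eq (hG : Gen W E ev Q) {P : E.Point} (hP : P ≠ 0) {X : RatFunc F}
    (hX : xc P = ev X) : vc P ^ 2 = ev (gK W X) := by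
  rw [vc_sq hP, hX, hG.b₂, hG.b₄, hG.b₆]
  simp only [gK, map_add, map_mul, map_pow, map_ofNat]

omit [DecidableEq L] in
lemma Gen.w_sq (hG : Gen W E ev Q) : vc Q ^ 2 = ev (gK W RatFunc.X) :=
  hG.vc_sq_eq hG.ne hG.hx

omit [DecidableEq L] in
theorem isOdd_neg (hG : Gen W E ev Q) {P : E.Point} (h : IsOdd ev Q P) : IsOdd ev Q (-P) := by
  rcases h with rfl | ⟨X, Y, hX, hY⟩
  · left; simp
  · by_cases hP : P = 0
    · left; simp [hP]
    · right
      refine ⟨X, -Y, by rw [xc_neg, hX], ?_⟩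
      rw [vc_neg hP, hY, map_neg, neg_mul]

/-- common end of the two cases. -/
lemma isOdd_of_formula (h2 : (2 : F) ≠ 0) (hG : Gen W E ev Q) {x x' v x₃ v₃ μ : L}
    {X X' Y M : RatFunc F} (hX : x = ev X) (hX' : x' = ev X') (hY : v = ev Y * vc Q)
    (hM : μ = ev M * vc Q) (h4 : 4 * x₃ = μ ^ 2 - E.b₂ - 4 * x - 4 * x')
    (hv : v₃ = -(v + μ * (x₃ - x))) :
    ∃ X₃ Y₃ : RatFunc F, x₃ = ev X₃ ∧ v₃ = ev Y₃ * vc Q := by
  have h4F : (4 : RatFunc F) ≠ 0 := by
    have : (4 : RatFunc F) = RatFunc.C (2 * 2 : F) := by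
      rw [map_mul, map_ofNat]; norm_num
    rw [this]
    exact (_root_.map_ne_zero _).2 (mul_ne_zero h2 h2)
  have h4L : ev 4 ≠ 0 := (_root_.map_ne_zero ev).2 h4F
  have hx₃ : x₃ = ev ((M ^ 2 * gK W RatFunc.X - RatFunc.C W.b₂ - 4 * X - 4 * X') / 4) := by
    rw [map_div₀, eq_div_iff h4L]
    simp only [map_sub, map_mul, map_pow, map_ofNat, ← hG.w_sq, ← hG.b₂, ← hX, ← hX']
    rw [mul_comm, h4, hM]
    ring
  refine ⟨_, -(Y + M * ((M ^ 2 * gK W RatFunc.X - RatFunc.C W.b₂ - 4 * X - 4 * X') / 4 - X)),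
    hx₃, ?_⟩
  rw [hv, map_neg, map_add, map_mul, map_sub, ← hx₃, ← hX, hY, hM]
  ring

theorem isOdd_add (h2 : (2 : F) ≠ 0) (hG : Gen W E ev Q) {P P' : E.Point} (h : IsOdd ev Q P)
    (h' : IsOdd ev Q P') : IsOdd ev Q (P + P') := by
  by_cases hP : P = 0
  · rw [hP, zero_add]; exact h'
  by_cases hP' : P' = 0
  · rw [hP', add_zero]; exact h
  by_cases hs : P + P' = 0
  · left; exact hs
  obtain ⟨X, Y, hX, hY⟩ := h.resolve_left hP
  obtain ⟨X', Y', hX', hY'⟩ := h'.resolve_left hP'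
  right
  by_cases hx : xc P = xc P'
  · -- doubling
    have hPP : P = P' := by
      rcases (xc_eq_iff hP hP').1 hx with h | h
      · exact h
      · exact absurd (by rw [h, neg_add_cancel]) hs
    subst hPP
    have hv : vc P ≠ 0 := fun hv => hs ((add_self_eq_zero_iff hP).2 hv)
    obtain ⟨μ, hμ, h4, hv₃⟩ := add_formula_self hP hv
    have hg : ev (gK W X) ≠ 0 := by
      rw [← hG.vc_sq_eq hP hX]; exact pow_ne_zero 2 hv
    refine isOdd_of_formula h2 hG hX hX hY
      (M := (6 * X ^ 2 + RatFunc.C W.b₂ * X + RatFunc.C W.b₄) * Y / gK W X) ?_ h4 hv₃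
    rw [map_div₀, div_mul_eq_mul_div, eq_div_iff hg, ← hG.vc_sq_eq hP hX]
    simp only [map_add, map_mul, map_pow, map_ofNat, ← hG.b₂, ← hG.b₄, ← hX]
    rw [mul_assoc _ (ev Y), ← hY, ← hμ]
    ring
  · obtain ⟨μ, hμ, h4, hv₃⟩ := add_formula_of_ne hP hP' hx
    have hd : ev (X - X') ≠ 0 := by
      rw [map_sub, ← hX, ← hX']; exact sub_ne_zero.2 hx
    refine isOdd_of_formula h2 hG hX hX' hY (M := (Y - Y') / (X - X')) ?_ h4 hv₃
    rw [map_div₀, div_mul_eq_mul_div, eq_div_iff hd, map_sub, map_sub, ← hX, ← hX', hμ, hY, hY']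
    ring

/-- the subgroup of odd points. -/
def oddSubgroup (h2 : (2 : F) ≠ 0) (hG : Gen W E ev Q) : AddSubgroup E.Point where
  carrier := {P | IsOdd ev Q P}
  zero_mem' := isOdd_zero Q
  add_mem' := fun h h' => isOdd_add h2 hG h h'
  neg_mem' := fun h => isOdd_neg hG h

lemma mem_oddSubgroup (h2 : (2 : F) ≠ 0) (hG : Gen W E ev Q) (P : E.Point) :
    P ∈ oddSubgroup h2 hG ↔ IsOdd ev Q P := Iff.rfl

theorem isOdd_sub (h2 : (2 : F) ≠ 0) (hG : Gen W E ev Q) {P P' : E.Point} (h : IsOdd ev Q P)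
    (h' : IsOdd ev Q P') : IsOdd ev Q (P - P') :=
  (oddSubgroup h2 hG).sub_mem h h'

end odd

end Fermat.Agent.HW
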