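import Fermat.Agent.HW.Defs

/-! # HW / R1 : basic API of `rdeg` (Mathlib only). -/

set_option autoImplicit false

namespace Fermat.Agent.HW

open Polynomial

variable {F : Type*} [Field F]

/-- `rdeg` can be computed from any coprime representation. -/
theorem rdeg_div {a b : F[X]} (hb : b ≠ 0) (hab : IsCoprime a b) :
    rdeg (algebraMap F[X] (RatFunc F) a / algebraMap F[X] (RatFunc F) b)
      = max a.natDegree b.natDegree := by
  set r : RatFunc F := algebraMap F[X] (RatFunc F) a / algebraMap F[X] (RatFunc F) b with hr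
  have h1 : r.num * b = a * r.denom := (RatFunc.num_mul_eq_mul_denom_iff hb).2 hr
  have hc := RatFunc.isCoprime_num_denom r
  have ha1 : a ∣ r.num := hab.dvd_of_dvd_mul_right (Dvd.intro _ h1.symm)
  have ha2 : r.num ∣ a := hc.dvd_of_dvd_mul_right (Dvd.intro _ h1)
  have hb1 : b ∣ r.denom := hab.symm.dvd_of_dvd_mul_left (Dvd.intro_left _ h1)
  have hb2 : r.denom ∣ b := hc.symm.dvd_of_dvd_mul_left (Dvd.intro_left _ h1.symm)
  unfold rdeg
  rw [natDegree_eq_of_degree_eq (degree_eq_degree_of_associated (associated_of_dvd_dvd ha2 ha1)),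
    natDegree_eq_of_degree_eq (degree_eq_degree_of_associated (associated_of_dvd_dvd hb2 hb1))]

theorem exists_rep (r : RatFunc F) : ∃ a b : F[X], b ≠ 0 ∧ IsCoprime a b ∧
    r = algebraMap F[X] (RatFunc F) a / algebraMap F[X] (RatFunc F) b ∧
    rdeg r = max a.natDegree b.natDegree :=
  ⟨r.num, r.denom, r.denom_ne_zero, r.isCoprime_num_denom, r.num_div_denom.symm, rfl⟩

theorem rdeg_C (c : F) : rdeg (RatFunc.C c) = 0 := by
  simp [rdeg]

theorem rdeg_zero : rdeg (0 : RatFunc F) = 0 := by
  simp [rdeg]

theorem rdeg_X : rdeg (RatFunc.X : RatFunc F) = 1 := by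
  simp [rdeg]

theorem rdeg_eq_zero_iff (r : RatFunc F) : rdeg r = 0 ↔ ∃ c : F, r = RatFunc.C c := by
  constructor
  · intro h
    have h1 : r.num.natDegree = 0 := by
      have := le_max_left r.num.natDegree r.denom.natDegree
      unfold rdeg at h
      omega
    have h2 : r.denom.natDegree = 0 := by
      have := le_max_right r.num.natDegree r.denom.natDegree
      unfold rdeg at h
      omega
    have h3 : r.denom = 1 := by
      have := r.monic_denom
      exact this.natDegree_eq_zero.1 h2
    refine ⟨r.num.coeff 0, ?_⟩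
    conv_lhs => rw [← r.num_div_denom, h3, eq_C_of_natDegree_eq_zero h1]
    simp [RatFunc.algebraMap_C]
  · rintro ⟨c, rfl⟩
    exact rdeg_C c

end Fermat.Agent.HW
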