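import Fermat.Agent.S05.GoodRed

/-!
# HW (B): reduction of `p`-torsion points of an elliptic curve with good reduction

`K` a field, `A` a valuation subring, `π : A →+* k` a ring hom onto a field with kernel the maximal
ideal, `WA` a Weierstrass curve over `A` with unit discriminant.  We construct an injective additive
map from the `p`-torsion of `WA(K)` to `WA(k)` given by reducing the coordinates (`p` an odd prime
different from the residue characteristic `q`).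
-/

set_option autoImplicit false
set_option linter.unusedSectionVars false
noncomputable section

namespace Fermat.Agent.HW

open WeierstrassCurve WeierstrassCurve.Affine WeierstrassCurve.Affine.Point
open Fermat.Agent.S05

section Basic

variable {F : Type*} [Field F] {W : WeierstrassCurve.Affine F}

theorem point_ext {P Q : W.Point} (hP : P ≠ 0) (hQ : Q ≠ 0) (hx : xc P = xc Q)
    (hy : yc P = yc Q) : P = Q := by
  cases P with
  | zero => exact absurd rfl hP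
  | some x y h =>
    cases Q with
    | zero => exact absurd rfl hQ
    | some x' y' h' =>
      simp only [xc_some, yc_some] at hx hy
      subst hx; subst hy; rfl

end Basic

variable {K : Type*} [Field K] {A : ValuationSubring K} {k : Type*} [Field k]

/-- `π` is a residue map of `A`. -/
def IsResidueMap (π : A →+* k) : Prop := ∀ x : A, π x = 0 ↔ A.valuation (x : K) < 1

theorem IsResidueMap.exists_inv {π : A →+* k} (hπ : IsResidueMap π) {Z : A} (hZ : π Z ≠ 0) :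
    ∃ U : A, Z * U = 1 := by
  have h1 : A.valuation (Z : K) = 1 := by
    refine le_antisymm (A.valuation_le_one Z) (not_lt.mp fun h => hZ ((hπ Z).mpr h))
  obtain ⟨u, hu⟩ := (A.valuation_eq_one_iff Z).mpr h1
  exact ⟨((u⁻¹ : Aˣ) : A), by rw [← hu]; exact u.mul_inv⟩

theorem IsResidueMap.val_sub_lt {π : A →+* k} (hπ : IsResidueMap π) {X Y : A} (h : π X = π Y) :
    A.valuation ((X : K) - (Y : K)) < 1 := by
  have := (hπ (X - Y)).mp (by rw [map_sub, h, sub_self])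
  simpa using this

theorem isResidueMap_residue : IsResidueMap (IsLocalRing.residue A) := by
  intro x
  rw [IsLocalRing.residue_eq_zero_iff, ← ValuationSubring.valuation_lt_one_iff]

section Lift

variable [DecidableEq K] [DecidableEq k] (π : A →+* k) (WA : WeierstrassCurve A)

/-- the curve over `K` -/
abbrev WK : WeierstrassCurve.Affine K := (WA.map A.subtype).toAffine

/-- the curve over `k` -/
abbrev Wk : WeierstrassCurve.Affine k := (WA.map π).toAffine

variable {π WA}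

/-- `Pk` is the coordinatewise reduction of `P` -/
def Lift (P : (WK WA).Point) (Pk : (Wk π WA).Point) : Prop :=
  (P = 0 ∧ Pk = 0) ∨ (P ≠ 0 ∧ Pk ≠ 0 ∧ ∃ X Y : A, xc P = X ∧ yc P = Y ∧ xc Pk = π X ∧ yc Pk = π Y)

theorem lift_zero : Lift (π := π) (WA := WA) 0 0 := Or.inl ⟨rfl, rfl⟩

theorem Lift.eq_zero {P : (WK WA).Point} (h : Lift (π := π) P 0) : P = 0 := by
  rcases h with h | h
  · exact h.1
  · exact absurd rfl h.2.1

theorem Lift.unique {P : (WK WA).Point} {Pk Pk' : (Wk π WA).Point} (h : Lift P Pk)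
    (h' : Lift P Pk') : Pk = Pk' := by
  rcases h with ⟨h0, h1⟩ | ⟨h0, h1, X, Y, hX, hY, hXk, hYk⟩
  · rcases h' with ⟨_, h1'⟩ | ⟨h0', _⟩
    · rw [h1, h1']
    · exact absurd h0 h0'
  · rcases h' with ⟨h0', _⟩ | ⟨_, h1', X', Y', hX', hY', hXk', hYk'⟩
    · exact absurd h0' h0
    · have eX : X = X' := Subtype.ext (hX.symm.trans hX')
      have eY : Y = Y' := Subtype.ext (hY.symm.trans hY')
      subst eX; subst eY
      exact point_ext h1 h1' (hXk.trans hXk'.symm) (hYk.trans hYk'.symm)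

theorem Lift.neg {P : (WK WA).Point} {Pk : (Wk π WA).Point} (h : Lift P Pk) : Lift (-P) (-Pk) := by
  rcases h with ⟨h0, h1⟩ | ⟨h0, h1, X, Y, hX, hY, hXk, hYk⟩
  · left; rw [h0, h1]; exact ⟨_root_.neg_zero, _root_.neg_zero⟩
  · right
    refine ⟨neg_ne_zero.mpr h0, neg_ne_zero.mpr h1, X, WA.toAffine.negY X Y, ?_, ?_, ?_, ?_⟩
    · rw [xc_neg, hX]
    · rw [yc_neg h0, hX, hY]; exact map_negY (W' := WA.toAffine) A.subtype X Y
    · rw [xc_neg, hXk]
    · rw [yc_neg h1, hXk, hYk]; exact map_negY (W' := WA.toAffine) π X Y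

/-- the main computation: if the slope is integral and reduces to the slope, the sum reduces to the
sum -/
theorem lift_add_of_slope {P Q : (WK WA).Point} {Pk Qk : (Wk π WA).Point}
    {X₁ Y₁ X₂ Y₂ Λ : A} (hP : P ≠ 0) (hQ : Q ≠ 0) (hPk : Pk ≠ 0) (hQk : Qk ≠ 0)
    (hX₁ : xc P = X₁) (hY₁ : yc P = Y₁) (hX₂ : xc Q = X₂) (hY₂ : yc Q = Y₂)
    (hX₁k : xc Pk = π X₁) (hY₁k : yc Pk = π Y₁) (hX₂k : xc Qk = π X₂) (hY₂k : yc Qk = π Y₂)
    (hxy : ¬((X₁ : K) = X₂ ∧ (Y₁ : K) = (WK WA).negY X₂ Y₂))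
    (hab : ¬(π X₁ = π X₂ ∧ π Y₁ = (Wk π WA).negY (π X₂) (π Y₂)))
    (hΛ : (WK WA).slope (X₁ : K) X₂ Y₁ Y₂ = Λ)
    (hΛk : (Wk π WA).slope (π X₁) (π X₂) (π Y₁) (π Y₂) = π Λ) :
    Lift (P + Q) (Pk + Qk) := by
  cases P with
  | zero => exact absurd rfl hP
  | some x₁ y₁ h₁ =>
  cases Q with
  | zero => exact absurd rfl hQ
  | some x₂ y₂ h₂ =>
  cases Pk with
  | zero => exact absurd rfl hPk
  | some a₁ b₁ g₁ =>
  cases Qk with
  | zero => exact absurd rfl hQk
  | some a₂ b₂ g₂ =>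
  simp only [xc_some, yc_some] at hX₁ hY₁ hX₂ hY₂ hX₁k hY₁k hX₂k hY₂k
  subst hX₁ hY₁ hX₂ hY₂ hX₁k hY₁k hX₂k hY₂k
  rw [add_some hxy, add_some hab]
  right
  refine ⟨some_ne_zero _, some_ne_zero _, WA.toAffine.addX X₁ X₂ Λ,
    WA.toAffine.addY X₁ X₂ Y₁ Λ, ?_, ?_, ?_, ?_⟩
  · rw [xc_some, hΛ]; exact map_addX (W' := WA.toAffine) A.subtype X₁ X₂ Λ
  · rw [yc_some, hΛ]; exact map_addY (W' := WA.toAffine) A.subtype X₁ Y₁ X₂ Λ
  · rw [xc_some, hΛk]; exact map_addX (W' := WA.toAffine) π X₁ X₂ Λ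
  · rw [yc_some, hΛk]; exact map_addY (W' := WA.toAffine) π X₁ Y₁ X₂ Λ

end Lift

section Torsion

variable [DecidableEq K] [DecidableEq k]

/-- the standing hypotheses -/
structure TorsHyp (π : A →+* k) (WA : WeierstrassCurve A) (p q : ℕ) : Prop where
  res : IsResidueMap π
  disc : IsUnit WA.Δ
  hp : p.Prime
  hp2 : p ≠ 2
  hq : q.Prime
  hpq : p ≠ q
  hqA : A.valuation (q : K) < 1

variable {π : A →+* k} {WA : WeierstrassCurve A} {p q : ℕ}

namespace TorsHyp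

variable (H : TorsHyp π WA p q)
include H

theorem val_disc : A.valuation (WK WA).Δ = 1 := by
  have : (WK WA).Δ = ((WA.Δ : A) : K) := map_Δ WA A.subtype
  rw [this]
  exact (A.valuation_eq_one_iff _).mp H.disc

theorem disc_k_ne_zero : (Wk π WA).Δ ≠ 0 := by
  have : (Wk π WA).Δ = π WA.Δ := map_Δ WA π
  rw [this]
  exact (H.disc.map π).ne_zero

theorem nonsingular_k {X Y : A} (h : (WK WA).Equation (X : K) (Y : K)) :
    (Wk π WA).Nonsingular (π X) (π Y) := by
  have h1 : WA.toAffine.Equation X Y :=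
    (map_equation (W := WA.toAffine) (f := A.subtype) Subtype.val_injective X Y).mp h
  exact (equation_iff_nonsingular_of_Δ_ne_zero H.disc_k_ne_zero).mp (Equation.map π h1)

theorem exists_coords {P : (WK WA).Point} (hP : P ≠ 0) (hpP : p • P = 0) :
    ∃ X Y : A, xc P = X ∧ yc P = Y := by
  obtain ⟨hb₂, hb₄, hb₆, hb₈⟩ := b_mem A (W := WK WA) (WA.a₁).2 (WA.a₂).2 (WA.a₃).2 (WA.a₄).2
    (WA.a₆).2
  have hx := torsion_x_integral A p q H.hp H.hp2 H.hq H.hpq H.hqA hb₂ hb₄ hb₆ hb₈ hP hpP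
  have hy := y_integral A (W := WK WA) (WA.a₁).2 (WA.a₂).2 (WA.a₃).2 (WA.a₄).2 (WA.a₆).2 hP hx
  exact ⟨⟨_, (A.valuation_le_one_iff _).mp hx⟩, ⟨_, (A.valuation_le_one_iff _).mp hy⟩, rfl, rfl⟩

theorem exists_lift {P : (WK WA).Point} (hpP : p • P = 0) : ∃ Pk : (Wk π WA).Point, Lift P Pk := by
  by_cases hP : P = 0
  · exact ⟨0, Or.inl ⟨hP, rfl⟩⟩
  · obtain ⟨X, Y, hX, hY⟩ := H.exists_coords hP hpP
    have he : (WK WA).Equation (X : K) (Y : K) := by
      rw [← hX, ← hY]; exact (nonsingular_xc_yc hP).1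
    exact ⟨.some _ _ (H.nonsingular_k he), Or.inr ⟨hP, some_ne_zero _, X, Y, hX, hY, rfl, rfl⟩⟩

/-- congruent torsion points are equal -/
theorem eq_of_congr {P Q : (WK WA).Point} (hP : P ≠ 0) (hQ : Q ≠ 0) (hpP : p • P = 0)
    (hpQ : p • Q = 0) {X₁ Y₁ X₂ Y₂ : A} (hX₁ : xc P = X₁) (hY₁ : yc P = Y₁) (hX₂ : xc Q = X₂)
    (hY₂ : yc Q = Y₂) (hX : π X₁ = π X₂) (hY : π Y₁ = π Y₂) : P = Q := by
  refine eq_of_congr_of_hns A p q H.hp H.hp2 H.hq H.hpq H.hqA (W := WK WA) (WA.a₁).2 (WA.a₂).2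
    (WA.a₃).2 (WA.a₄).2 (WA.a₆).2 hP hQ hpP hpQ ?_ ?_ ?_
  · rw [hX₁, hX₂]; exact H.res.val_sub_lt hX
  · rw [hY₁, hY₂]; exact H.res.val_sub_lt hY
  · refine hns_of_unit_disc A (W := WK WA) (WA.a₁).2 (WA.a₂).2 (WA.a₃).2 (WA.a₄).2 H.val_disc hQ
      ?_ ?_
    · rw [hX₂]; exact A.valuation_le_one _
    · rw [hY₂]; exact A.valuation_le_one _

omit H in
theorem map_div_of_mul_eq_one {R F' : Type*} [CommRing R] [Field F'] (f : R →+* F') {Z U : R}
    (h : Z * U = 1) (N : R) : f N / f Z = f (N * U) := by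
  have h1 : f Z * f U = 1 := by rw [← map_mul, h, map_one]
  have hZ : f Z ≠ 0 := left_ne_zero_of_mul_eq_one h1
  rw [div_eq_iff hZ, map_mul, mul_assoc, mul_comm (f U), h1, mul_one]

theorem eq_zero_of_eq_neg {P : (WK WA).Point} (hpP : p • P = 0) (h : P = -P) : P = 0 := by
  have h2 : 2 • P = 0 := by
    rw [two_smul]
    nth_rewrite 1 [h]
    exact neg_add_cancel P
  obtain ⟨m, hm⟩ := H.hp.eq_two_or_odd'.resolve_left H.hp2
  rw [hm, add_smul, mul_comm, mul_smul, h2, smul_zero, zero_add, one_smul] at hpP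
  exact hpP

/-- additivity of the reduction on `p`-torsion -/
theorem lift_add {P Q : (WK WA).Point} {Pk Qk : (Wk π WA).Point} (hpP : p • P = 0)
    (hpQ : p • Q = 0) (hP : Lift P Pk) (hQ : Lift Q Qk) : Lift (P + Q) (Pk + Qk) := by
  rcases hP with ⟨rfl, rfl⟩ | ⟨hP0, hPk0, X₁, Y₁, hX₁, hY₁, hX₁k, hY₁k⟩
  · rw [zero_add, zero_add]; exact hQ
  rcases hQ with ⟨rfl, rfl⟩ | ⟨hQ0, hQk0, X₂, Y₂, hX₂, hY₂, hX₂k, hY₂k⟩
  · rw [add_zero, add_zero]; exact Or.inr ⟨hP0, hPk0, X₁, Y₁, hX₁, hY₁, hX₁k, hY₁k⟩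
  have negK : ∀ X Y : A, (WK WA).negY (X : K) (Y : K) = ((WA.toAffine.negY X Y : A) : K) :=
    fun X Y => map_negY (W' := WA.toAffine) A.subtype X Y
  have negk : ∀ X Y : A, (Wk π WA).negY (π X) (π Y) = π (WA.toAffine.negY X Y) :=
    fun X Y => map_negY (W' := WA.toAffine) π X Y
  by_cases hX : π X₁ = π X₂
  · by_cases hY : π Y₁ = π Y₂
    · -- `P = Q`: doubling
      have hPQ : P = Q := H.eq_of_congr hP0 hQ0 hpP hpQ hX₁ hY₁ hX₂ hY₂ hX hY
      subst hPQ
      have eX : X₁ = X₂ := Subtype.ext (hX₁.symm.trans hX₂)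
      have eY : Y₁ = Y₂ := Subtype.ext (hY₁.symm.trans hY₂)
      subst eX; subst eY
      have hD : π (Y₁ - WA.toAffine.negY X₁ Y₁) ≠ 0 := by
        intro h0
        rw [map_sub, sub_eq_zero] at h0
        have hneg : P = -P := H.eq_of_congr hP0 (neg_ne_zero.mpr hP0) hpP
          (by rw [smul_neg, hpP, _root_.neg_zero]) hX₁ hY₁ (by rw [xc_neg, hX₁])
          (by rw [yc_neg hP0, hX₁, hY₁, negK]) rfl h0
        exact hP0 (H.eq_zero_of_eq_neg hpP hneg)
      obtain ⟨U, hU⟩ := H.res.exists_inv hD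
      have hyK : (Y₁ : K) ≠ (WK WA).negY X₁ Y₁ := by
        intro h
        rw [negK] at h
        apply hD
        have h' : Y₁ = WA.toAffine.negY X₁ Y₁ := Subtype.ext h
        rw [map_sub, ← h', sub_self]
      have hyk : π Y₁ ≠ (Wk π WA).negY (π X₁) (π Y₁) := by
        intro h
        rw [negk] at h
        apply hD
        rw [map_sub, h, sub_self]
      refine lift_add_of_slope
        (Λ := (3 * X₁ ^ 2 + 2 * WA.a₂ * X₁ + WA.a₄ - WA.a₁ * Y₁) * U) hP0 hP0 hPk0 hQk0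
        hX₁ hY₁ hX₁ hY₁ hX₁k hY₁k hX₂k hY₂k (fun h => hyK h.2) (fun h => hyk h.2) ?_ ?_
      · rw [slope_of_Y_ne rfl hyK, negK]
        exact map_div_of_mul_eq_one A.subtype hU
          (3 * X₁ ^ 2 + 2 * WA.a₂ * X₁ + WA.a₄ - WA.a₁ * Y₁)
      · rw [slope_of_Y_ne rfl hyk, negk]
        have := map_div_of_mul_eq_one π hU (3 * X₁ ^ 2 + 2 * WA.a₂ * X₁ + WA.a₄ - WA.a₁ * Y₁)
        rw [← this]
        simp only [map_sub, map_add, map_mul, map_pow, map_ofNat]
        rfl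
    · -- `P = -Q`
      have e1 : (Wk π WA).Equation (π X₁) (π Y₁) := by
        rw [← hX₁k, ← hY₁k]; exact (nonsingular_xc_yc hPk0).1
      have e2 : (Wk π WA).Equation (π X₂) (π Y₂) := by
        rw [← hX₂k, ← hY₂k]; exact (nonsingular_xc_yc hQk0).1
      have hneg : π Y₁ = π (WA.toAffine.negY X₂ Y₂) := by
        rw [← negk]
        exact (Y_eq_of_X_eq e1 e2 hX).resolve_left hY
      have hPQ : P = -Q := H.eq_of_congr hP0 (neg_ne_zero.mpr hQ0) hpP
        (by rw [smul_neg, hpQ, _root_.neg_zero]) hX₁ hY₁ (by rw [xc_neg, hX₂])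
        (by rw [yc_neg hQ0, hX₂, hY₂, negK]) hX hneg
      have hk : Pk = -Qk := point_ext hPk0 (neg_ne_zero.mpr hQk0)
        (by rw [xc_neg, hX₁k, hX₂k, hX]) (by rw [yc_neg hQk0, hY₁k, hX₂k, hY₂k, negk, hneg])
      rw [hPQ, hk, neg_add_cancel, neg_add_cancel]
      exact lift_zero
  · -- generic case
    obtain ⟨U, hU⟩ := H.res.exists_inv (Z := X₁ - X₂) (by rw [map_sub]; exact sub_ne_zero.mpr hX)
    have hXK : (X₁ : K) ≠ X₂ := fun h => hX (by rw [Subtype.ext h])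
    refine lift_add_of_slope (Λ := (Y₁ - Y₂) * U) hP0 hQ0 hPk0 hQk0
      hX₁ hY₁ hX₂ hY₂ hX₁k hY₁k hX₂k hY₂k (fun h => hXK h.1) (fun h => hX h.1) ?_ ?_
    · rw [slope_of_X_ne hXK]
      exact map_div_of_mul_eq_one A.subtype hU (Y₁ - Y₂)
    · rw [slope_of_X_ne hX, ← map_sub, ← map_sub]
      exact map_div_of_mul_eq_one π hU _

omit H in
theorem nsmul_eq_zero_of_mem {M : Type*} [AddCommGroup M] {P : M}
    (hP : P ∈ Submodule.torsionBy ℤ M (p : ℤ)) : p • P = 0 := by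
  rw [Submodule.mem_torsionBy_iff] at hP
  rw [← natCast_zsmul]; exact hP

/-- the reduction map on `p`-torsion, as a function -/
def redFun (P : Submodule.torsionBy ℤ (WK WA).Point (p : ℤ)) : (Wk π WA).Point :=
  (H.exists_lift (nsmul_eq_zero_of_mem P.2)).choose

theorem lift_redFun (P : Submodule.torsionBy ℤ (WK WA).Point (p : ℤ)) :
    Lift (P : (WK WA).Point) (H.redFun P) :=
  (H.exists_lift (nsmul_eq_zero_of_mem P.2)).choose_spec

/-- **the reduction map on `p`-torsion** -/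
def red : Submodule.torsionBy ℤ (WK WA).Point (p : ℤ) →+ (Wk π WA).Point where
  toFun := H.redFun
  map_zero' := (H.lift_redFun 0).unique lift_zero
  map_add' P Q := (H.lift_redFun (P + Q)).unique
    (H.lift_add (nsmul_eq_zero_of_mem P.2) (nsmul_eq_zero_of_mem Q.2) (H.lift_redFun P)
      (H.lift_redFun Q))

theorem lift_red (P : Submodule.torsionBy ℤ (WK WA).Point (p : ℤ)) :
    Lift (P : (WK WA).Point) (H.red P) := H.lift_redFun P

theorem red_eq_of_lift {P : Submodule.torsionBy ℤ (WK WA).Point (p : ℤ)} {Pk : (Wk π WA).Point}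
    (h : Lift (P : (WK WA).Point) Pk) : H.red P = Pk := (H.lift_red P).unique h

theorem red_injective : Function.Injective H.red := by
  rw [injective_iff_map_eq_zero]
  intro P hP
  have := H.lift_red P
  rw [hP] at this
  exact Subtype.ext this.eq_zero

/-- the reduction map is given by reducing the coordinates -/
theorem red_coords (P : Submodule.torsionBy ℤ (WK WA).Point (p : ℤ)) (hP : P ≠ 0) :
    H.red P ≠ 0 ∧ ∃ X Y : A, xc (P : (WK WA).Point) = X ∧ yc (P : (WK WA).Point) = Y ∧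
      xc (H.red P) = π X ∧ yc (H.red P) = π Y := by
  rcases H.lift_red P with ⟨h0, _⟩ | ⟨_, h1, h2⟩
  · exact absurd (Subtype.ext h0) hP
  · exact ⟨h1, h2⟩

theorem p_nsmul_red (P : Submodule.torsionBy ℤ (WK WA).Point (p : ℤ)) : p • H.red P = 0 := by
  rw [← map_nsmul]
  have : p • P = 0 := Subtype.ext (nsmul_eq_zero_of_mem P.2)
  rw [this, _root_.map_zero]

/-- **equivariance**: if `s`, `sk` act on points through compatible ring homs on the coordinates,
then `red ∘ s = sk ∘ red`. -/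
theorem red_equivariant (σA : A →+* A) (σk : k →+* k) (hσ : ∀ a, σk (π a) = π (σA a))
    (s : (WK WA).Point → (WK WA).Point) (sk : (Wk π WA).Point → (Wk π WA).Point)
    (hs0 : s 0 = 0) (hsk0 : sk 0 = 0)
    (hs : ∀ P : (WK WA).Point, P ≠ 0 → ∀ X Y : A, xc P = X → yc P = Y →
      s P ≠ 0 ∧ xc (s P) = σA X ∧ yc (s P) = σA Y)
    (hsk : ∀ P : (Wk π WA).Point, P ≠ 0 → sk P ≠ 0 ∧ xc (sk P) = σk (xc P) ∧ yc (sk P) = σk (yc P))
    (P P' : Submodule.torsionBy ℤ (WK WA).Point (p : ℤ))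
    (hP' : (P' : (WK WA).Point) = s P) : H.red P' = sk (H.red P) := by
  apply H.red_eq_of_lift
  rw [hP']
  rcases H.lift_red P with ⟨h0, h1⟩ | ⟨h0, h1, X, Y, hX, hY, hXk, hYk⟩
  · left; rw [h0, h1]; exact ⟨hs0, hsk0⟩
  · right
    obtain ⟨a, b, c⟩ := hs _ h0 X Y hX hY
    obtain ⟨a', b', c'⟩ := hsk _ h1
    exact ⟨a, a', σA X, σA Y, b, c, by rw [b', hXk, hσ], by rw [c', hYk, hσ]⟩

end TorsHyp

end Torsion

end Fermat.Agent.HW
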