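import Fermat.Agent.HW.OddPar
import Fermat.Agent.HW.GenPoint

/-! # HW / TOR-1 : multiplication by `n` on a generic point is a universal rational function of degree `n²`.

* `ht_nsmul`: from `ht_parallelogram` with `(nQ, Q)`: `ht ((n+1)Q) + ht ((n-1)Q) = 2 ht (nQ) + 2 ht Q`, induction.
* universality: define `(Xₙ, Yₙ) ∈ F(T)²` by recursion, `(X₁,Y₁) = (T,1)`; step `n → n+1` by the explicit witnesses in the
  proof of `isOdd_of_formula` (OddGroup.lean): `M = (Yₙ - 1)/(Xₙ - T)` for `n ≥ 2` (`xc (nQ) ≠ xc Q` because the heights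
  `n²`, `1` differ), `M = (6T² + b₂T + b₄)/g(T)` for `n = 1` (`add_formula_self`; `vc Q ≠ 0` since `w² = ev g(T) ≠ 0`);
  `X' = (M² g(T) - b₂ - 4Xₙ - 4T)/4`, `Y' = -(Yₙ + M (X' - Xₙ))`.  Induction: for EVERY generic `(L,E,ev,Q)`:
  `nQ ≠ 0`, `xc (nQ) = ev Xₙ`, `vc (nQ) = ev Yₙ * vc Q`.
* `rdeg Xₙ = n²`: apply to one generic point (`exists_generic` with `k = F`, `exists_ev`). -/

set_option autoImplicit false

namespace Fermat.Agent.HW

open Polynomial WeierstrassCurve Fermat.Agent.S05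

universe u

theorem isOdd_nsmul {F L : Type*} [Field F] [Field L] [DecidableEq L]
    {W : WeierstrassCurve F} {E : WeierstrassCurve.Affine L} {ev : RatFunc F →+* L} {Q : E.Point}
    (h2 : (2 : F) ≠ 0) (hG : Gen W E ev Q) (n : ℕ) : IsOdd ev Q (n • Q) :=
  (oddSubgroup h2 hG).nsmul_mem hG.isOdd_self n

theorem ht_nsmul {F L : Type*} [Field F] [Field L] [DecidableEq L]
    {W : WeierstrassCurve F} {E : WeierstrassCurve.Affine L} {ev : RatFunc F →+* L} {Q : E.Point}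
    (h2 : (2 : F) ≠ 0) (hΔ : W.Δ ≠ 0) (hG : Gen W E ev Q) (n : ℕ) :
    ht ev (n • Q) = (n : ℤ) ^ 2 := by
  have h1 : ht ev Q = 1 := by rw [hG.ht_self, rdeg_X]; rfl
  have key : ∀ n : ℕ, ht ev (n • Q) = (n : ℤ) ^ 2 ∧ ht ev ((n + 1) • Q) = ((n + 1 : ℕ) : ℤ) ^ 2 := by
    intro n
    induction n with
    | zero => simp [h1]
    | succ n ih =>
      refine ⟨ih.2, ?_⟩
      have hp := ht_parallelogram h2 hΔ hG (isOdd_nsmul h2 hG (n + 1)) hG.isOdd_self
      have e1 : (n + 1) • Q + Q = (n + 1 + 1) • Q := (succ_nsmul Q (n + 1)).symm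
      have e2 : (n + 1) • Q - Q = n • Q := by rw [succ_nsmul, add_sub_cancel_right]
      rw [e1, e2, ih.1, ih.2, h1] at hp
      push_cast at hp ⊢
      linarith
  exact (key n).1

/-- the `x`-coordinate produced by the addition formula with slope `M * w`. -/
noncomputable def stepX {F : Type*} [Field F] (W : WeierstrassCurve F) (M X X' : RatFunc F) :
    RatFunc F :=
  (M ^ 2 * gK W RatFunc.X - RatFunc.C W.b₂ - 4 * X - 4 * X') / 4

/-- the `v / w`-coordinate produced by the addition formula with slope `M * w`. -/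
noncomputable def stepY {F : Type*} [Field F] (W : WeierstrassCurve F) (M X X' Y : RatFunc F) :
    RatFunc F :=
  -(Y + M * (stepX W M X X' - X))

/-- explicit form of `isOdd_of_formula`. -/
theorem formula_explicit {F L : Type*} [Field F] [Field L]
    {W : WeierstrassCurve F} {E : WeierstrassCurve.Affine L} {ev : RatFunc F →+* L} {Q : E.Point}
    (h2 : (2 : F) ≠ 0) (hG : Gen W E ev Q) {x x' v x₃ v₃ μ : L}
    {X X' Y M : RatFunc F} (hX : x = ev X) (hX' : x' = ev X') (hY : v = ev Y * vc Q)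
    (hM : μ = ev M * vc Q) (h4 : 4 * x₃ = μ ^ 2 - E.b₂ - 4 * x - 4 * x')
    (hv : v₃ = -(v + μ * (x₃ - x))) :
    x₃ = ev (stepX W M X X') ∧ v₃ = ev (stepY W M X X' Y) * vc Q := by
  unfold stepY stepX
  have h4F : (4 : RatFunc F) ≠ 0 := by
    have : (4 : RatFunc F) = RatFunc.C (2 * 2 : F) := by
      rw [map_mul, map_ofNat]; norm_num
    rw [this]
    exact (_root_.map_ne_zero _).2 (mul_ne_zero h2 h2)
  have h4L : ev 4 ≠ 0 := (_root_.map_ne_zero ev).2 h4F
  have hx₃ : x₃ = ev ((M ^ 2 * gK W RatFunc.X - RatFunc.C W.b₂ - 4 * X - 4 * X') / 4) := by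
    rw [map_div₀, eq_div_iff h4L]
    simp only [map_sub, map_mul, map_pow, map_ofNat, ← hG.w_sq, ← hG.b₂, ← hX, ← hX']
    rw [mul_comm, h4, hM]
    ring
  refine ⟨hx₃, ?_⟩
  rw [hv, map_neg, map_add, map_mul, map_sub, ← hx₃, ← hX, hY, hM]
  ring

theorem nsmul_ne_zero_of_gen {F L : Type*} [Field F] [Field L] [DecidableEq L]
    {W : WeierstrassCurve F} {E : WeierstrassCurve.Affine L} {ev : RatFunc F →+* L} {Q : E.Point}
    (h2 : (2 : F) ≠ 0) (hΔ : W.Δ ≠ 0) (hG : Gen W E ev Q) {n : ℕ} (hn : n ≠ 0) : n • Q ≠ 0 := by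
  intro h
  have h1 := ht_nsmul h2 hΔ hG n
  rw [h, ht_zero] at h1
  have : (n : ℤ) ≠ 0 := by exact_mod_cast hn
  exact this (pow_eq_zero_iff two_ne_zero |>.1 h1.symm)

/-- the universal coordinates of `n • Q`. -/
theorem exists_mul_ratFunc_aux {F : Type u} [Field F] (W : WeierstrassCurve F) (h2 : (2 : F) ≠ 0)
    (hΔ : W.Δ ≠ 0) (n : ℕ) :
    ∃ X Y : RatFunc F,
      ∀ (L : Type u) [Field L] [DecidableEq L] (E : WeierstrassCurve.Affine L)
        (ev : RatFunc F →+* L) (Q : E.Point), Gen W E ev Q →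
          xc ((n + 1) • Q) = ev X ∧ vc ((n + 1) • Q) = ev Y * vc Q := by
  induction n with
  | zero =>
    refine ⟨RatFunc.X, 1, fun L _ _ E ev Q hG => ?_⟩
    simp [hG.hx]
  | succ n ih =>
    obtain ⟨X, Y, h⟩ := ih
    by_cases hn : n = 0
    · subst hn
      refine ⟨stepX W ((6 * RatFunc.X ^ 2 + RatFunc.C W.b₂ * RatFunc.X + RatFunc.C W.b₄) /
          gK W RatFunc.X) RatFunc.X RatFunc.X,
        stepY W ((6 * RatFunc.X ^ 2 + RatFunc.C W.b₂ * RatFunc.X + RatFunc.C W.b₄) /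
          gK W RatFunc.X) RatFunc.X RatFunc.X 1, fun L _ _ E ev Q hG => ?_⟩
      have hs : Q + Q ≠ 0 := by
        have := nsmul_ne_zero_of_gen h2 hΔ hG (n := 2) two_ne_zero
        rwa [two_nsmul] at this
      have hv : vc Q ≠ 0 := fun hv => hs ((add_self_eq_zero_iff hG.ne).2 hv)
      obtain ⟨μ, hμ, h4, hv₃⟩ := add_formula_self hG.ne hv
      have hg : ev (gK W RatFunc.X) ≠ 0 := by
        rw [← hG.w_sq]; exact pow_ne_zero 2 hv
      have e : (0 + 1 + 1) • Q = Q + Q := by rw [zero_add, one_add_one_eq_two, two_nsmul]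
      rw [e]
      refine formula_explicit h2 hG (Y := 1) hG.hx hG.hx (by simp)
        (M := (6 * RatFunc.X ^ 2 + RatFunc.C W.b₂ * RatFunc.X + RatFunc.C W.b₄) / gK W RatFunc.X)
        ?_ h4 hv₃
      rw [map_div₀, div_mul_eq_mul_div, eq_div_iff hg, ← hG.w_sq]
      simp only [map_add, map_mul, map_pow, map_ofNat, ← hG.b₂, ← hG.b₄, ← hG.hx]
      rw [← hμ]
      ring
    · refine ⟨stepX W ((Y - 1) / (X - RatFunc.X)) X RatFunc.X,
        stepY W ((Y - 1) / (X - RatFunc.X)) X RatFunc.X Y, fun L _ _ E ev Q hG => ?_⟩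
      obtain ⟨hX, hY⟩ := h L E ev Q hG
      have hP : (n + 1) • Q ≠ 0 := nsmul_ne_zero_of_gen h2 hΔ hG (by omega)
      have hx : xc ((n + 1) • Q) ≠ xc Q := by
        intro hx
        have h1 := ht_nsmul h2 hΔ hG (n + 1)
        have h3 : ht ev ((n + 1) • Q) = ht ev Q := by
          rw [ht, ht, if_neg hP, if_neg hG.ne, hx]
        rw [h3, hG.ht_self, rdeg_X] at h1
        have h5 : ((n + 1 : ℕ) : ℤ) ^ 2 = 1 := h1.symm
        have h6 : (n + 1) ^ 2 = 1 := by exact_mod_cast h5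
        have h7 : n + 1 = 1 := by
          rcases Nat.pow_eq_one.mp h6 with h | h
          · exact h
          · omega
        omega
      obtain ⟨μ, hμ, h4, hv₃⟩ := add_formula_of_ne hP hG.ne hx
      have hd : ev (X - RatFunc.X) ≠ 0 := by
        rw [map_sub, ← hX, ← hG.hx]; exact sub_ne_zero.2 hx
      rw [succ_nsmul Q (n + 1)]
      refine formula_explicit h2 hG hX hG.hx hY (M := (Y - 1) / (X - RatFunc.X)) ?_ h4 hv₃
      rw [map_div₀, div_mul_eq_mul_div, eq_div_iff hd, map_sub, map_sub, ← hX, ← hG.hx, hμ, hY]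
      simp
      ring

theorem exists_mul_ratFunc {F : Type u} [Field F] (W : WeierstrassCurve F) (h2 : (2 : F) ≠ 0)
    (hΔ : W.Δ ≠ 0) (n : ℕ) (hn : 1 ≤ n) :
    ∃ R : RatFunc F, rdeg R = n ^ 2 ∧
      ∀ (L : Type u) [Field L] [DecidableEq L] (E : WeierstrassCurve.Affine L)
        (ev : RatFunc F →+* L) (Q : E.Point), Gen W E ev Q →
          n • Q ≠ 0 ∧ xc (n • Q) = ev R := by
  classical
  obtain ⟨m, rfl⟩ : ∃ m, n = m + 1 := ⟨n - 1, by omega⟩
  obtain ⟨X, Y, h⟩ := exists_mul_ratFunc_aux W h2 hΔ m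
  refine ⟨X, ?_, fun L _ _ E ev Q hG =>
    ⟨nsmul_ne_zero_of_gen h2 hΔ hG (by omega), (h L E ev Q hG).1⟩⟩
  obtain ⟨η, hη0, hη⟩ := exists_generic (k := F) W hΔ
  obtain ⟨ev, hC, hX⟩ := exists_ev hη
  have hG : Gen W (W.toAffine⁄(AlgebraicClosure (RatFunc F))) ev η :=
    { a₁ := by rw [hC]; rfl
      a₂ := by rw [hC]; rfl
      a₃ := by rw [hC]; rfl
      a₄ := by rw [hC]; rfl
      a₆ := by rw [hC]; rfl
      ne := hη0
      hx := hX.symm }
  have h1 := ht_nsmul h2 hΔ hG (m + 1)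
  rw [ht_of_eq (nsmul_ne_zero_of_gen h2 hΔ hG (by omega)) (h _ _ ev η hG).1] at h1
  exact_mod_cast h1

end Fermat.Agent.HW
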